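import Fermat.Agent.RIB.Grow.Inst
import Fermat.Agent.RIB.Grow.Ent
import Fermat.Agent.ML.Count.GrowAll

/-!
# ML / TWFREE : the abstract one-step datum `RIB.Grow.Hyp` for a FAMILY

Port of `RIB/Grow/Inst.grow_of` from `(thetaPart L, thetaPart (L l l))` to a pair of subgroups
`XV ≤ thetaPart L`, `XW ≤ thetaPart (L l l)` (`= XX(L), XX(L l²)` for a family `XX`, board #2577), and EXPORT of the datum
`H : RIB.Grow.Hyp p l n T io Pi τ₀` (in RIB it only lives inside a proof).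

Family axioms used: stability under `ι_l`, `Π_l`, `T_l`, inertia at `l`; REFLECT; divisibility; DIV (on `p`-torsion).
-/

set_option autoImplicit false
set_option linter.unusedSectionVars false

noncomputable section

open AlgebraicCurve ModularCurve

namespace Fermat.Agent.ML

open Fermat.Agent.RIB Fermat.Agent.GAL Fermat.Agent.GAL.PC

local notation "Qbar" => AlgebraicClosure ℚ
local notation "GQ" => (AlgebraicClosure ℚ ≃ₐ[ℚ] AlgebraicClosure ℚ)

variable {L l : ℕ} [NeZero L] [NeZero l]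

/-- `π_i^*` on the family -/
def ioX (XV : AddSubgroup (JZero L)) (XW : AddSubgroup (JZero (L * l * l)))
    (hio : ∀ i, ∀ v ∈ XV, iot L l i v ∈ XW) (i : Fin 3) : XV →+ XW :=
  ((iot L l i).comp XV.subtype).codRestrict _ (fun x => hio i x x.2)

/-- `π_{i *}` on the family -/
def PiX (XV : AddSubgroup (JZero L)) (XW : AddSubgroup (JZero (L * l * l)))
    (hPi : ∀ i, ∀ x ∈ XW, Pii L l i x ∈ XV) (i : Fin 3) : XW →+ XV :=
  ((Pii L l i).comp XW.subtype).codRestrict _ (fun x => hPi i x x.2)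

/-- `T_l` on the family -/
def TX (hl : l.Prime) (XV : AddSubgroup (JZero L))
    (hT : ∀ v ∈ XV, heckeOperatorBar L ⟨l, hl⟩ v ∈ XV) : XV →+ XV :=
  ((heckeOperatorBar L ⟨l, hl⟩).toAddMonoidHom.comp XV.subtype).codRestrict _
    (fun x => hT x x.2)

/-- the action of `τ` on a stable subgroup -/
def tauX {N : ℕ} [NeZero N] (XW : AddSubgroup (JZero N)) (τ : GQ) (hτ : ∀ x ∈ XW, τ • x ∈ XW) :
    XW →+ XW :=
  ((DistribSMul.toAddMonoidHom (JZero N) τ).comp XW.subtype).codRestrict _ (fun x => hτ x x.2)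

theorem coe_tauX {N : ℕ} [NeZero N] (XW : AddSubgroup (JZero N)) (τ : GQ)
    (hτ : ∀ x ∈ XW, τ • x ∈ XW) (x : XW) : ((tauX XW τ hτ x : XW) : JZero N) = τ • (x : JZero N) :=
  rfl

theorem tauX_iterate {N : ℕ} [NeZero N] (XW : AddSubgroup (JZero N)) (τ : GQ)
    (hτ : ∀ x ∈ XW, τ • x ∈ XW) (k : ℕ) (x : XW) :
    (((tauX XW τ hτ)^[k] x : XW) : JZero N) = τ ^ k • (x : JZero N) := by
  induction k generalizing x with
  | zero => rw [pow_zero, one_smul]; rfl
  | succ k ih => rw [Function.iterate_succ_apply, ih, coe_tauX, pow_succ, mul_smul]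

variable {p : ℕ} {S : Set ℕ} {θ : ℕ → ℤ}

set_option maxHeartbeats 1000000 in
/-- **the one-step datum for a family.** -/
theorem hyp_of_sub {n : ℕ} (hp : p.Prime) (hp2 : p ≠ 2) (hl : l.Prime) (hlL : ¬ l ∣ L) (hn : 1 ≤ n)
    (hdvd : p ^ n ∣ l - 1) (hex : ¬ p ^ (n + 1) ∣ l - 1)
    {A : ValuationSubring Qbar} (hA : A.LiesOverPrime l)
    (XV : AddSubgroup (JZero L)) (XW : AddSubgroup (JZero (L * l * l)))
    (hXV : XV ≤ thetaPart L p S θ) (hXW : XW ≤ thetaPart (L * l * l) p S θ)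
    (hio : ∀ i, ∀ v ∈ XV, iot L l i v ∈ XW) (hPi : ∀ i, ∀ x ∈ XW, Pii L l i x ∈ XV)
    (hT : ∀ v ∈ XV, heckeOperatorBar L ⟨l, hl⟩ v ∈ XV)
    (hrefl : ∀ v : Fin 3 → JZero L, (∀ i, v i ∈ thetaPart L p S θ) → iota L l v ∈ XW →
      ∀ i, v i ∈ XV)
    (hdivV : ∀ x ∈ XV, ∃ y ∈ XV, p • y = x) (hdivW : ∀ x ∈ XW, ∃ y ∈ XW, p • y = x)
    (hweil : ∀ v : Fin 3 → JZero L, (∀ i, v i ∈ XV ∧ p • v i = 0) →
      ∃ x ∈ XW, p • x = 0 ∧ ∀ i, Pii L l i x = v i)
    (hsurj : ∀ x ∈ thetaPart (L * l * l) p S θ, (∀ τ ∈ A.inertiaSubgroupIn ℚ, τ • x = x) →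
      ∃ v : Fin 3 → JZero L, (∀ i, v i ∈ thetaPart L p S θ) ∧ iota L l v = x)
    (hinj : ∀ v : Fin 3 → JZero L, (∀ i, v i ∈ thetaPart L p S θ ∧ p • v i = 0) →
      iota L l v = 0 → ∀ i, v i = 0)
    (hrho : ∀ τ ∈ A.inertiaSubgroupIn ℚ, ∀ x ∈ thetaPart (L * l * l) p S θ, τ ^ (p ^ n) • x = x)
    (hunit : ∀ v ∈ thetaPart L p S θ, p • v = 0 →
      ((l + 1) ^ 2) • v - heckeOperatorBar L ⟨l, hl⟩ (heckeOperatorBar L ⟨l, hl⟩ v) = 0 → v = 0)
    (τ₀ : GQ) (hτ₀ : τ₀ ∈ A.inertiaSubgroupIn ℚ) (hτX : ∀ x ∈ XW, τ₀ • x ∈ XW)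
    (hgen : ∀ x ∈ XW, p ^ (n + 1) • x = 0 → τ₀ • x = x → ∀ τ ∈ A.inertiaSubgroupIn ℚ, τ • x = x) :
    Grow.Hyp p l n (TX hl XV hT) (ioX XV XW hio) (PiX XV XW hPi) (tauX XW τ₀ hτX) := by
  have : Fact l.Prime := ⟨hl⟩
  have hE : Entries L l hl p := entries hlL hp.ne_zero
  have hpl : p ≠ l := by
    rintro rfl
    have h1 : p ∣ p - 1 := (dvd_pow_self p (by omega)).trans hdvd
    have := Nat.le_of_dvd (by have := hp.two_le; omega) h1
    have := hp.two_le
    omega
  have hlLp : ¬ l ∣ L * p := fun h => (hl.dvd_mul.1 h).elim hlL fun h' =>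
    hpl ((Nat.prime_dvd_prime_iff_eq hl hp).1 h').symm
  have hVt : ∀ v : XV, ∃ k, p ^ k • v = 0 := fun v => by
    obtain ⟨k, hk⟩ := (hXV v.2).1
    exact ⟨k, Subtype.ext hk⟩
  have hWt : ∀ x : XW, ∃ k, p ^ k • x = 0 := fun x => by
    obtain ⟨k, hk⟩ := (hXW x.2).1
    exact ⟨k, Subtype.ext hk⟩
  have hunr : ∀ τ ∈ A.inertiaSubgroupIn ℚ, ∀ v ∈ ptors (JZero L) p, τ • v = v := fun τ hτ v hv =>
    (SS.es_all L p).1 l hl hlLp A hA τ hτ v hv
  have hunit' : ∀ v : XV, ((l + 1) ^ 2) • v - TX hl XV hT (TX hl XV hT v) = 0 → v = 0 := by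
    intro v hv
    refine inj_of_inj_on_tors (p := p) hVt (TX hl XV hT) ((l + 1) ^ 2) ?_ v hv
    intro v h1 h2
    exact Subtype.ext (hunit v (hXV v.2) (congrArg Subtype.val h1) (congrArg Subtype.val h2))
  -- inertia fixed and new implies killed by `p ^ n`
  have hkill : ∀ x ∈ XW, (∀ τ ∈ A.inertiaSubgroupIn ℚ, τ • x = x) →
      (∀ i, Pii L l i x = 0) → p ^ n • x = 0 := by
    intro x hx hfix hnew
    obtain ⟨v, hv, rfl⟩ := hsurj x (hXW hx) hfix
    have hvX := hrefl v hv hx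
    let v' : Fin 3 → XV := fun i => ⟨v i, hvX i⟩
    have hpt : ∀ i, v i ∈ ptors (JZero L) p := fun i => (hv i).1
    have E0 := hnew 0
    have E1 := hnew 1
    have E2 := hnew 2
    rw [iota_apply', map_add, map_add, hE.diag 0 _ (hpt 0), hE.adj01 _ (hpt 1),
      hE.far02 _ (hpt 2)] at E0
    rw [iota_apply', map_add, map_add, hE.diag 1 _ (hpt 1), hE.adj10 _ (hpt 0),
      hE.adj12 _ (hpt 2)] at E1
    rw [iota_apply', map_add, map_add, hE.diag 2 _ (hpt 2), hE.adj21 _ (hpt 1),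
      hE.far20 _ (hpt 0)] at E2
    have hk := ker_A_aux hl.one_lt (TX hl XV hT) hunit' v' (Subtype.ext E0) (Subtype.ext E1)
      (Subtype.ext E2)
    have hk' : ∀ i, p ^ n • v i = 0 := fun i =>
      congrArg Subtype.val (pow_smul_eq_zero_of_not_dvd hp
        (not_dvd_aux hp hp2 hl.one_lt hn hdvd hex) (hVt (v' i)) (hk i))
    rw [← map_nsmul]
    have : p ^ n • v = 0 := funext hk'
    rw [this, map_zero]
  -- the `τ₀`-trick
  have htrick : ∀ x : XW, τ₀ • (x : JZero (L * l * l)) = x →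
      (∀ i, Pii L l i x = 0) → p ^ n • (x : JZero (L * l * l)) = 0 := by
    intro x h1 h2
    have := pow_smul_eq_zero_of_step (p := p) (n := n)
      (fun y : XW => τ₀ • (y : JZero (L * l * l)) = y ∧ ∀ i, Pii L l i y = 0)
      (fun c y hy => ⟨by
          show τ₀ • (c • (y : JZero (L * l * l))) = c • (y : JZero (L * l * l))
          exact (act_nsmul τ₀ c _).trans (congrArg (c • ·) hy.1), fun i => by
          show Pii L l i (c • (y : JZero (L * l * l))) = 0
          rw [map_nsmul, hy.2 i, smul_zero]⟩)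
      (fun y hy hyt => Subtype.ext (hkill y y.2
        (hgen y y.2 (congrArg Subtype.val hyt) hy.1) hy.2))
      x ⟨h1, h2⟩ (hWt x)
    exact congrArg Subtype.val this
  exact
    { hp := hp
      hl := hl.one_lt
      hn := hn
      hdvd := hdvd
      Vdiv := fun v => by
        obtain ⟨y, hy, hyv⟩ := hdivV v v.2
        exact ⟨⟨y, hy⟩, Subtype.ext hyv⟩
      Vtors := hVt
      Vfin := by
        refine Set.Finite.of_finite_image (f := fun v : XV => (v : JZero L))
          ((finite_torsion_JZero L p hp.ne_zero).subset ?_) Subtype.val_injective.injOn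
        rintro _ ⟨v, hv, rfl⟩
        exact congrArg Subtype.val hv
      Wdiv := fun x => by
        obtain ⟨y, hy, hyx⟩ := hdivW x x.2
        exact ⟨⟨y, hy⟩, Subtype.ext hyx⟩
      Wtors := hWt
      Wfin := by
        refine Set.Finite.of_finite_image (f := fun v : XW => (v : JZero (L * l * l)))
          ((finite_torsion_JZero (L * l * l) p hp.ne_zero).subset ?_) Subtype.val_injective.injOn
        rintro _ ⟨v, hv, rfl⟩
        exact congrArg Subtype.val hv
      diag := fun i v => Subtype.ext (hE.diag i v (hXV v.2).1)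
      adj01 := fun v => Subtype.ext (hE.adj01 v (hXV v.2).1)
      adj10 := fun v => Subtype.ext (hE.adj10 v (hXV v.2).1)
      adj12 := fun v => Subtype.ext (hE.adj12 v (hXV v.2).1)
      adj21 := fun v => Subtype.ext (hE.adj21 v (hXV v.2).1)
      far02 := fun v => Subtype.ext (hE.far02 v (hXV v.2).1)
      far20 := fun v => Subtype.ext (hE.far20 v (hXV v.2).1)
      inj := fun v hv h0 i => Subtype.ext (hinj (fun i => (v i : JZero L))
        (fun i => ⟨hXV (v i).2, congrArg Subtype.val (hv i)⟩)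
        (by rw [iota_apply']; exact congrArg Subtype.val h0) i)
      fix := fun x hx hnew => by
        have h1 : τ₀ • (x : JZero (L * l * l)) = x := congrArg Subtype.val hx
        have h2 : ∀ i, Pii L l i x = 0 := fun i => congrArg Subtype.val (hnew i)
        have h3 := htrick x h1 h2
        obtain ⟨v, hv, hvx⟩ := hsurj x (hXW x.2) (hgen x x.2 (by
          rw [pow_succ', mul_smul, h3, smul_zero]) h1)
        have hvX := hrefl v hv (by rw [hvx]; exact x.2)
        refine ⟨fun i => ⟨v i, hvX i⟩, Subtype.ext ?_⟩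
        rw [← hvx, iota_apply']
        rfl
      fix_io := fun i v => Subtype.ext (by
        show τ₀ • iot L l i v = iot L l i v
        rw [← iot_smul, hunr τ₀ hτ₀ v (hXV v.2).1])
      Pi_tau := fun i x => Subtype.ext (by
        show Pii L l i (τ₀ • (x : JZero (L * l * l))) = Pii L l i x
        rw [Pii_smul]
        exact hunr τ₀ hτ₀ _ (SS.map_mem_ptors' _ (hXW x.2).1))
      weil := fun v hv => by
        obtain ⟨x, hx, hpx, hxv⟩ := hweil (fun i => (v i : JZero L))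
          (fun i => ⟨(v i).2, congrArg Subtype.val (hv i)⟩)
        exact ⟨⟨x, hx⟩, Subtype.ext hpx, fun i => Subtype.ext (hxv i)⟩
      ord := fun x => Subtype.ext (by rw [tauX_iterate]; exact hrho τ₀ hτ₀ x (hXW x.2))
      unit := fun v _ h2 => hunit' v h2 }

end Fermat.Agent.ML
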