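import Fermat.Agent.ML.TWFree.Cube

/-!
# ML / TWFREE / KCube : the kernel of a morphism of cubes is a cube

RAISE needs the Taylor–Wiles tower of the family `K(N) = ker Π_q ∩ thetaPart (N q)` (`q` a raising prime).
Abstractly: two one-step data `h'` (levels with `q`), `h` (levels without `q`) and maps `d : κ → J' →+ J` (`= α_{q*}, β_{q*}`)
which commute with `T, ι, Π, τ` and are jointly ONTO ON THE `p`-TORSION.

* `KC.genIm` : **[GEN-IM]** on the `p`-torsion of a datum `FHyp`: `ker Π = (τ - 1) XW[p]`.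
* `KC.fhyp_ker` : the datum on the kernels of `d`.
* `KC.cube_ker` : the cube of the kernels.

There is no inertia element at `q`; the field `weil` uses the element `τ` of the EDGE:
`v ∈ K_V[p]³`, `x₀ ∈ XW'[p]` with `Π' x₀ = v`, `w := d x₀` is killed by `Π`, so `w = (τ - 1) b`, `b = d c`, `x := x₀ - (τ' - 1) c`.
-/

set_option autoImplicit false

namespace Fermat.Agent.ML.TWFree

open Fermat.Agent.RIB.Grow Fermat.Agent.RIB.Grow.Hyp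

/-- `X' ∩ ⋂ ker d_k` -/
def kerSub {J' J κ : Type*} [AddCommGroup J'] [AddCommGroup J] (X' : AddSubgroup J')
    (d : κ → J' →+ J) : AddSubgroup J' := X' ⊓ ⨅ k, (d k).ker

theorem mem_kerSub {J' J κ : Type*} [AddCommGroup J'] [AddCommGroup J] {X' : AddSubgroup J'}
    {d : κ → J' →+ J} {x : J'} : x ∈ kerSub X' d ↔ x ∈ X' ∧ ∀ k, d k x = 0 := by
  simp only [kerSub, AddSubgroup.mem_inf, AddSubgroup.mem_iInf, AddMonoidHom.mem_ker]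

namespace KC

section GenIm

variable {p l n : ℕ} {JV JW : Type*} [AddCommGroup JV] [AddCommGroup JW]
  {XV : AddSubgroup JV} {XW : AddSubgroup JW} {T : JV →+ JV}
  {io : Fin 3 → JV →+ JW} {Pi : Fin 3 → JW →+ JV} {τ : JW →+ JW}

/-- **[GEN-IM]** on the `p`-torsion. -/
theorem genIm (h : FHyp p l n XV XW T io Pi τ) (x : JW) (hx : x ∈ XW) (hpx : p • x = 0)
    (h0 : ∀ i, Pi i x = 0) : ∃ c ∈ XW, p • c = 0 ∧ τ c - c = x := by
  have : Finite ↥(XW ⊓ tors JW p) := by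
    refine Set.Finite.to_subtype (h.Wfin.subset ?_)
    rintro y ⟨hy1, hy2⟩
    exact ⟨hy1, hy2⟩
  obtain ⟨c, hc, e⟩ := Weil.exists_sub_eq_of_push_eq_zero (XW ⊓ tors JW p) (XV ⊓ tors JV p) τ
    (fun c hc => ⟨h.hτ c hc.1, by
      show p • τ c = 0
      rw [← map_nsmul, mem_tors.1 hc.2, map_zero]⟩)
    io Pi
    (fun i a ha => ⟨h.hio i a ha.1, by
      show p • io i a = 0
      rw [← map_nsmul, mem_tors.1 ha.2, map_zero]⟩)
    (fun i c hc => ⟨h.hPi i c hc.1, by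
      show p • Pi i c = 0
      rw [← map_nsmul, mem_tors.1 hc.2, map_zero]⟩)
    (fun v hv hs => h.inj' v (fun i => (hv i).1) (by rw [← hs, Fin.sum_univ_three]))
    (fun c hc hfix => by
      obtain ⟨v, hv, e⟩ := h.fixp c hc.1 (mem_tors.1 hc.2) hfix
      refine ⟨v, fun i => ⟨hv i, ?_⟩, by rw [Fin.sum_univ_three, ← e]⟩
      refine h.inj' (fun i => p • v i) (fun i => XV.nsmul_mem (hv i) p) ?_ i
      show io 0 (p • v 0) + io 1 (p • v 1) + io 2 (p • v 2) = 0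
      rw [map_nsmul, map_nsmul, map_nsmul, ← nsmul_add, ← nsmul_add, ← e]
      exact mem_tors.1 hc.2)
    (fun i a ha => h.fix_io i a ha.1)
    (fun v hv => by
      obtain ⟨y, hy, hpy, e⟩ := h.weil v (fun i => (hv i).1) (fun i => mem_tors.1 (hv i).2)
      exact ⟨y, ⟨hy, hpy⟩, e⟩)
    (fun i c hc => h.Pi_tau i c hc.1)
    x ⟨hx, hpx⟩ h0
  exact ⟨c, hc.1, mem_tors.1 hc.2, e⟩

end GenIm

section Ker

variable {p l n : ℕ} {JV JW JV' JW' κ : Type*} [AddCommGroup JV] [AddCommGroup JW]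
  [AddCommGroup JV'] [AddCommGroup JW']
  {XV : AddSubgroup JV} {XW : AddSubgroup JW} {T : JV →+ JV}
  {io : Fin 3 → JV →+ JW} {Pi : Fin 3 → JW →+ JV} {τ : JW →+ JW}
  {XV' : AddSubgroup JV'} {XW' : AddSubgroup JW'} {T' : JV' →+ JV'}
  {io' : Fin 3 → JV' →+ JW'} {Pi' : Fin 3 → JW' →+ JV'} {τ' : JW' →+ JW'}

/-- **the one-step datum on the kernels of a morphism of data.** -/
theorem fhyp_ker (h' : FHyp p l n XV' XW' T' io' Pi' τ') (h : FHyp p l n XV XW T io Pi τ)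
    (dV : κ → JV' →+ JV) (dW : κ → JW' →+ JW)
    (hdV : ∀ k, ∀ v ∈ XV', dV k v ∈ XV) (hdW : ∀ k, ∀ x ∈ XW', dW k x ∈ XW)
    (cT : ∀ k, ∀ v ∈ XV', dV k (T' v) = T (dV k v))
    (cio : ∀ k i, ∀ v ∈ XV', dW k (io' i v) = io i (dV k v))
    (cPi : ∀ k i, ∀ x ∈ XW', dV k (Pi' i x) = Pi i (dW k x))
    (cτ : ∀ k, ∀ x ∈ XW', dW k (τ' x) = τ (dW k x))
    (ontoV : ∀ w : κ → JV, (∀ k, w k ∈ XV) → (∀ k, p • w k = 0) →
      ∃ v ∈ XV', p • v = 0 ∧ ∀ k, dV k v = w k)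
    (ontoW : ∀ w : κ → JW, (∀ k, w k ∈ XW) → (∀ k, p • w k = 0) →
      ∃ x ∈ XW', p • x = 0 ∧ ∀ k, dW k x = w k) :
    FHyp p l n (kerSub XV' dV) (kerSub XW' dW) T' io' Pi' τ' := by
  have refl : ∀ (x : JW') (v : Fin 3 → JV'), x ∈ kerSub XW' dW → (∀ i, v i ∈ XV') →
      x = io' 0 (v 0) + io' 1 (v 1) + io' 2 (v 2) → ∀ i, v i ∈ kerSub XV' dV := by
    intro x v hx hv e i
    refine mem_kerSub.2 ⟨hv i, fun k => ?_⟩
    refine h.inj' (fun i => dV k (v i)) (fun i => hdV k _ (hv i)) ?_ i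
    show io 0 (dV k (v 0)) + io 1 (dV k (v 1)) + io 2 (dV k (v 2)) = 0
    rw [← cio k 0 _ (hv 0), ← cio k 1 _ (hv 1), ← cio k 2 _ (hv 2), ← map_add, ← map_add, ← e]
    exact (mem_kerSub.1 hx).2 k
  exact
  { hp := h'.hp
    hp2 := h'.hp2
    hl := h'.hl
    hn := h'.hn
    hdvd := h'.hdvd
    hex := h'.hex
    hT := fun v hv => by
      obtain ⟨h1, h2⟩ := mem_kerSub.1 hv
      exact mem_kerSub.2 ⟨h'.hT v h1, fun k => by rw [cT k v h1, h2 k, map_zero]⟩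
    hio := fun i v hv => by
      obtain ⟨h1, h2⟩ := mem_kerSub.1 hv
      exact mem_kerSub.2 ⟨h'.hio i v h1, fun k => by rw [cio k i v h1, h2 k, map_zero]⟩
    hPi := fun i x hx => by
      obtain ⟨h1, h2⟩ := mem_kerSub.1 hx
      exact mem_kerSub.2 ⟨h'.hPi i x h1, fun k => by rw [cPi k i x h1, h2 k, map_zero]⟩
    hτ := fun x hx => by
      obtain ⟨h1, h2⟩ := mem_kerSub.1 hx
      exact mem_kerSub.2 ⟨h'.hτ x h1, fun k => by rw [cτ k x h1, h2 k, map_zero]⟩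
    Vdiv := fun v hv => by
      obtain ⟨h1, h2⟩ := mem_kerSub.1 hv
      obtain ⟨w, hw, hw0, e⟩ := Weil.div_ker_of_onto_tors p XV' XV dV hdV h'.Vdiv ontoV v h1 h2
      exact ⟨w, mem_kerSub.2 ⟨hw, hw0⟩, e⟩
    Vtors := fun v hv => h'.Vtors v (mem_kerSub.1 hv).1
    Vfin := h'.Vfin.subset fun v hv => ⟨(mem_kerSub.1 hv.1).1, hv.2⟩
    Wdiv := fun v hv => by
      obtain ⟨h1, h2⟩ := mem_kerSub.1 hv
      obtain ⟨w, hw, hw0, e⟩ := Weil.div_ker_of_onto_tors p XW' XW dW hdW h'.Wdiv ontoW v h1 h2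
      exact ⟨w, mem_kerSub.2 ⟨hw, hw0⟩, e⟩
    Wtors := fun v hv => h'.Wtors v (mem_kerSub.1 hv).1
    Wfin := h'.Wfin.subset fun v hv => ⟨(mem_kerSub.1 hv.1).1, hv.2⟩
    diag := fun i v hv => h'.diag i v (mem_kerSub.1 hv).1
    adj01 := fun v hv => h'.adj01 v (mem_kerSub.1 hv).1
    adj10 := fun v hv => h'.adj10 v (mem_kerSub.1 hv).1
    adj12 := fun v hv => h'.adj12 v (mem_kerSub.1 hv).1
    adj21 := fun v hv => h'.adj21 v (mem_kerSub.1 hv).1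
    far02 := fun v hv => h'.far02 v (mem_kerSub.1 hv).1
    far20 := fun v hv => h'.far20 v (mem_kerSub.1 hv).1
    inj := fun v hv hpv h0 => h'.inj v (fun i => (mem_kerSub.1 (hv i)).1) hpv h0
    fix := fun x hx hfix hnew => by
      obtain ⟨v, hv, e⟩ := h'.fix x (mem_kerSub.1 hx).1 hfix hnew
      exact ⟨v, refl x v hx hv e, e⟩
    fixp := fun x hx hpx hfix => by
      obtain ⟨v, hv, e⟩ := h'.fixp x (mem_kerSub.1 hx).1 hpx hfix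
      exact ⟨v, refl x v hx hv e, e⟩
    fix_io := fun i v hv => h'.fix_io i v (mem_kerSub.1 hv).1
    Pi_tau := fun i x hx => h'.Pi_tau i x (mem_kerSub.1 hx).1
    weil := fun v hv hpv => by
      obtain ⟨x0, hx0, hpx0, e0⟩ := h'.weil v (fun i => (mem_kerSub.1 (hv i)).1) hpv
      have hb : ∀ k, ∃ b ∈ XW, p • b = 0 ∧ τ b - b = dW k x0 := fun k =>
        genIm h (dW k x0) (hdW k x0 hx0) (by rw [← map_nsmul, hpx0, map_zero])
          (fun i => by rw [← cPi k i x0 hx0, e0 i]; exact (mem_kerSub.1 (hv i)).2 k)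
      choose b hbX hpb hb using hb
      obtain ⟨c, hc, hpc, ec⟩ := ontoW b hbX hpb
      refine ⟨x0 - (τ' c - c), mem_kerSub.2 ⟨XW'.sub_mem hx0 (XW'.sub_mem (h'.hτ c hc) hc),
        fun k => ?_⟩, ?_, fun i => ?_⟩
      · rw [map_sub, map_sub, cτ k c hc, ec k, hb k, sub_self]
      · rw [nsmul_sub, nsmul_sub, ← map_nsmul, hpc, hpx0, map_zero, sub_self, sub_self]
      · rw [map_sub, map_sub, h'.Pi_tau i c hc, sub_self, sub_zero, e0 i]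
    ord := fun x hx => h'.ord x (mem_kerSub.1 hx).1
    unit := fun v hv hpv h0 => h'.unit v (mem_kerSub.1 hv).1 hpv h0 }

end Ker

section CubeKer

universe u

variable {ι : Type} [DecidableEq ι] {κ : Type*} {p : ℕ} {Q₀ : Finset ι} {ℓ ν : ι → ℕ}
  {J J' : Finset ι → Type u} [∀ Q, AddCommGroup (J Q)] [∀ Q, AddCommGroup (J' Q)]
  {Θ : ∀ Q, AddSubgroup (J Q)} {T : ∀ Q, ι → J Q →+ J Q}
  {io : ∀ Q Q' : Finset ι, ι → Fin 3 → J Q →+ J Q'}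
  {Pi : ∀ Q Q' : Finset ι, ι → Fin 3 → J Q' →+ J Q} {τ : ∀ Q, ι → J Q →+ J Q}
  {Θ' : ∀ Q, AddSubgroup (J' Q)} {T' : ∀ Q, ι → J' Q →+ J' Q}
  {io' : ∀ Q Q' : Finset ι, ι → Fin 3 → J' Q →+ J' Q'}
  {Pi' : ∀ Q Q' : Finset ι, ι → Fin 3 → J' Q' →+ J' Q} {τ' : ∀ Q, ι → J' Q →+ J' Q}

/-- **the cube of the kernels of a morphism of cubes.** -/
theorem cube_ker (C' : Cube p Q₀ ℓ ν J' Θ' T' io' Pi' τ') (C : Cube p Q₀ ℓ ν J Θ T io Pi τ)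
    (d : ∀ Q, κ → J' Q →+ J Q)
    (hd : ∀ Q, Q ⊆ Q₀ → ∀ k, ∀ x ∈ Θ' Q, d Q k x ∈ Θ Q)
    (cT : ∀ (Q Q' : Finset ι) (l : ι), Q' ⊆ Q₀ → l ∉ Q → Q' = insert l Q →
      ∀ k, ∀ x ∈ Θ' Q, d Q k (T' Q l x) = T Q l (d Q k x))
    (cio : ∀ (Q Q' : Finset ι) (l : ι), Q' ⊆ Q₀ → l ∉ Q → Q' = insert l Q →
      ∀ k i, ∀ x ∈ Θ' Q, d Q' k (io' Q Q' l i x) = io Q Q' l i (d Q k x))
    (cPi : ∀ (Q Q' : Finset ι) (l : ι), Q' ⊆ Q₀ → l ∉ Q → Q' = insert l Q →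
      ∀ k i, ∀ y ∈ Θ' Q', d Q k (Pi' Q Q' l i y) = Pi Q Q' l i (d Q' k y))
    (cτ : ∀ (Q Q' : Finset ι) (l : ι), Q' ⊆ Q₀ → l ∉ Q → Q' = insert l Q →
      ∀ k, ∀ y ∈ Θ' Q', d Q' k (τ' Q' l y) = τ Q' l (d Q' k y))
    (onto : ∀ Q, Q ⊆ Q₀ → ∀ w : κ → J Q, (∀ k, w k ∈ Θ Q) → (∀ k, p • w k = 0) →
      ∃ x ∈ Θ' Q, p • x = 0 ∧ ∀ k, d Q k x = w k) :
    Cube p Q₀ ℓ ν J' (fun Q => kerSub (Θ' Q) (d Q)) T' io' Pi' τ' where
  edge := fun Q Q' l hQ' hl e => by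
    have hQ : Q ⊆ Q₀ := fun i hi => hQ' (e ▸ Finset.mem_insert_of_mem hi)
    exact fhyp_ker (C'.edge Q Q' l hQ' hl e) (C.edge Q Q' l hQ' hl e) (d Q) (d Q')
      (hd Q hQ) (hd Q' hQ') (cT Q Q' l hQ' hl e) (cio Q Q' l hQ' hl e) (cPi Q Q' l hQ' hl e)
      (cτ Q Q' l hQ' hl e) (onto Q hQ) (onto Q' hQ')
  SS := fun Q Qa Qb Qab a b h1 h2 h3 h4 h5 h6 h7 i j y hy =>
    C'.SS Q Qa Qb Qab a b h1 h2 h3 h4 h5 h6 h7 i j y (mem_kerSub.1 hy).1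
  SP := fun Q Qa Qb Qab a b h1 h2 h3 h4 h5 h6 h7 i j y hy =>
    C'.SP Q Qa Qb Qab a b h1 h2 h3 h4 h5 h6 h7 i j y (mem_kerSub.1 hy).1
  TP := fun Q Qa a b h1 h2 h3 h4 h5 i x hx =>
    C'.TP Q Qa a b h1 h2 h3 h4 h5 i x (mem_kerSub.1 hx).1
  τP := fun Q Qa a m h1 h2 h3 h4 i x hx =>
    C'.τP Q Qa a m h1 h2 h3 h4 i x (mem_kerSub.1 hx).1

end CubeKer

end KC

end Fermat.Agent.ML.TWFree
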