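import Fermat.Agent.ML.TWFree.Box
import Fermat.Agent.RIB.Grow.Div

/-!
# ML / TWFREE / Top : from the base of the cube to the socle of the top;  TWFREE for a GIVEN `τ`, all `t`

* `IsCube.exists_top` : the ITERATED `x_v` : an additive map `E : J₀(lev ∅) → J₀(lev R)`, `G_ℚ`-equivariant, respecting the
  `θ`-parts, injective on the `θ`-part, which sends the classes killed by the `p^ν_i` into the multi-new part `Xnew R`, fixed by all the
  `τ_i` (`i ∈ R`), and which commutes with every family of operators commuting with the `x_v`;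
* `twfree_of` : COGEN and BOX of `twfree` for a given `(A, τ)` with `IsCube`;  `t = 0` is allowed.
-/

set_option autoImplicit false

noncomputable section

open AlgebraicCurve ModularCurve

namespace Fermat.Agent.ML.TWFree

open Fermat.Agent.RIB Fermat.Agent.GAL Fermat.Agent.GAL.PC
open Fermat.Agent.RIB.Grow Fermat.Agent.RIB.Grow.Hyp

local notation "Qbar" => AlgebraicClosure ℚ
local notation "GQ" => (AlgebraicClosure ℚ ≃ₐ[ℚ] AlgebraicClosure ℚ)
local notation "M₂" => Matrix (Fin 2) (Fin 2)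

section Top

variable {p : ℕ} {S : Set ℕ} {θ : ℕ → ℤ} {L₀ : ℕ} [NeZero L₀] {t : ℕ} {qv : Fin t → Nat.Primes}
  {τ : Fin t → GQ}

/-- **the iterated `x_v`.** -/
theorem IsCube.exists_top (hC : IsCube p S θ L₀ qv τ) (R : Finset (Fin t)) :
    ∃ E : JZero (lev L₀ qv ∅) →+ JZero (lev L₀ qv R),
      (∀ (σ : GQ) x, E (σ • x) = σ • E x) ∧
      (∀ x ∈ thetaPart (lev L₀ qv ∅) p S θ, E x ∈ thetaPart (lev L₀ qv R) p S θ) ∧
      (∀ x ∈ thetaPart (lev L₀ qv ∅) p S θ, (∀ i ∈ R, p ^ nuP p qv i • x = 0) →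
        E x ∈ Xnew p S θ L₀ qv R ∧ ∀ i ∈ R, τ i • E x = E x) ∧
      (∀ x ∈ thetaPart (lev L₀ qv ∅) p S θ, E x = 0 → x = 0) ∧
      (∀ b : ∀ Q : Finset (Fin t), JZero (lev L₀ qv Q) →+ JZero (lev L₀ qv Q),
        (∀ (Q Q' : Finset (Fin t)) (l : Fin t) (v : JZero (lev L₀ qv Q)),
          b Q' (xv (TQ L₀ qv Q l) (ioQ L₀ qv Q Q' l) v) =
            xv (TQ L₀ qv Q l) (ioQ L₀ qv Q Q' l) (b Q v)) →
        ∀ x, b R (E x) = E (b ∅ x)) := by
  induction R using Finset.induction_on with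
  | empty =>
    refine ⟨AddMonoidHom.id _, fun _ _ => rfl, fun x hx => hx, fun x hx _ => ⟨?_, ?_⟩,
      fun x _ h => h, fun _ _ _ => rfl⟩
    · rw [mem_Xnew]
      exact ⟨hx, fun l hl => absurd hl (Finset.notMem_empty l)⟩
    · exact fun i hi => absurd hi (Finset.notMem_empty i)
  | insert l R hl ih =>
    obtain ⟨E, h1, h2, h3, h4, h5⟩ := ih
    obtain ⟨hF, e⟩ := Cube.step hC R (insert l R) l (Finset.subset_univ _) hl rfl
    have hE := hC.edge R (insert l R) l (Finset.subset_univ _) hl rfl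
    refine ⟨(xv (TQ L₀ qv R l) (ioQ L₀ qv R (insert l R) l)).comp E, fun σ x => ?_, fun x hx => ?_,
      fun x hx hpx => ?_, fun x hx h0 => ?_, fun b hb x => ?_⟩
    · rw [AddMonoidHom.comp_apply, AddMonoidHom.comp_apply, h1, xvQ_smul]
    · rw [AddMonoidHom.comp_apply, xv_apply]
      have hx' := h2 x hx
      exact AddSubgroup.add_mem _ (AddSubgroup.sub_mem _ (hE.hio 0 _ hx')
        (hE.hio 1 _ (hE.hT _ hx'))) (hE.hio 2 _ hx')
    · obtain ⟨g1, g2⟩ := h3 x hx fun i hi => hpx i (Finset.mem_insert_of_mem hi)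
      have g3 : p ^ nuP p qv l • E x = 0 := by
        rw [← map_nsmul, hpx l (Finset.mem_insert_self l R), map_zero]
      obtain ⟨k1, k2⟩ := hF.xv_mem (E x) g1 g3
      rw [e] at k1
      refine ⟨k1, fun i hi => ?_⟩
      rcases Finset.mem_insert.1 hi with rfl | hi
      · exact k2
      · rw [AddMonoidHom.comp_apply, ← xvQ_smul, g2 i hi]
    · exact h4 x hx (hE.xv_inj (E x) (h2 x hx) h0)
    · rw [AddMonoidHom.comp_apply, AddMonoidHom.comp_apply, hb, h5 b hb]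

end Top

variable {p : ℕ} [Fact p.Prime] {T : Finset ℕ} {θ : ℕ → ℤ} {rbar0 : GQ →* M₂ (ZMod p)}
  {L₀ t n : ℕ} [NeZero L₀] {qv : Fin t → Nat.Primes} {τ : Fin t → GQ}

/-- the multi-new part is `p`-divisible (`R = ∅` included). -/
theorem IsCube.div' {S : Set ℕ} (hC : IsCube p S θ L₀ qv τ) (R : Finset (Fin t))
    (x : JZero (lev L₀ qv R)) (hx : x ∈ Xnew p S θ L₀ qv R) :
    ∃ y ∈ Xnew p S θ L₀ qv R, p • y = x := by
  rcases R.eq_empty_or_nonempty with rfl | hne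
  · obtain ⟨y, hy, e⟩ := thetaPart_divisible (lev L₀ qv ∅) (Fact.out : p.Prime).pos S θ x
      (Xnew_le ∅ hx)
    exact ⟨y, mem_Xnew.2 ⟨hy, fun l hl => absurd hl (Finset.notMem_empty l)⟩, e⟩
  · exact hC.div R hne x hx

/-- **SIZE**, numerical form, all `t`. -/
theorem IsCube.hsize' (hC : IsCube p (↑(cutS T qv) : Set ℕ) θ L₀ qv τ) (hp2 : p ≠ 2) (a : ℕ) :
    p ^ (2 ^ t * Module.finrank (ZMod p) ↥(WS L₀ p (↑(cutS T qv) : Set ℕ) θ) *
      (a * ∏ i, (p ^ nuP p qv i - 1) / 2)) ≤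
      Nat.card ↥(Xnew p (↑(cutS T qv) : Set ℕ) θ L₀ qv Finset.univ ⊓
        tors (JZero (lev L₀ qv Finset.univ)) (p ^ a)) := by
  rcases Nat.eq_zero_or_pos t with rfl | ht
  · have h : Nat.card ↥(WS L₀ p (↑(cutS T qv) : Set ℕ) θ) ^
        (a * ∏ i ∈ (Finset.univ : Finset (Fin 0)), (p ^ nuP p qv i - 1)) ≤
        Nat.card ↥(Xnew p (↑(cutS T qv) : Set ℕ) θ L₀ qv Finset.univ ⊓
          tors (JZero (lev L₀ qv Finset.univ)) (p ^ a)) := by
      rw [card_tors_pow _ p (hC.div' Finset.univ) a, mul_comm, pow_mul]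
      exact Nat.pow_le_pow_left (hC.size Finset.univ) a
    rw [IsCube.card_WS, ← pow_mul] at h
    simpa using h
  · exact hC.hsize hp2 ht a

/-- **the TWFREE contract, Galois form, for a given `(A, τ)`**; `t = 0` allowed. -/
theorem twfree_of (EC : MCtx p T θ rbar0) (TC : MTW p T θ L₀ t n qv)
    {A : Fin t → ValuationSubring Qbar} (hA : ∀ i, (A i).LiesOverPrime ((qv i : Nat.Primes) : ℕ))
    (hτ : ∀ i, τ i ∈ (A i).inertiaSubgroupIn ℚ)
    (hC : IsCube p (↑(cutS T qv) : Set ℕ) θ L₀ qv τ) :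
      -- COGEN
      Nat.card {x : JZero (lev L₀ qv Finset.univ) //
        x ∈ Xnew p (↑(cutS T qv) : Set ℕ) θ L₀ qv Finset.univ ∧ p • x = 0 ∧
          ∀ i, TWLoc.zop (τ i) x = 0} ≤
        p ^ (2 ^ t * Module.finrank (ZMod p) ↥(WS L₀ p (↑(cutS T qv) : Set ℕ) θ)) ∧
      -- BOX
      ∀ a : ℕ, 1 ≤ a → 2 * a ≤ n + 1 →
        p ^ (2 ^ t * Module.finrank (ZMod p) ↥(WS L₀ p (↑(cutS T qv) : Set ℕ) θ) * a ^ (t + 1)) ≤
          Nat.card {x : JZero (lev L₀ qv Finset.univ) //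
            x ∈ Xnew p (↑(cutS T qv) : Set ℕ) θ L₀ qv Finset.univ ∧ p ^ a • x = 0 ∧
              ∀ i, (TWLoc.zop (τ i))^[a] x = 0} := by
  have hlp : ∀ i, ((qv i : Nat.Primes) : ℕ) ≠ p := fun i h => TC.notT i (h ▸ EC.p_mem)
  have hrb : ∀ i, rbar0 (τ i) = 1 := fun i =>
    EC.unramT _ (qv i).2 (TC.notT i) (A i) (hA i) (τ i) (hτ i)
  have hcog : Nat.card {x : JZero (lev L₀ qv Finset.univ) //
      x ∈ Xnew p (↑(cutS T qv) : Set ℕ) θ L₀ qv Finset.univ ∧ p • x = 0 ∧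
        ∀ i, TWLoc.zop (τ i) x = 0} ≤
      p ^ (2 ^ t * Module.finrank (ZMod p) ↥(WS L₀ p (↑(cutS T qv) : Set ℕ) θ)) := by
    refine le_trans (le_of_eq (Nat.card_congr (Equiv.subtypeEquivRight fun x => ?_)))
      (hC.hcogen EC TC hrb)
    rw [AddSubgroup.mem_inf, mem_kill_ccZ]
    rfl
  refine ⟨hcog, fun a ha h2a => ?_⟩
  refine box_of_sub EC (cutS T qv) (subset_cutS T qv) (lev L₀ qv Finset.univ)
    (fun r hr hd => TC.mem_cutS_lev Finset.univ hr hd) τ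
    (fun i j ζ hζ => inertia_fix_roots (qv i).2 (hlp i) (hA i) (hτ i) j ζ hζ)
    (Xnew p (↑(cutS T qv) : Set ℕ) θ L₀ qv Finset.univ) (fun σ x hx => smul_mem_Xnew σ hx) ha
    (nuP p qv) (fun i => h2a.trans (TC.le_nuP i))
    (fun i x hx => hC.norm_zero Finset.univ i (Finset.mem_univ i) x hx) hcog ?_
  refine le_trans (hC.hsize' EC.hp2 a)
    (le_of_eq (Nat.card_congr (Equiv.subtypeEquivRight fun x => ?_)))
  rw [AddSubgroup.mem_inf]
  rfl

end Fermat.Agent.ML.TWFree
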