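import Fermat.Agent.ML.TWFree.BoxEnd
import Fermat.Agent.RIB.TWLoc.Abs

/-!
# ML / TWFREE / BoxSub : the box lower bound in GALOIS form (a group `G` acting on `J`, a stable subgroup `U ≤ J`)

`zop g = g + g⁻¹ - 2` (`RIB.TWLoc.zop`).  All cardinalities are those of set-builder subtypes of `J`.
-/

set_option autoImplicit false

namespace Fermat.Agent.ML.TWFree

open Fermat.Agent.RIB.TWLoc

theorem box_sub {G J : Type*} [Group G] [AddCommGroup J] [DistribMulAction G J]
    (U : AddSubgroup J) {ι : Type*} [Fintype ι] (τ : ι → G) {p a d : ℕ} (hp : p.Prime)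
    (hp2 : p ≠ 2) (ha : 1 ≤ a) (ν : ι → ℕ) (hν : ∀ i, 2 * a ≤ ν i)
    (hU : ∀ i, ∀ x ∈ U, τ i • x ∈ U) (hU' : ∀ i, ∀ x ∈ U, (τ i)⁻¹ • x ∈ U)
    (hfin : {x : J | x ∈ U ∧ p ^ a • x = 0}.Finite)
    (hcen : ∀ i j, ∀ x ∈ U, p ^ a • x = 0 → zop (τ i) (τ j • x) = τ j • zop (τ i) x)
    (hG : ∀ i, ∀ x ∈ U, p ^ a • x = 0 → ∑ j ∈ Finset.range (p ^ ν i), τ i ^ j • x = 0)
    (hcogen : Nat.card {x : J // x ∈ U ∧ p • x = 0 ∧ ∀ i, zop (τ i) x = 0} ≤ p ^ d)
    (hsize : p ^ (d * (a * ∏ i, (p ^ ν i - 1) / 2)) ≤ Nat.card {x : J // x ∈ U ∧ p ^ a • x = 0}) :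
    p ^ (d * a ^ (Fintype.card ι + 1)) ≤
      Nat.card {x : J // x ∈ U ∧ p ^ a • x = 0 ∧ ∀ i, (zop (τ i))^[a] x = 0} := by
  classical
  let X : AddSubgroup J :=
    { carrier := {x | x ∈ U ∧ p ^ a • x = 0}
      zero_mem' := ⟨U.zero_mem, smul_zero _⟩
      add_mem' := fun {x y} hx hy => ⟨U.add_mem hx.1 hy.1, by rw [smul_add, hx.2, hy.2, add_zero]⟩
      neg_mem' := fun {x} hx => ⟨U.neg_mem hx.1, by rw [smul_neg, hx.2, neg_zero]⟩ }
  haveI : Finite X := hfin.to_subtype
  have hsmul : ∀ (g : G) (m : ℕ) (x : J), m • (g • x) = g • (m • x) := fun g m x =>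
    (map_nsmul (DistribSMul.toAddMonoidHom J g) m x).symm
  have hg : ∀ (g : G), (∀ x ∈ U, g • x ∈ U) → ∀ x ∈ X, g • x ∈ X := fun g h x hx =>
    ⟨h x hx.1, by rw [hsmul, hx.2, smul_zero]⟩
  let act : ∀ (g : G), (∀ x ∈ U, g • x ∈ U) → X →+ X := fun g h =>
    ((DistribSMul.toAddMonoidHom J g).comp X.subtype).codRestrict X fun x => hg g h x x.2
  let tA : ι → X →+ X := fun i => act (τ i) (hU i)
  let tA' : ι → X →+ X := fun i => act (τ i)⁻¹ (hU' i)
  have hzX : ∀ i, ∀ x ∈ X, zop (τ i) x ∈ X := fun i x hx => by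
    rw [zop_apply]
    exact X.sub_mem (X.add_mem (hg _ (hU i) x hx) (hg _ (hU' i) x hx)) (X.nsmul_mem hx 2)
  let zA : ι → X →+ X := fun i =>
    ((zop (τ i)).comp X.subtype).codRestrict X fun x => hzX i x x.2
  have hzτ : ∀ i j (x : X), zA i (tA j x) = tA j (zA i x) := fun i j x =>
    Subtype.ext (hcen i j x x.2.1 x.2.2)
  have hzτ' : ∀ i j (x : X), zA i (tA' j x) = tA' j (zA i x) := by
    intro i j x
    have h1 := hzτ i j (tA' j x)
    have e1 : tA j (tA' j x) = x := Subtype.ext (smul_inv_smul (τ j) (x : J))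
    rw [e1] at h1
    rw [h1]
    exact Subtype.ext (inv_smul_smul (τ j) _).symm
  have hzdef : ∀ i (x : X), zA i x = tA i x + tA' i x - 2 • x := fun i x => Subtype.ext rfl
  have hiter : ∀ i (k : ℕ) (x : X), (((zA i)^[k] x : X) : J) = (zop (τ i))^[k] (x : J) := by
    intro i k
    induction k with
    | zero => intro x; rfl
    | succ k ih => intro x; rw [Function.iterate_succ_apply, Function.iterate_succ_apply, ih]; rfl
  have hiterτ : ∀ i (k : ℕ) (x : X), (((tA i)^[k] x : X) : J) = τ i ^ k • (x : J) := by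
    intro i k
    induction k with
    | zero => intro x; rw [pow_zero, one_smul]; rfl
    | succ k ih =>
      intro x
      rw [Function.iterate_succ_apply, ih, pow_succ, mul_smul]; rfl
  have key := box_end (X := X) (d := d) hp hp2 ν hν tA tA' zA
    (fun i x => Subtype.ext (smul_inv_smul (τ i) (x : J)))
    (fun i x => Subtype.ext (inv_smul_smul (τ i) (x : J))) hzdef
    (fun i j x => by
      rw [hzdef j x, map_sub, map_add, map_nsmul, hzτ, hzτ', hzdef j (zA i x)])
    hzτ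
    (fun i x => Subtype.ext (by
      rw [AddSubgroup.val_finsetSum]
      simp only [hiterτ]
      exact hG i x x.2.1 x.2.2))
    (fun x => Subtype.ext x.2.2)
    (by
      refine le_trans (le_of_eq (Nat.card_congr ?_)) hcogen
      exact
        { toFun := fun x => ⟨x.1.1, x.1.2.1, congrArg Subtype.val x.2.1,
            fun i => congrArg Subtype.val (x.2.2 i)⟩
          invFun := fun x => ⟨⟨x.1, x.2.1, by
              obtain ⟨b, rfl⟩ := Nat.exists_eq_add_of_le ha
              rw [pow_add, pow_one, mul_comm, mul_smul, x.2.2.1, smul_zero]⟩,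
            Subtype.ext x.2.2.1, fun i => Subtype.ext (x.2.2.2 i)⟩
          left_inv := fun _ => rfl
          right_inv := fun _ => rfl })
    hsize
  refine key.trans (le_of_eq (Nat.card_congr ?_))
  exact
    { toFun := fun x => ⟨x.1.1, x.1.2.1, x.1.2.2, fun i => by
        rw [← hiter]; exact congrArg Subtype.val (x.2 i)⟩
      invFun := fun x => ⟨⟨x.1, x.2.1, x.2.2.1⟩, fun i => Subtype.ext (by
        rw [hiter]; exact x.2.2.2 i)⟩
      left_inv := fun _ => rfl
      right_inv := fun _ => rfl }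

end Fermat.Agent.ML.TWFree
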