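import Fermat.Agent.ML.TWFree.Out
import Fermat.Agent.ML.TWFree.BoxSub
import Fermat.Agent.ML.TWFree.Inst.Main

/-!
# ML / TWFREE / Box : the TWFREE contract in GALOIS form

* `zop_comm_tors` : `z_g = g + g⁻¹ - 2` commutes with `G_ℚ` on `J₀(N)[p^j]` as soon as `g` fixes `μ_(p^j)`   (all `j`);
* `inertia_fix_roots` : elements of the inertia at `l ≠ p` fix `μ_(p^j)`;
* `box_of_sub` : the box lower bound for ANY `τ`-stable subgroup `U ≤ J₀(N)` from norm = 0, COGEN, SIZE;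
* `twfree` : **the contract** for `Θ = thetaPart` : places `A i`, generators `τ i`, `X = Xnew .. univ`, with
  stability, divisibility, norms, COGEN `≤ p^D`, SIZE, BOX `p^(D a^(t+1)) ≤ #X[p^a, z^a]`, `D = 2^t dim W(L₀)`, and BASE.
-/

set_option autoImplicit false

noncomputable section

open AlgebraicCurve ModularCurve

namespace Fermat.Agent.ML.TWFree

open Fermat.Agent.RIB Fermat.Agent.GAL Fermat.Agent.GAL.PC

local notation "Qbar" => AlgebraicClosure ℚ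
local notation "GQ" => (AlgebraicClosure ℚ ≃ₐ[ℚ] AlgebraicClosure ℚ)
local notation "M₂" => Matrix (Fin 2) (Fin 2)

variable {p : ℕ} [Fact p.Prime] {T : Finset ℕ} {θ : ℕ → ℤ} {rbar0 : GQ →* M₂ (ZMod p)}

/-- `z_g` is central on `J₀(N)[p^j]`. -/
theorem zop_comm_tors (EC : MCtx p T θ rbar0) (S : Finset ℕ) (hTS : T ⊆ S) (N : ℕ) [NeZero N]
    (hN : ∀ r : ℕ, r.Prime → r ∣ N * p → r ∈ S) {g : GQ} (j : ℕ)
    (hg : ∀ ζ : Qbar, ζ ^ (p ^ j) = 1 → g ζ = ζ) (h : GQ) (x : JZero N) (hx : p ^ j • x = 0) :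
    TWLoc.zop g (h • x) = h • TWLoc.zop g x := by
  obtain ⟨r, Q, -, -, hQ⟩ := Rho.exists_poly_spec (L := N) (Fact.out : p.Prime) j S hN θ rbar0
    EC.cont (fun r hr hrS => EC.frob r hr fun h' => hrS (hTS h')) g
  have hx' : p ^ j • (h • x) = 0 := by
    have := map_nsmul (DistribSMul.toAddMonoidHom (JZero N) h) (p ^ j) x
    rw [hx, map_zero] at this
    exact this.symm
  have e1 := hQ 1 (fun ζ hζ => by rw [pow_one]; exact hg ζ hζ) x hx
  have e2 := hQ 1 (fun ζ hζ => by rw [pow_one]; exact hg ζ hζ) (h • x) hx'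
  rw [one_smul] at e1 e2
  have e3 : h • Polynomial.aeval (heckeOperatorBar N r) Q x =
      Polynomial.aeval (heckeOperatorBar N r) Q (h • x) :=
    LinearMap.congr_fun (Rho.galJ_comm_aeval N h r Q) x
  have e4 : h • (2 • x) = 2 • (h • x) := map_nsmul (DistribSMul.toAddMonoidHom (JZero N) h) 2 x
  rw [TWLoc.zop_apply, TWLoc.zop_apply, e2, e1, smul_sub, e3, e4]

/-- inertia at `l ≠ p` fixes the `p`-power roots of unity. -/
theorem inertia_fix_roots {l : ℕ} (hl : l.Prime) (hlp : l ≠ p) {A : ValuationSubring Qbar}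
    (hA : A.LiesOverPrime l) {σ : GQ} (hσ : σ ∈ A.inertiaSubgroupIn ℚ) (j : ℕ) (ζ : Qbar)
    (hζ : ζ ^ (p ^ j) = 1) : σ ζ = ζ := by
  have hp : p.Prime := Fact.out
  haveI : NeZero (p ^ j) := ⟨pow_ne_zero _ hp.ne_zero⟩
  have h1 := cycloChar_of_mem_inertia' (p ^ j) hl
    (Nat.Coprime.pow_right j ((Nat.coprime_primes hl hp).2 hlp)) hA hσ
  have h2 := cycloChar_spec (p ^ j) σ hζ
  rw [h1] at h2
  rcases Nat.eq_zero_or_pos j with rfl | hj
  · rw [pow_zero, pow_one] at hζ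
    rw [hζ, map_one]
  · haveI : Fact (1 < p ^ j) := ⟨Nat.one_lt_pow hj.ne' hp.one_lt⟩
    rw [Units.val_one, ZMod.val_one, pow_one] at h2
    exact h2

/-- **BOX** for any subgroup `U ≤ J₀(N)` stable under the `τ i`. -/
theorem box_of_sub (EC : MCtx p T θ rbar0) (S : Finset ℕ) (hTS : T ⊆ S) (N : ℕ) [NeZero N]
    (hN : ∀ r : ℕ, r.Prime → r ∣ N * p → r ∈ S) {t : ℕ} (τ : Fin t → GQ)
    (hτ : ∀ i j, ∀ ζ : Qbar, ζ ^ (p ^ j) = 1 → τ i ζ = ζ)
    (U : AddSubgroup (JZero N)) (hU : ∀ (σ : GQ), ∀ x ∈ U, σ • x ∈ U) {a d : ℕ} (ha : 1 ≤ a)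
    (ν : Fin t → ℕ) (hν : ∀ i, 2 * a ≤ ν i)
    (hG : ∀ i, ∀ x ∈ U, ∑ j ∈ Finset.range (p ^ ν i), τ i ^ j • x = 0)
    (hcogen : Nat.card {x : JZero N // x ∈ U ∧ p • x = 0 ∧ ∀ i, TWLoc.zop (τ i) x = 0} ≤ p ^ d)
    (hsize : p ^ (d * (a * ∏ i, (p ^ ν i - 1) / 2)) ≤
      Nat.card {x : JZero N // x ∈ U ∧ p ^ a • x = 0}) :
    p ^ (d * a ^ (t + 1)) ≤
      Nat.card {x : JZero N // x ∈ U ∧ p ^ a • x = 0 ∧ ∀ i, (TWLoc.zop (τ i))^[a] x = 0} := by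
  have hp : p.Prime := Fact.out
  have key := box_sub (G := GQ) (J := JZero N) U τ (d := d) hp EC.hp2 ha ν hν
    (fun i x hx => hU _ x hx) (fun i x hx => hU _ x hx)
    ((finite_torsion_JZero N (p ^ a) (pow_ne_zero _ hp.ne_zero)).subset fun x hx => hx.2)
    (fun i j x _ hx => zop_comm_tors EC S hTS N hN a (hτ i a) (τ j) x hx)
    (fun i x hx _ => hG i x hx) hcogen hsize
  rwa [Fintype.card_fin] at key

variable {L₀ t n : ℕ} [NeZero L₀] {qv : Fin t → Nat.Primes}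

/-- **the TWFREE contract, Galois form**, `Θ = thetaPart`. -/
theorem twfree (EC : MCtx p T θ rbar0) (TC : MTW p T θ L₀ t n qv) (ht : 0 < t) :
    ∃ (A : Fin t → ValuationSubring Qbar) (τ : Fin t → GQ),
      (∀ i, (A i).LiesOverPrime ((qv i : Nat.Primes) : ℕ)) ∧
      (∀ i, τ i ∈ (A i).inertiaSubgroupIn ℚ) ∧
      IsCube p (↑(cutS T qv) : Set ℕ) θ L₀ qv τ ∧
      -- COGEN
      Nat.card {x : JZero (lev L₀ qv Finset.univ) //
        x ∈ Xnew p (↑(cutS T qv) : Set ℕ) θ L₀ qv Finset.univ ∧ p • x = 0 ∧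
          ∀ i, TWLoc.zop (τ i) x = 0} ≤
        p ^ (2 ^ t * Module.finrank (ZMod p) ↥(WS L₀ p (↑(cutS T qv) : Set ℕ) θ)) ∧
      -- BOX
      ∀ a : ℕ, 1 ≤ a → 2 * a ≤ n + 1 →
        p ^ (2 ^ t * Module.finrank (ZMod p) ↥(WS L₀ p (↑(cutS T qv) : Set ℕ) θ) * a ^ (t + 1)) ≤
          Nat.card {x : JZero (lev L₀ qv Finset.univ) //
            x ∈ Xnew p (↑(cutS T qv) : Set ℕ) θ L₀ qv Finset.univ ∧ p ^ a • x = 0 ∧
              ∀ i, (TWLoc.zop (τ i))^[a] x = 0} := by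
  obtain ⟨A, τ, hA, hτ, -, hC⟩ := exists_isCube EC TC
  have hlp : ∀ i, ((qv i : Nat.Primes) : ℕ) ≠ p := fun i h => TC.notT i (h ▸ EC.p_mem)
  have hrb : ∀ i, rbar0 (τ i) = 1 := fun i =>
    EC.unramT _ (qv i).2 (TC.notT i) (A i) (hA i) (τ i) (hτ i)
  have hcog : Nat.card {x : JZero (lev L₀ qv Finset.univ) //
      x ∈ Xnew p (↑(cutS T qv) : Set ℕ) θ L₀ qv Finset.univ ∧ p • x = 0 ∧
        ∀ i, TWLoc.zop (τ i) x = 0} ≤
      p ^ (2 ^ t * Module.finrank (ZMod p) ↥(WS L₀ p (↑(cutS T qv) : Set ℕ) θ)) := by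
    refine le_trans (le_of_eq (Nat.card_congr (Equiv.subtypeEquivRight fun x => ?_)))
      (hC.hcogen EC TC hrb)
    rw [AddSubgroup.mem_inf, mem_kill_ccZ]
    rfl
  refine ⟨A, τ, hA, hτ, hC, hcog, fun a ha h2a => ?_⟩
  refine box_of_sub EC (cutS T qv) (subset_cutS T qv) (lev L₀ qv Finset.univ)
    (fun r hr hd => TC.mem_cutS_lev Finset.univ hr hd) τ
    (fun i j ζ hζ => inertia_fix_roots (qv i).2 (hlp i) (hA i) (hτ i) j ζ hζ)
    (Xnew p (↑(cutS T qv) : Set ℕ) θ L₀ qv Finset.univ) (fun σ x hx => smul_mem_Xnew σ hx) ha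
    (nuP p qv) (fun i => h2a.trans (TC.le_nuP i))
    (fun i x hx => hC.norm_zero Finset.univ i (Finset.mem_univ i) x hx) hcog ?_
  refine le_trans (hC.hsize EC.hp2 ht a)
    (le_of_eq (Nat.card_congr (Equiv.subtypeEquivRight fun x => ?_)))
  rw [AddSubgroup.mem_inf]
  rfl

end Fermat.Agent.ML.TWFree
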