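import Fermat.Agent.ML.TWFree.Box

/-!
# ML / TWFREE / Box0 : the TWFREE contract WITHOUT the hypothesis `0 < t`

The contracts of `ML/Main/Cell.lean` are stated for ALL `t`, and the `t` of `MCtx.exists_tw` may be `0`.  `IsCube.div` needs `R ≠ ∅` only because
the abstract cube does not know that its base vertex is divisible; here the base vertex is `thetaPart`, which is `p`-divisible.

* `IsCube.div_all`, `IsCube.size_pow_all`, `IsCube.hsize_all` : no hypothesis on `R`, `t`;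
* `twfree_all` : `twfree`, verbatim, without `ht`.
-/

set_option autoImplicit false

noncomputable section

open AlgebraicCurve ModularCurve

namespace Fermat.Agent.ML.TWFree

open Fermat.Agent.RIB Fermat.Agent.GAL Fermat.Agent.GAL.PC

local notation "Qbar" => AlgebraicClosure ℚ
local notation "GQ" => (AlgebraicClosure ℚ ≃ₐ[ℚ] AlgebraicClosure ℚ)
local notation "M₂" => Matrix (Fin 2) (Fin 2)

variable {p : ℕ} [Fact p.Prime] {T : Finset ℕ} {θ : ℕ → ℤ} {rbar0 : GQ →* M₂ (ZMod p)}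
  {L₀ t n : ℕ} [NeZero L₀] {qv : Fin t → Nat.Primes} {τ : Fin t → GQ}

namespace IsCube

/-- **(B1)** divisibility, all `R`. -/
theorem div_all {S : Set ℕ} (hC : IsCube p S θ L₀ qv τ) (R : Finset (Fin t))
    (x : JZero (lev L₀ qv R)) (hx : x ∈ Xnew p S θ L₀ qv R) :
    ∃ y ∈ Xnew p S θ L₀ qv R, p • y = x := by
  rcases R.eq_empty_or_nonempty with rfl | hne
  · obtain ⟨y, hy, e⟩ := thetaPart_divisible (lev L₀ qv ∅) (Fact.out : p.Prime).pos S θ x
      (mem_Xnew.1 hx).1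
    exact ⟨y, mem_Xnew.2 ⟨hy, fun l hl => absurd hl (Finset.notMem_empty l)⟩, e⟩
  · exact hC.div R hne x hx

/-- **SIZE** at `p^a`, all `R`. -/
theorem size_pow_all (hC : IsCube p (↑(cutS T qv) : Set ℕ) θ L₀ qv τ) (R : Finset (Fin t))
    (a : ℕ) :
    Nat.card ↥(WS L₀ p (↑(cutS T qv) : Set ℕ) θ) ^ (a * ∏ i ∈ R, (p ^ nuP p qv i - 1)) ≤
      Nat.card ↥(Xnew p (↑(cutS T qv) : Set ℕ) θ L₀ qv R ⊓
        tors (JZero (lev L₀ qv R)) (p ^ a)) := by
  rw [card_tors_pow _ p (hC.div_all R) a, mul_comm, pow_mul]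
  exact Nat.pow_le_pow_left (hC.size R) a

/-- **SIZE**, numerical form, all `t`. -/
theorem hsize_all (hC : IsCube p (↑(cutS T qv) : Set ℕ) θ L₀ qv τ) (hp2 : p ≠ 2) (a : ℕ) :
    p ^ (2 ^ t * Module.finrank (ZMod p) ↥(WS L₀ p (↑(cutS T qv) : Set ℕ) θ) *
      (a * ∏ i, (p ^ nuP p qv i - 1) / 2)) ≤
      Nat.card ↥(Xnew p (↑(cutS T qv) : Set ℕ) θ L₀ qv Finset.univ ⊓
        tors (JZero (lev L₀ qv Finset.univ)) (p ^ a)) := by
  have h := hC.size_pow_all Finset.univ a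
  rw [card_WS, ← pow_mul] at h
  have hodd : ∀ i : Fin t, 2 * ((p ^ nuP p qv i - 1) / 2) = p ^ nuP p qv i - 1 := by
    intro i
    have h1 : Odd p := (Fact.out : p.Prime).odd_of_ne_two hp2
    have h2 : Odd (p ^ nuP p qv i) := h1.pow
    obtain ⟨k, hk⟩ := h2
    rw [hk]
    omega
  have e : ∏ i : Fin t, (p ^ nuP p qv i - 1) = 2 ^ t * ∏ i : Fin t, (p ^ nuP p qv i - 1) / 2 := by
    rw [← Finset.prod_congr rfl (fun i _ => hodd i), Finset.prod_mul_distrib, Finset.prod_const,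
      Finset.card_univ, Fintype.card_fin]
  rw [e] at h
  refine le_trans (le_of_eq ?_) h
  congr 1
  ring

end IsCube

/-- **the TWFREE contract, Galois form**, `Θ = thetaPart`, ALL `t` (`t = 0` included). -/
theorem twfree_all (EC : MCtx p T θ rbar0) (TC : MTW p T θ L₀ t n qv) :
    ∃ (A : Fin t → ValuationSubring Qbar) (τ : Fin t → GQ),
      (∀ i, (A i).LiesOverPrime ((qv i : Nat.Primes) : ℕ)) ∧
      (∀ i, τ i ∈ (A i).inertiaSubgroupIn ℚ) ∧
      IsCube p (↑(cutS T qv) : Set ℕ) θ L₀ qv τ ∧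
      -- COGEN
      Nat.card {x : JZero (lev L₀ qv Finset.univ) //
        x ∈ Xnew p (↑(cutS T qv) : Set ℕ) θ L₀ qv Finset.univ ∧ p • x = 0 ∧
          ∀ i, TWLoc.zop (τ i) x = 0} ≤
        p ^ (2 ^ t * Module.finrank (ZMod p) ↥(WS L₀ p (↑(cutS T qv) : Set ℕ) θ)) ∧
      -- BOX
      ∀ a : ℕ, 1 ≤ a → 2 * a ≤ n + 1 →
        p ^ (2 ^ t * Module.finrank (ZMod p) ↥(WS L₀ p (↑(cutS T qv) : Set ℕ) θ) * a ^ (t + 1)) ≤
          Nat.card {x : JZero (lev L₀ qv Finset.univ) //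
            x ∈ Xnew p (↑(cutS T qv) : Set ℕ) θ L₀ qv Finset.univ ∧ p ^ a • x = 0 ∧
              ∀ i, (TWLoc.zop (τ i))^[a] x = 0} := by
  obtain ⟨A, τ, hA, hτ, -, hC⟩ := exists_isCube EC TC
  have hlp : ∀ i, ((qv i : Nat.Primes) : ℕ) ≠ p := fun i h => TC.notT i (h ▸ EC.p_mem)
  have hrb : ∀ i, rbar0 (τ i) = 1 := fun i =>
    EC.unramT _ (qv i).2 (TC.notT i) (A i) (hA i) (τ i) (hτ i)
  have hcog : Nat.card {x : JZero (lev L₀ qv Finset.univ) //
      x ∈ Xnew p (↑(cutS T qv) : Set ℕ) θ L₀ qv Finset.univ ∧ p • x = 0 ∧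
        ∀ i, TWLoc.zop (τ i) x = 0} ≤
      p ^ (2 ^ t * Module.finrank (ZMod p) ↥(WS L₀ p (↑(cutS T qv) : Set ℕ) θ)) := by
    refine le_trans (le_of_eq (Nat.card_congr (Equiv.subtypeEquivRight fun x => ?_)))
      (hC.hcogen EC TC hrb)
    rw [AddSubgroup.mem_inf, mem_kill_ccZ]
    rfl
  refine ⟨A, τ, hA, hτ, hC, hcog, fun a ha h2a => ?_⟩
  refine box_of_sub EC (cutS T qv) (subset_cutS T qv) (lev L₀ qv Finset.univ)
    (fun r hr hd => TC.mem_cutS_lev Finset.univ hr hd) τ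
    (fun i j ζ hζ => inertia_fix_roots (qv i).2 (hlp i) (hA i) (hτ i) j ζ hζ)
    (Xnew p (↑(cutS T qv) : Set ℕ) θ L₀ qv Finset.univ) (fun σ x hx => smul_mem_Xnew σ hx) ha
    (nuP p qv) (fun i => h2a.trans (TC.le_nuP i))
    (fun i x hx => hC.norm_zero Finset.univ i (Finset.mem_univ i) x hx) hcog ?_
  refine le_trans (hC.hsize_all EC.hp2 a)
    (le_of_eq (Nat.card_congr (Equiv.subtypeEquivRight fun x => ?_)))
  rw [AddSubgroup.mem_inf]
  rfl

end Fermat.Agent.ML.TWFree
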