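import Fermat.Agent.ML.Count.Min

/-!
# ML / TWFREE / BoxEnd : `ML.box_of_tau` for commuting ENDOMORPHISMS (no ring in the statement)

`X` a finite abelian group, `τ i` automorphisms, `z i = τ i + (τ i)⁻¹ - 2` pairwise commuting and commuting with all the `τ j`.
The commutative ring is `Algebra.adjoin ℤ (range z) ⊆ End X`.
-/

set_option autoImplicit false

namespace Fermat.Agent.ML.TWFree

open Submodule

theorem box_end {X : Type*} [AddCommGroup X] [Finite X] {ι : Type*} [Fintype ι] {p a d : ℕ}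
    (hp : p.Prime) (hp2 : p ≠ 2) (ν : ι → ℕ) (hν : ∀ i, 2 * a ≤ ν i)
    (τ τ' z : ι → X →+ X) (h1 : ∀ i x, τ i (τ' i x) = x) (h2 : ∀ i x, τ' i (τ i x) = x)
    (hz : ∀ i x, z i x = τ i x + τ' i x - 2 • x)
    (hzz : ∀ i j x, z i (z j x) = z j (z i x))
    (hzτ : ∀ i j x, z i (τ j x) = τ j (z i x))
    (hG : ∀ i x, ∑ j ∈ Finset.range (p ^ ν i), (τ i)^[j] x = 0)
    (hpa : ∀ x : X, p ^ a • x = 0)
    (hcogen : Nat.card {x : X // p • x = 0 ∧ ∀ i, z i x = 0} ≤ p ^ d)
    (hsize : p ^ (d * (a * ∏ i, (p ^ ν i - 1) / 2)) ≤ Nat.card X) :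
    p ^ (d * a ^ (Fintype.card ι + 1)) ≤ Nat.card {x : X // ∀ i, (z i)^[a] x = 0} := by
  classical
  let zE : ι → Module.End ℤ X := fun i => (z i).toIntLinearMap
  have hcomm : ∀ u ∈ Set.range zE, ∀ v ∈ Set.range zE, u * v = v * u := by
    rintro _ ⟨i, rfl⟩ _ ⟨j, rfl⟩
    exact LinearMap.ext fun x => hzz i j x
  let B : Subalgebra ℤ (Module.End ℤ X) := Algebra.adjoin ℤ (Set.range zE)
  letI iC : CommRing B := Algebra.adjoinCommRingOfComm ℤ hcomm
  let f : B →+* Module.End ℤ X :=
    { toFun := Subtype.val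
      map_one' := rfl
      map_mul' := fun _ _ => rfl
      map_zero' := rfl
      map_add' := fun _ _ => rfl }
  letI iM : Module B X := Module.compHom X f
  have hsm : ∀ (b : B) (x : X), b • x = (b : Module.End ℤ X) x := fun _ _ => rfl
  -- `τ`, `τ'` commute with `B`
  have hzτ' : ∀ i j x, z i (τ' j x) = τ' j (z i x) := by
    intro i j x
    have := hzτ i j (τ' j x)
    rw [h1] at this
    rw [this, h2]
  have hB : ∀ (t : X →+ X), (∀ i x, z i (t x) = t (z i x)) →
      ∀ (b : B) (x : X), t (b • x) = b • t x := by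
    intro t ht b x
    obtain ⟨b, hb⟩ := b
    show t (b x) = b (t x)
    induction hb using Algebra.adjoin_induction generalizing x with
    | mem u hu =>
      obtain ⟨i, rfl⟩ := hu
      exact (ht i x).symm
    | algebraMap r =>
      rw [Module.algebraMap_end_apply, Module.algebraMap_end_apply, map_zsmul]
    | add u v _ _ hu hv => rw [LinearMap.add_apply, LinearMap.add_apply, map_add, hu, hv]
    | mul u v _ _ hu hv => rw [Module.End.mul_apply, Module.End.mul_apply, hu, hv]
  let τL : ι → X →ₗ[B] X := fun i =>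
    { toFun := τ i
      map_add' := map_add (τ i)
      map_smul' := fun b x => hB (τ i) (fun j x => hzτ j i x) b x }
  let τL' : ι → X →ₗ[B] X := fun i =>
    { toFun := τ' i
      map_add' := map_add (τ' i)
      map_smul' := fun b x => hB (τ' i) (fun j x => hzτ' j i x) b x }
  let zB : ι → B := fun i => ⟨zE i, Algebra.subset_adjoin ⟨i, rfl⟩⟩
  have hzB : ∀ i x, zB i • x = z i x := fun _ _ => rfl
  have hzBpow : ∀ i (k : ℕ) x, zB i ^ k • x = (z i)^[k] x := by
    intro i k
    induction k with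
    | zero => intro x; rw [pow_zero, one_smul]; rfl
    | succ k ih => intro x; rw [pow_succ, mul_smul, hzB, ih, Function.iterate_succ_apply]
  have hτpow : ∀ i (k : ℕ) x, (τL i ^ k) x = (τ i)^[k] x := by
    intro i k x
    rw [Module.End.pow_apply]
    rfl
  have hnat : ∀ (m : ℕ) (x : X), (m : B) • x = m • x := fun m x => Nat.cast_smul_eq_nsmul B m x
  have key := box_of_tau (A := B) (X := X) (d := d) hp hp2 ν hν τL τL' h1 h2 zB
    (fun i x => by rw [hzB]; exact hz i x)
    (fun i x => by simpa only [hτpow] using hG i x)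
    (fun x => by rw [← Nat.cast_pow, hnat]; exact hpa x)
    (by
      refine le_trans (le_of_eq (Nat.card_congr (Equiv.subtypeEquivRight fun x => ?_))) hcogen
      simp only [Submodule.mem_inf, Submodule.mem_iInf, mem_torsionBy_iff, hnat, hzB])
    hsize
  refine key.trans (le_of_eq (Nat.card_congr (Equiv.subtypeEquivRight fun x => ?_)))
  simp only [Submodule.mem_iInf, mem_torsionBy_iff, hzBpow]

end Fermat.Agent.ML.TWFree
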