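import Fermat.Agent.ML.TWFree.Next

/-!
# ML / TWFREE / Card : the two cardinality estimates of one step (ambient form, `Nat.card` of subgroups)

* `FHyp.grow_all` **(SIZE)**  : `#XV[p]^(p^n - 1) ≤ #N[p]`, `N = XW ⊓ ker Π` the new part;
* `FHyp.card_le_sq` **(COGEN / BASE)** : `#(N ⊓ CW) ≤ #(XV ⊓ CV)²` for a pair of conditions `CV`, `CW` such that `CW` is
  `τ`-stable, `(τ - 1)² = 0` on `N ⊓ CW`, and `x_v ∈ CW ⟹ v ∈ CV`.
-/

set_option autoImplicit false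

namespace Fermat.Agent.ML.TWFree

open Fermat.Agent.RIB.Grow Fermat.Agent.RIB.Grow.Hyp

namespace FHyp

variable {p l n : ℕ} {JV JW : Type*} [AddCommGroup JV] [AddCommGroup JW]
  {XV : AddSubgroup JV} {XW : AddSubgroup JW} {T : JV →+ JV}
  {io : Fin 3 → JV →+ JW} {Pi : Fin 3 → JW →+ JV} {τ : JW →+ JW}

theorem finite_V (h : FHyp p l n XV XW T io Pi τ) : Finite ↥(XV ⊓ tors JV p) := h.Vfin.to_subtype

theorem finite_new (h : FHyp p l n XV XW T io Pi τ) : Finite ↥(XW ⊓ Wnew Pi ⊓ tors JW p) :=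
  (h.Wfin.subset fun _ hx => ⟨hx.1.1, hx.2⟩ :
    ((XW ⊓ Wnew Pi ⊓ tors JW p : AddSubgroup JW) : Set JW).Finite).to_subtype

/-- **(SIZE)** -/
theorem grow_all (h : FHyp p l n XV XW T io Pi τ) :
    Nat.card ↥(XV ⊓ tors JV p) ^ (p ^ n - 1) ≤ Nat.card ↥(XW ⊓ Wnew Pi ⊓ tors JW p) := by
  have key := (Hyp_grow_all h.toHyp).2
  rw [← _root_.Nat.card_coe_set_eq, ← _root_.Nat.card_coe_set_eq] at key
  have e1 : Nat.card ↥{v : ↥XV | p • v = 0} = Nat.card ↥(XV ⊓ tors JV p) :=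
    Nat.card_congr
      { toFun := fun v => ⟨v.1.1, v.1.2, congrArg Subtype.val v.2⟩
        invFun := fun x => ⟨⟨x.1, x.2.1⟩, Subtype.ext x.2.2⟩
        left_inv := fun _ => rfl
        right_inv := fun _ => rfl }
  have e2 : Nat.card ↥{x : ↥(Wnew fun i => resHom XW XV (Pi i) (h.hPi i)) | p • x = 0} =
      Nat.card ↥(XW ⊓ Wnew Pi ⊓ tors JW p) :=
    Nat.card_congr
      { toFun := fun x => ⟨x.1.1.1, ⟨x.1.1.2, mem_Wnew.2 fun i =>
          congrArg Subtype.val (mem_Wnew.1 x.1.2 i)⟩,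
          congrArg (fun y : ↥(Wnew fun i => resHom XW XV (Pi i) (h.hPi i)) => (y.1.1 : JW)) x.2⟩
        invFun := fun x => ⟨⟨⟨x.1, x.2.1.1⟩, mem_Wnew.2 fun i =>
          Subtype.ext (mem_Wnew.1 x.2.1.2 i)⟩, Subtype.ext (Subtype.ext x.2.2)⟩
        left_inv := fun _ => rfl
        right_inv := fun _ => rfl }
  rwa [e1, e2] at key

/-- **(COGEN / BASE)** -/
theorem card_le_sq (h : FHyp p l n XV XW T io Pi τ) (CV : AddSubgroup JV) (CW : AddSubgroup JW)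
    (hτC : ∀ x ∈ XW ⊓ Wnew Pi ⊓ CW, τ x ∈ CW)
    (hz : ∀ x ∈ XW ⊓ Wnew Pi ⊓ CW, τ (τ x) + x = 2 • τ x)
    (hrefl : ∀ v ∈ XV, xv T io v ∈ CW → v ∈ CV)
    (hfin : Finite ↥(XV ⊓ CV)) :
    Finite ↥(XW ⊓ Wnew Pi ⊓ CW) ∧
      Nat.card ↥(XW ⊓ Wnew Pi ⊓ CW) ≤ Nat.card ↥(XV ⊓ CV) ^ 2 := by
  classical
  set E : AddSubgroup JW := XW ⊓ Wnew Pi ⊓ CW with hE
  have hτE : ∀ x ∈ E, τ x ∈ E := fun x hx =>
    ⟨⟨h.hτ x hx.1.1, mem_Wnew.2 fun i => by rw [h.Pi_tau i x hx.1.1]; exact mem_Wnew.1 hx.1.2 i⟩,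
      hτC x hx⟩
  let f : E →+ E := ((τ - AddMonoidHom.id JW).comp E.subtype).codRestrict E fun x =>
    E.sub_mem (hτE x x.2) x.2
  have hf : ∀ x : E, ((f x : E) : JW) = τ x - x := fun _ => rfl
  have hle : f.range ≤ f.ker := by
    rintro _ ⟨x, rfl⟩
    rw [AddMonoidHom.mem_ker]
    apply Subtype.ext
    rw [hf, hf, map_sub]
    have := hz x x.2
    have e : τ (τ (x : JW)) - τ x - (τ x - x) = (τ (τ (x : JW)) + x) - 2 • τ (x : JW) := by abel
    rw [e, this, sub_self]; rfl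
  -- the fixed classes embed into `XV ⊓ CV`
  have hch : ∀ x : f.ker, ∃ v : ↥(XV ⊓ CV), xv T io (v : JV) = ((x : E) : JW) := by
    intro x
    have h1 : τ ((x : E) : JW) = ((x : E) : JW) :=
      sub_eq_zero.1 ((hf x).symm.trans (congrArg Subtype.val x.2))
    obtain ⟨v, hv, -, e⟩ := h.fix_new _ (x : E).2.1 h1
    exact ⟨⟨v, hv, hrefl v hv (e ▸ (x : E).2.2)⟩, e⟩
  choose g hg using hch
  have hginj : Function.Injective g := by
    intro x y hxy
    apply Subtype.ext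
    apply Subtype.ext
    rw [← hg x, ← hg y, hxy]
  haveI : Finite f.ker := Finite.of_injective g hginj
  have c1 : Nat.card f.ker ≤ Nat.card ↥(XV ⊓ CV) := Nat.card_le_card_of_injective g hginj
  haveI : Finite f.range := Finite.of_injective (AddSubgroup.inclusion hle)
    (AddSubgroup.inclusion_injective hle)
  have c2 : Nat.card f.range ≤ Nat.card f.ker :=
    Nat.card_le_card_of_injective _ (AddSubgroup.inclusion_injective hle)
  have c3 : Nat.card f.ker * Nat.card f.range = Nat.card E := by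
    rw [← AddSubgroup.index_ker, AddSubgroup.card_mul_index]
  have hpos : 0 < Nat.card E := by
    rw [← c3]
    exact Nat.mul_pos Nat.card_pos Nat.card_pos
  refine ⟨(Nat.card_pos_iff.1 hpos).2, ?_⟩
  rw [← c3, pow_two]
  exact Nat.mul_le_mul c1 (c2.trans c1)

end FHyp

end Fermat.Agent.ML.TWFree
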