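import Fermat.Agent.ML.TWFree.Next

/-!
# ML / TWFREE / Cube : the abstract cube of levels and the multi-new part

`ι` indexes the Taylor–Wiles primes, `Q₀ : Finset ι` is the full set; the vertex `Q ⊆ Q₀` stands for the level
`L₀ ∏_{l ∈ Q} l²`, `J Q` for its Jacobian, `Θ Q` for the `θ`-part.  `io Q Q' l`, `Pi Q Q' l` are TOTAL in `(Q, Q')`
(junk unless `Q' = insert l Q`): so no transport along equalities of finsets is ever needed.

`Cube` = the CONTRACT with the geometry:  the one-step datum `FHyp` on every edge for the `θ`-parts, and the commutation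
rules (SS), (SP), (TP), (τP) on the squares.
-/

set_option autoImplicit false

namespace Fermat.Agent.ML.TWFree

open Fermat.Agent.RIB.Grow Fermat.Agent.RIB.Grow.Hyp

universe u

/-- **the cube of levels** (contract with the geometry). -/
structure Cube {ι : Type} [DecidableEq ι] (p : ℕ) (Q₀ : Finset ι) (ℓ ν : ι → ℕ)
    (J : Finset ι → Type u) [∀ Q, AddCommGroup (J Q)] (Θ : ∀ Q, AddSubgroup (J Q))
    (T : ∀ Q, ι → J Q →+ J Q)
    (io : ∀ Q Q' : Finset ι, ι → Fin 3 → J Q →+ J Q')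
    (Pi : ∀ Q Q' : Finset ι, ι → Fin 3 → J Q' →+ J Q)
    (τ : ∀ Q, ι → J Q →+ J Q) : Prop where
  /-- the one-step datum on every edge `Q ⟶ Q' = Q ∪ {l}` -/
  edge : ∀ (Q Q' : Finset ι) (l : ι), Q' ⊆ Q₀ → l ∉ Q → Q' = insert l Q →
    FHyp p (ℓ l) (ν l) (Θ Q) (Θ Q') (T Q l) (io Q Q' l) (Pi Q Q' l) (τ Q' l)
  /-- push–push -/
  SS : ∀ (Q Qa Qb Qab : Finset ι) (a b : ι), Qab ⊆ Q₀ → a ≠ b → a ∉ Q → b ∉ Q →
    Qa = insert a Q → Qb = insert b Q → Qab = insert b Qa →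
    ∀ i j, ∀ y ∈ Θ Qab, Pi Q Qa a i (Pi Qa Qab b j y) = Pi Q Qb b j (Pi Qb Qab a i y)
  /-- base change: push at `a` after pull at `b` -/
  SP : ∀ (Q Qa Qb Qab : Finset ι) (a b : ι), Qab ⊆ Q₀ → a ≠ b → a ∉ Q → b ∉ Q →
    Qa = insert a Q → Qb = insert b Q → Qab = insert b Qa →
    ∀ i j, ∀ x ∈ Θ Qa, Pi Qb Qab a i (io Qa Qab b j x) = io Q Qb b j (Pi Q Qa a i x)
  /-- `T_b` commutes with the push at `a ≠ b` (`b` prime to the levels) -/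
  TP : ∀ (Q Qa : Finset ι) (a b : ι), Qa ⊆ Q₀ → b ∈ Q₀ → a ∉ Q → b ∉ Qa → Qa = insert a Q →
    ∀ i, ∀ x ∈ Θ Qa, Pi Q Qa a i (T Qa b x) = T Q b (Pi Q Qa a i x)
  /-- the push-forwards are Galois equivariant -/
  τP : ∀ (Q Qa : Finset ι) (a m : ι), Qa ⊆ Q₀ → m ∈ Q₀ → a ∉ Q → Qa = insert a Q →
    ∀ i, ∀ x ∈ Θ Qa, Pi Q Qa a i (τ Qa m x) = τ Q m (Pi Q Qa a i x)

section Defs

variable {ι : Type} [DecidableEq ι] {J : Finset ι → Type u} [∀ Q, AddCommGroup (J Q)]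

/-- the part of `Θ Q` which is new at all the primes of `R ∩ Q`. -/
def newPart (Θ : ∀ Q, AddSubgroup (J Q)) (Pi : ∀ Q Q' : Finset ι, ι → Fin 3 → J Q' →+ J Q)
    (R Q : Finset ι) : AddSubgroup (J Q) :=
  Θ Q ⊓ ⨅ l ∈ R ∩ Q, Wnew (Pi (Q.erase l) Q l)

theorem mem_newPart {Θ : ∀ Q, AddSubgroup (J Q)}
    {Pi : ∀ Q Q' : Finset ι, ι → Fin 3 → J Q' →+ J Q} {R Q : Finset ι} {x : J Q} :
    x ∈ newPart Θ Pi R Q ↔ x ∈ Θ Q ∧ ∀ l ∈ R, l ∈ Q → ∀ i, Pi (Q.erase l) Q l i x = 0 := by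
  simp only [newPart, AddSubgroup.mem_inf, AddSubgroup.mem_iInf, mem_Wnew, Finset.mem_inter,
    and_imp]

end Defs

end Fermat.Agent.ML.TWFree
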