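import Fermat.Agent.ML.TWFree.Cube

/-!
# ML / TWFREE / Descend : descent of the one-step datum and of the cube along an injective morphism

The Taylor–Wiles cube is proved at the RIGID levels `4 ∣ L`.  For the prime `q = 2` (AT-2, (N2)) one needs it at the
levels `2M` and `M` (`M` odd).  Abstractly: a morphism `d : J → J4` (pull-back to the rigid level), injective on `Θ`,
commuting with `T, ι, Π, τ`, whose image is cut out in `Θ4` by the invariance under operators `s k` (deck transformations)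
commuting with `ι4`.

* `Desc.fhyp_descend` : the one-step datum `FHyp` descends (`inj`, `fix`, `fixp` (= CTRL), `fix_io`, `Pi_tau`, `ord`, `unit`, the
  entries of `Π ι`, finiteness, torsion); the fields which are level-free in the geometry (stability, divisibility, `weil`)
  are hypotheses.
* `Desc.cube_descend` : the cube descends.
-/

set_option autoImplicit false

namespace Fermat.Agent.ML.TWFree

open Fermat.Agent.RIB.Grow Fermat.Agent.RIB.Grow.Hyp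

namespace Desc

section One

variable {p l n : ℕ} {JV JW JV4 JW4 κ : Type*} [AddCommGroup JV] [AddCommGroup JW]
  [AddCommGroup JV4] [AddCommGroup JW4]
  {XV : AddSubgroup JV} {XW : AddSubgroup JW} {T : JV →+ JV}
  {io : Fin 3 → JV →+ JW} {Pi : Fin 3 → JW →+ JV} {τ : JW →+ JW}
  {XV4 : AddSubgroup JV4} {XW4 : AddSubgroup JW4} {T4 : JV4 →+ JV4}
  {io4 : Fin 3 → JV4 →+ JW4} {Pi4 : Fin 3 → JW4 →+ JV4} {τ4 : JW4 →+ JW4}

theorem eq_of_map_eq {J J' : Type*} [AddCommGroup J] [AddCommGroup J'] {X : AddSubgroup J}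
    (d : J →+ J') (hinj : ∀ x ∈ X, d x = 0 → x = 0) {a b : J} (ha : a ∈ X) (hb : b ∈ X)
    (h : d a = d b) : a = b :=
  sub_eq_zero.1 (hinj _ (X.sub_mem ha hb) (by rw [map_sub, h, sub_self]))

/-- **the one-step datum descends.** -/
theorem fhyp_descend (h4 : FHyp p l n XV4 XW4 T4 io4 Pi4 τ4)
    (dV : JV →+ JV4) (dW : JW →+ JW4)
    (hdV : ∀ v ∈ XV, dV v ∈ XV4) (hdW : ∀ x ∈ XW, dW x ∈ XW4)
    (injV : ∀ v ∈ XV, dV v = 0 → v = 0) (injW : ∀ x ∈ XW, dW x = 0 → x = 0)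
    (cT : ∀ v ∈ XV, dV (T v) = T4 (dV v))
    (cio : ∀ i, ∀ v ∈ XV, dW (io i v) = io4 i (dV v))
    (cPi : ∀ i, ∀ x ∈ XW, dV (Pi i x) = Pi4 i (dW x))
    (cτ : ∀ x ∈ XW, dW (τ x) = τ4 (dW x))
    (sV : κ → JV4 →+ JV4) (sW : κ → JW4 →+ JW4)
    (hsV : ∀ k, ∀ y ∈ XV4, sV k y ∈ XV4)
    (csio : ∀ k i, ∀ y ∈ XV4, sW k (io4 i y) = io4 i (sV k y))
    (hsd : ∀ k, ∀ x ∈ XW, sW k (dW x) = dW x)
    (inv : ∀ y ∈ XV4, (∀ k, sV k y = y) → ∃ v ∈ XV, dV v = y)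
    (hT : ∀ v ∈ XV, T v ∈ XV) (hio : ∀ i, ∀ v ∈ XV, io i v ∈ XW)
    (hPi : ∀ i, ∀ x ∈ XW, Pi i x ∈ XV) (hτ : ∀ x ∈ XW, τ x ∈ XW)
    (Vdiv : ∀ v ∈ XV, ∃ w ∈ XV, p • w = v) (Wdiv : ∀ x ∈ XW, ∃ y ∈ XW, p • y = x)
    (weil : ∀ v : Fin 3 → JV, (∀ i, v i ∈ XV) → (∀ i, p • v i = 0) →
      ∃ x ∈ XW, p • x = 0 ∧ ∀ i, Pi i x = v i) :
    FHyp p l n XV XW T io Pi τ := by
  have eV : ∀ {a b : JV}, a ∈ XV → b ∈ XV → dV a = dV b → a = b :=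
    fun ha hb h => eq_of_map_eq dV injV ha hb h
  have eW : ∀ {a b : JW}, a ∈ XW → b ∈ XW → dW a = dW b → a = b :=
    fun ha hb h => eq_of_map_eq dW injW ha hb h
  have cPiio : ∀ i j, ∀ v ∈ XV, dV (Pi i (io j v)) = Pi4 i (io4 j (dV v)) := fun i j v hv => by
    rw [cPi i _ (hio j v hv), cio j v hv]
  -- old classes descend
  have old : ∀ x ∈ XW, (∃ y : Fin 3 → JV4, (∀ i, y i ∈ XV4) ∧
      dW x = io4 0 (y 0) + io4 1 (y 1) + io4 2 (y 2)) →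
      ∃ v : Fin 3 → JV, (∀ i, v i ∈ XV) ∧ x = io 0 (v 0) + io 1 (v 1) + io 2 (v 2) := by
    rintro x hx ⟨y, hy, e⟩
    have hinv : ∀ i k, sV k (y i) = y i := by
      intro i k
      have h1 : io4 0 (sV k (y 0) - y 0) + io4 1 (sV k (y 1) - y 1) + io4 2 (sV k (y 2) - y 2)
          = 0 := by
        have h2 := hsd k x hx
        rw [e, map_add, map_add, csio k 0 _ (hy 0), csio k 1 _ (hy 1), csio k 2 _ (hy 2)] at h2
        rw [map_sub, map_sub, map_sub]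
        have h3 : io4 0 (sV k (y 0)) - io4 0 (y 0) + (io4 1 (sV k (y 1)) - io4 1 (y 1)) +
            (io4 2 (sV k (y 2)) - io4 2 (y 2)) =
            (io4 0 (sV k (y 0)) + io4 1 (sV k (y 1)) + io4 2 (sV k (y 2))) -
              (io4 0 (y 0) + io4 1 (y 1) + io4 2 (y 2)) := by abel
        rw [h3, h2, sub_self]
      exact sub_eq_zero.1 (h4.inj' (fun i => sV k (y i) - y i)
        (fun i => XV4.sub_mem (hsV k _ (hy i)) (hy i)) h1 i)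
    have hv : ∀ i, ∃ v ∈ XV, dV v = y i := fun i => inv (y i) (hy i) (hinv i)
    choose v hvX hvy using hv
    refine ⟨v, hvX, eW hx (XW.add_mem (XW.add_mem (hio 0 _ (hvX 0)) (hio 1 _ (hvX 1)))
      (hio 2 _ (hvX 2))) ?_⟩
    rw [map_add, map_add, cio 0 _ (hvX 0), cio 1 _ (hvX 1), cio 2 _ (hvX 2), hvy, hvy, hvy, e]
  have hτk : ∀ (k : ℕ), ∀ x ∈ XW, τ^[k] x ∈ XW ∧ dW (τ^[k] x) = τ4^[k] (dW x) := by
    intro k
    induction k with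
    | zero => exact fun x hx => ⟨hx, rfl⟩
    | succ k ih =>
      intro x hx
      rw [Function.iterate_succ_apply, Function.iterate_succ_apply, ← cτ x hx]
      exact ih (τ x) (hτ x hx)
  exact
  { hp := h4.hp
    hp2 := h4.hp2
    hl := h4.hl
    hn := h4.hn
    hdvd := h4.hdvd
    hex := h4.hex
    hT := hT
    hio := hio
    hPi := hPi
    hτ := hτ
    Vdiv := Vdiv
    Vtors := fun v hv => by
      obtain ⟨k, hk⟩ := h4.Vtors (dV v) (hdV v hv)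
      exact ⟨k, injV _ (XV.nsmul_mem hv _) (by rw [map_nsmul, hk])⟩
    Vfin := by
      refine Set.Finite.of_finite_image (f := dV) (h4.Vfin.subset ?_) ?_
      · rintro _ ⟨v, ⟨hv, hpv⟩, rfl⟩
        exact ⟨hdV v hv, by rw [← map_nsmul, hpv, map_zero]⟩
      · intro a ha b hb hab
        exact eV ha.1 hb.1 hab
    Wdiv := Wdiv
    Wtors := fun v hv => by
      obtain ⟨k, hk⟩ := h4.Wtors (dW v) (hdW v hv)
      exact ⟨k, injW _ (XW.nsmul_mem hv _) (by rw [map_nsmul, hk])⟩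
    Wfin := by
      refine Set.Finite.of_finite_image (f := dW) (h4.Wfin.subset ?_) ?_
      · rintro _ ⟨v, ⟨hv, hpv⟩, rfl⟩
        exact ⟨hdW v hv, by rw [← map_nsmul, hpv, map_zero]⟩
      · intro a ha b hb hab
        exact eW ha.1 hb.1 hab
    diag := fun i v hv => eV (hPi i _ (hio i v hv)) (XV.nsmul_mem hv _) (by
      rw [cPiio i i v hv, h4.diag i _ (hdV v hv), map_nsmul])
    adj01 := fun v hv => eV (hPi 0 _ (hio 1 v hv)) (XV.nsmul_mem (hT v hv) _) (by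
      rw [cPiio 0 1 v hv, h4.adj01 _ (hdV v hv), map_nsmul, cT v hv])
    adj10 := fun v hv => eV (hPi 1 _ (hio 0 v hv)) (XV.nsmul_mem (hT v hv) _) (by
      rw [cPiio 1 0 v hv, h4.adj10 _ (hdV v hv), map_nsmul, cT v hv])
    adj12 := fun v hv => eV (hPi 1 _ (hio 2 v hv)) (XV.nsmul_mem (hT v hv) _) (by
      rw [cPiio 1 2 v hv, h4.adj12 _ (hdV v hv), map_nsmul, cT v hv])
    adj21 := fun v hv => eV (hPi 2 _ (hio 1 v hv)) (XV.nsmul_mem (hT v hv) _) (by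
      rw [cPiio 2 1 v hv, h4.adj21 _ (hdV v hv), map_nsmul, cT v hv])
    far02 := fun v hv => eV (hPi 0 _ (hio 2 v hv))
      (XV.sub_mem (hT _ (hT v hv)) (XV.nsmul_mem hv _)) (by
      rw [cPiio 0 2 v hv, h4.far02 _ (hdV v hv), map_sub, map_nsmul, cT _ (hT v hv), cT v hv])
    far20 := fun v hv => eV (hPi 2 _ (hio 0 v hv))
      (XV.sub_mem (hT _ (hT v hv)) (XV.nsmul_mem hv _)) (by
      rw [cPiio 2 0 v hv, h4.far20 _ (hdV v hv), map_sub, map_nsmul, cT _ (hT v hv), cT v hv])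
    inj := fun v hv hpv h0 i => injV _ (hv i) (h4.inj (fun i => dV (v i)) (fun i => hdV _ (hv i))
      (fun i => by
        show p • dV (v i) = 0
        rw [← map_nsmul, hpv i, map_zero])
      (by
        show io4 0 (dV (v 0)) + io4 1 (dV (v 1)) + io4 2 (dV (v 2)) = 0
        rw [← cio 0 _ (hv 0), ← cio 1 _ (hv 1), ← cio 2 _ (hv 2), ← map_add, ← map_add, h0,
          map_zero]) i)
    fix := fun x hx hfix hnew => old x hx (h4.fix (dW x) (hdW x hx) (by rw [← cτ x hx, hfix])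
      (fun i => by rw [← cPi i x hx, hnew i, map_zero]))
    fixp := fun x hx hpx hfix => old x hx (h4.fixp (dW x) (hdW x hx)
      (by rw [← map_nsmul, hpx, map_zero]) (by rw [← cτ x hx, hfix]))
    fix_io := fun i v hv => eW (hτ _ (hio i v hv)) (hio i v hv) (by
      rw [cτ _ (hio i v hv), cio i v hv, h4.fix_io i _ (hdV v hv)])
    Pi_tau := fun i x hx => eV (hPi i _ (hτ x hx)) (hPi i x hx) (by
      rw [cPi i _ (hτ x hx), cτ x hx, h4.Pi_tau i _ (hdW x hx), cPi i x hx])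
    weil := weil
    ord := fun x hx => eW (hτk _ x hx).1 hx (by rw [(hτk _ x hx).2, h4.ord _ (hdW x hx)])
    unit := fun v hv hpv h0 => injV v hv (h4.unit (dV v) (hdV v hv)
      (by rw [← map_nsmul, hpv, map_zero])
      (by rw [← cT v hv, ← cT _ (hT v hv), ← map_nsmul, ← map_sub, h0, map_zero])) }

end One

section CubeDesc

universe u

variable {ι : Type} [DecidableEq ι] {κ : Type*} {p : ℕ} {Q₀ : Finset ι} {ℓ ν : ι → ℕ}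
  {J J4 : Finset ι → Type u} [∀ Q, AddCommGroup (J Q)] [∀ Q, AddCommGroup (J4 Q)]
  {Θ : ∀ Q, AddSubgroup (J Q)} {T : ∀ Q, ι → J Q →+ J Q}
  {io : ∀ Q Q' : Finset ι, ι → Fin 3 → J Q →+ J Q'}
  {Pi : ∀ Q Q' : Finset ι, ι → Fin 3 → J Q' →+ J Q} {τ : ∀ Q, ι → J Q →+ J Q}
  {Θ4 : ∀ Q, AddSubgroup (J4 Q)} {T4 : ∀ Q, ι → J4 Q →+ J4 Q}
  {io4 : ∀ Q Q' : Finset ι, ι → Fin 3 → J4 Q →+ J4 Q'}
  {Pi4 : ∀ Q Q' : Finset ι, ι → Fin 3 → J4 Q' →+ J4 Q} {τ4 : ∀ Q, ι → J4 Q →+ J4 Q}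

/-- **the cube descends.** -/
theorem cube_descend (C4 : Cube p Q₀ ℓ ν J4 Θ4 T4 io4 Pi4 τ4)
    (d : ∀ Q, J Q →+ J4 Q)
    (hd : ∀ Q, Q ⊆ Q₀ → ∀ x ∈ Θ Q, d Q x ∈ Θ4 Q)
    (dinj : ∀ Q, Q ⊆ Q₀ → ∀ x ∈ Θ Q, d Q x = 0 → x = 0)
    (cT : ∀ (Q : Finset ι) (l : ι), Q ⊆ Q₀ → l ∈ Q₀ → l ∉ Q →
      ∀ x ∈ Θ Q, d Q (T Q l x) = T4 Q l (d Q x))
    (cio : ∀ (Q Q' : Finset ι) (l : ι), Q' ⊆ Q₀ → l ∉ Q → Q' = insert l Q →
      ∀ i, ∀ x ∈ Θ Q, d Q' (io Q Q' l i x) = io4 Q Q' l i (d Q x))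
    (cPi : ∀ (Q Q' : Finset ι) (l : ι), Q' ⊆ Q₀ → l ∉ Q → Q' = insert l Q →
      ∀ i, ∀ y ∈ Θ Q', d Q (Pi Q Q' l i y) = Pi4 Q Q' l i (d Q' y))
    (cτ : ∀ (Q : Finset ι) (m : ι), Q ⊆ Q₀ → m ∈ Q₀ →
      ∀ y ∈ Θ Q, d Q (τ Q m y) = τ4 Q m (d Q y))
    (s : ∀ Q, κ → J4 Q →+ J4 Q)
    (hs : ∀ Q, Q ⊆ Q₀ → ∀ k, ∀ y ∈ Θ4 Q, s Q k y ∈ Θ4 Q)
    (csio : ∀ (Q Q' : Finset ι) (l : ι), Q' ⊆ Q₀ → l ∉ Q → Q' = insert l Q →
      ∀ k i, ∀ y ∈ Θ4 Q, s Q' k (io4 Q Q' l i y) = io4 Q Q' l i (s Q k y))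
    (hsd : ∀ Q, Q ⊆ Q₀ → ∀ k, ∀ x ∈ Θ Q, s Q k (d Q x) = d Q x)
    (inv : ∀ Q, Q ⊆ Q₀ → ∀ y ∈ Θ4 Q, (∀ k, s Q k y = y) → ∃ x ∈ Θ Q, d Q x = y)
    (hT : ∀ (Q : Finset ι) (l : ι), Q ⊆ Q₀ → l ∈ Q₀ → l ∉ Q → ∀ x ∈ Θ Q, T Q l x ∈ Θ Q)
    (hio : ∀ (Q Q' : Finset ι) (l : ι), Q' ⊆ Q₀ → l ∉ Q → Q' = insert l Q →
      ∀ i, ∀ x ∈ Θ Q, io Q Q' l i x ∈ Θ Q')
    (hPi : ∀ (Q Q' : Finset ι) (l : ι), Q' ⊆ Q₀ → l ∉ Q → Q' = insert l Q →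
      ∀ i, ∀ y ∈ Θ Q', Pi Q Q' l i y ∈ Θ Q)
    (hτ : ∀ (Q : Finset ι) (m : ι), Q ⊆ Q₀ → m ∈ Q₀ → ∀ y ∈ Θ Q, τ Q m y ∈ Θ Q)
    (div : ∀ Q, Q ⊆ Q₀ → ∀ x ∈ Θ Q, ∃ y ∈ Θ Q, p • y = x)
    (weil : ∀ (Q Q' : Finset ι) (l : ι), Q' ⊆ Q₀ → l ∉ Q → Q' = insert l Q →
      ∀ v : Fin 3 → J Q, (∀ i, v i ∈ Θ Q) → (∀ i, p • v i = 0) →
        ∃ x ∈ Θ Q', p • x = 0 ∧ ∀ i, Pi Q Q' l i x = v i) :
    Cube p Q₀ ℓ ν J Θ T io Pi τ where
  edge := fun Q Q' l hQ' hl e => by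
    have hQ : Q ⊆ Q₀ := fun i hi => hQ' (e ▸ Finset.mem_insert_of_mem hi)
    have hl0 : l ∈ Q₀ := hQ' (e ▸ Finset.mem_insert_self l Q)
    exact fhyp_descend (C4.edge Q Q' l hQ' hl e) (d Q) (d Q') (hd Q hQ) (hd Q' hQ')
      (dinj Q hQ) (dinj Q' hQ') (cT Q l hQ hl0 hl) (cio Q Q' l hQ' hl e) (cPi Q Q' l hQ' hl e)
      (cτ Q' l hQ' hl0) (s Q) (s Q') (hs Q hQ) (csio Q Q' l hQ' hl e) (hsd Q' hQ') (inv Q hQ)
      (hT Q l hQ hl0 hl) (hio Q Q' l hQ' hl e) (hPi Q Q' l hQ' hl e) (hτ Q' l hQ' hl0)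
      (div Q hQ) (div Q' hQ') (weil Q Q' l hQ' hl e)
  SS := fun Q Qa Qb Qab a b h1 h2 h3 h4 h5 h6 h7 i j y hy => by
    have hb' : b ∉ Qa := by
      rw [h5]; exact fun h' => (Finset.mem_insert.1 h').elim (fun e => h2 e.symm) h4
    have ha' : a ∉ Qb := by
      rw [h6]; exact fun h' => (Finset.mem_insert.1 h').elim h2 h3
    have h7' : Qab = insert a Qb := by rw [h7, h5, h6, Finset.insert_comm]
    have hQa : Qa ⊆ Q₀ := fun i hi => h1 (h7 ▸ Finset.mem_insert_of_mem hi)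
    have hQb : Qb ⊆ Q₀ := fun i hi => h1 (h7' ▸ Finset.mem_insert_of_mem hi)
    have hQ : Q ⊆ Q₀ := fun i hi => hQa (h5 ▸ Finset.mem_insert_of_mem hi)
    have m1 := hPi Qa Qab b h1 hb' h7 j y hy
    have m2 := hPi Qb Qab a h1 ha' h7' i y hy
    refine eq_of_map_eq (d Q) (dinj Q hQ) (hPi Q Qa a hQa h3 h5 i _ m1)
      (hPi Q Qb b hQb h4 h6 j _ m2) ?_
    rw [cPi Q Qa a hQa h3 h5 i _ m1, cPi Qa Qab b h1 hb' h7 j y hy,
      cPi Q Qb b hQb h4 h6 j _ m2, cPi Qb Qab a h1 ha' h7' i y hy]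
    exact C4.SS Q Qa Qb Qab a b h1 h2 h3 h4 h5 h6 h7 i j _ (hd Qab h1 y hy)
  SP := fun Q Qa Qb Qab a b h1 h2 h3 h4 h5 h6 h7 i j x hx => by
    have hb' : b ∉ Qa := by
      rw [h5]; exact fun h' => (Finset.mem_insert.1 h').elim (fun e => h2 e.symm) h4
    have ha' : a ∉ Qb := by
      rw [h6]; exact fun h' => (Finset.mem_insert.1 h').elim h2 h3
    have h7' : Qab = insert a Qb := by rw [h7, h5, h6, Finset.insert_comm]
    have hQa : Qa ⊆ Q₀ := fun i hi => h1 (h7 ▸ Finset.mem_insert_of_mem hi)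
    have hQb : Qb ⊆ Q₀ := fun i hi => h1 (h7' ▸ Finset.mem_insert_of_mem hi)
    have m1 := hio Qa Qab b h1 hb' h7 j x hx
    have m2 := hPi Q Qa a hQa h3 h5 i x hx
    refine eq_of_map_eq (d Qb) (dinj Qb hQb) (hPi Qb Qab a h1 ha' h7' i _ m1)
      (hio Q Qb b hQb h4 h6 j _ m2) ?_
    rw [cPi Qb Qab a h1 ha' h7' i _ m1, cio Qa Qab b h1 hb' h7 j x hx,
      cio Q Qb b hQb h4 h6 j _ m2, cPi Q Qa a hQa h3 h5 i x hx]
    exact C4.SP Q Qa Qb Qab a b h1 h2 h3 h4 h5 h6 h7 i j _ (hd Qa hQa x hx)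
  TP := fun Q Qa a b h1 h2 h3 h4 h5 i x hx => by
    have hQ : Q ⊆ Q₀ := fun i hi => h1 (h5 ▸ Finset.mem_insert_of_mem hi)
    have hbQ : b ∉ Q := fun h' => h4 (h5 ▸ Finset.mem_insert_of_mem h')
    have m1 := hT Qa b h1 h2 h4 x hx
    have m2 := hPi Q Qa a h1 h3 h5 i x hx
    refine eq_of_map_eq (d Q) (dinj Q hQ) (hPi Q Qa a h1 h3 h5 i _ m1)
      (hT Q b hQ h2 hbQ _ m2) ?_
    rw [cPi Q Qa a h1 h3 h5 i _ m1, cT Qa b h1 h2 h4 x hx, cT Q b hQ h2 hbQ _ m2,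
      cPi Q Qa a h1 h3 h5 i x hx]
    exact C4.TP Q Qa a b h1 h2 h3 h4 h5 i _ (hd Qa h1 x hx)
  τP := fun Q Qa a m h1 h2 h3 h4 i x hx => by
    have hQ : Q ⊆ Q₀ := fun i hi => h1 (h4 ▸ Finset.mem_insert_of_mem hi)
    have m1 := hτ Qa m h1 h2 x hx
    have m2 := hPi Q Qa a h1 h3 h4 i x hx
    refine eq_of_map_eq (d Q) (dinj Q hQ) (hPi Q Qa a h1 h3 h4 i _ m1) (hτ Q m hQ h2 _ m2) ?_
    rw [cPi Q Qa a h1 h3 h4 i _ m1, cτ Qa m h1 h2 x hx, cτ Q m hQ h2 _ m2,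
      cPi Q Qa a h1 h3 h4 i x hx]
    exact C4.τP Q Qa a m h1 h2 h3 h4 i _ (hd Qa h1 x hx)

end CubeDesc

end Desc

end Fermat.Agent.ML.TWFree
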