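import Fermat.Agent.ML.TWFree.Next

/-!
# ML / TWFREE / Square : the SQUARE lemma [NEXT]

Four groups `V`, `Wa`, `Vb`, `Wab` (levels `M`, `M a²`, `M b²`, `M a² b²`), four one-step data
`ha0 : V → Wa`, `ha1 : Vb → Wab` (prime `a`), `hb0 : V → Vb`, `hb1 : Wa → Wab` (prime `b`) and the commutation rules
(SS), (SP), (TP), (τP).  Then the `a`-new parts `Wa ⊓ ker Π_a → Wab ⊓ ker Π_a` carry a one-step datum at `b`.
-/

set_option autoImplicit false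

namespace Fermat.Agent.ML.TWFree

open Fermat.Agent.RIB.Grow Fermat.Agent.RIB.Grow.Hyp

namespace FHyp

section GenIm

variable {p l n : ℕ} {JV JW : Type*} [AddCommGroup JV] [AddCommGroup JW]
  {XV : AddSubgroup JV} {XW : AddSubgroup JW} {T : JV →+ JV}
  {io : Fin 3 → JV →+ JW} {Pi : Fin 3 → JW →+ JV} {τ : JW →+ JW}

/-- **[GEN-IM]** on the `p`-torsion: `ker Π = (τ - 1) XW[p]`. -/
theorem gen_im (h : FHyp p l n XV XW T io Pi τ) (x : JW) (hx : x ∈ XW) (hpx : p • x = 0)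
    (hnew : ∀ i, Pi i x = 0) : ∃ c ∈ XW, p • c = 0 ∧ τ c - c = x := by
  haveI : Finite ↥(XW ⊓ tors JW p) := h.Wfin.to_subtype
  obtain ⟨c, hc, e⟩ := Weil.exists_sub_eq_of_push_eq_zero (XW ⊓ tors JW p) (XV ⊓ tors JV p) τ
    (fun c hc => ⟨h.hτ c hc.1, by
      have : p • c = 0 := hc.2
      show p • τ c = 0
      rw [← map_nsmul, this, map_zero]⟩) io Pi
    (fun i a ha => ⟨h.hio i a ha.1, by
      have : p • a = 0 := ha.2
      show p • io i a = 0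
      rw [← map_nsmul, this, map_zero]⟩)
    (fun i c hc => ⟨h.hPi i c hc.1, by
      have : p • c = 0 := hc.2
      show p • Pi i c = 0
      rw [← map_nsmul, this, map_zero]⟩)
    (fun v hv h0 => h.inj v (fun i => (hv i).1) (fun i => (hv i).2)
      (by rwa [Fin.sum_univ_three] at h0))
    (fun c hc hfix => by
      obtain ⟨v, hv, e⟩ := h.fixp c hc.1 hc.2 hfix
      refine ⟨v, fun i => ⟨hv i, ?_⟩, by rw [Fin.sum_univ_three]; exact e.symm⟩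
      have hpc : p • c = 0 := hc.2
      have := h.inj' (fun i => p • v i) (fun i => XV.nsmul_mem (hv i) p) (by
        show io 0 (p • v 0) + io 1 (p • v 1) + io 2 (p • v 2) = 0
        rw [map_nsmul, map_nsmul, map_nsmul, ← smul_add, ← smul_add, ← e, hpc]) i
      exact this)
    (fun i a ha => h.fix_io i a ha.1)
    (fun v hv => by
      obtain ⟨c, hc, hpc, e⟩ := h.weil v (fun i => (hv i).1) (fun i => (hv i).2)
      exact ⟨c, ⟨hc, hpc⟩, e⟩)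
    (fun i c hc => h.Pi_tau i c hc.1) x ⟨hx, hpx⟩ hnew
  exact ⟨c, hc.1, hc.2, e⟩

end GenIm

variable {p la na lb nb : ℕ} {JV JWa JVb JWab : Type*}
  [AddCommGroup JV] [AddCommGroup JWa] [AddCommGroup JVb] [AddCommGroup JWab]
  {XV : AddSubgroup JV} {XWa : AddSubgroup JWa} {XVb : AddSubgroup JVb}
  {XWab : AddSubgroup JWab}
  {Ta0 : JV →+ JV} {Ta1 : JVb →+ JVb} {Tb0 : JV →+ JV} {Tb1 : JWa →+ JWa}
  {ioa0 : Fin 3 → JV →+ JWa} {Pia0 : Fin 3 → JWa →+ JV} {τa0 : JWa →+ JWa}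
  {ioa1 : Fin 3 → JVb →+ JWab} {Pia1 : Fin 3 → JWab →+ JVb} {τa1 : JWab →+ JWab}
  {iob0 : Fin 3 → JV →+ JVb} {Pib0 : Fin 3 → JVb →+ JV} {τb0 : JVb →+ JVb}
  {iob1 : Fin 3 → JWa →+ JWab} {Pib1 : Fin 3 → JWab →+ JWa} {τb1 : JWab →+ JWab}

/-- REFLECT: an old class (at `b`) which is new at `a` comes from classes new at `a`. -/
theorem reflect (ha0 : FHyp p la na XV XWa Ta0 ioa0 Pia0 τa0)
    (hb0 : FHyp p lb nb XV XVb Tb0 iob0 Pib0 τb0)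
    (SP : ∀ i j, ∀ x ∈ XWa, Pia1 i (iob1 j x) = iob0 j (Pia0 i x))
    (v : Fin 3 → JWa) (hv : ∀ i, v i ∈ XWa)
    (hnew : iob1 0 (v 0) + iob1 1 (v 1) + iob1 2 (v 2) ∈ Wnew Pia1) :
    ∀ i, v i ∈ XWa ⊓ Wnew Pia0 := by
  have key : ∀ k i, Pia0 k (v i) = 0 := by
    intro k
    refine hb0.inj' (fun i => Pia0 k (v i)) (fun i => ha0.hPi k _ (hv i)) ?_
    have := mem_Wnew.1 hnew k
    rw [map_add, map_add, SP k 0 _ (hv 0), SP k 1 _ (hv 1), SP k 2 _ (hv 2)] at this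
    exact this
  exact fun i => ⟨hv i, mem_Wnew.2 fun k => key k i⟩

/-- **[NEXT]** the square lemma. -/
theorem next (ha0 : FHyp p la na XV XWa Ta0 ioa0 Pia0 τa0)
    (ha1 : FHyp p la na XVb XWab Ta1 ioa1 Pia1 τa1)
    (hb0 : FHyp p lb nb XV XVb Tb0 iob0 Pib0 τb0)
    (hb1 : FHyp p lb nb XWa XWab Tb1 iob1 Pib1 τb1)
    (SS : ∀ i j, ∀ y ∈ XWab, Pia0 i (Pib1 j y) = Pib0 j (Pia1 i y))
    (SP : ∀ i j, ∀ x ∈ XWa, Pia1 i (iob1 j x) = iob0 j (Pia0 i x))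
    (TP : ∀ i, ∀ x ∈ XWa, Pia0 i (Tb1 x) = Tb0 (Pia0 i x))
    (τbP : ∀ i, ∀ y ∈ XWab, Pia1 i (τb1 y) = τb0 (Pia1 i y))
    (τaP : ∀ j, ∀ y ∈ XWab, Pib1 j (τa1 y) = τa0 (Pib1 j y)) :
    FHyp p lb nb (XWa ⊓ Wnew Pia0) (XWab ⊓ Wnew Pia1) Tb1 iob1 Pib1 τb1 where
  hp := hb1.hp
  hp2 := hb1.hp2
  hl := hb1.hl
  hn := hb1.hn
  hdvd := hb1.hdvd
  hex := hb1.hex
  hT := fun v hv => ⟨hb1.hT v hv.1, mem_Wnew.2 fun i => by
    rw [TP i v hv.1, mem_Wnew.1 hv.2 i, map_zero]⟩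
  hio := fun j v hv => ⟨hb1.hio j v hv.1, mem_Wnew.2 fun i => by
    rw [SP i j v hv.1, mem_Wnew.1 hv.2 i, map_zero]⟩
  hPi := fun j y hy => ⟨hb1.hPi j y hy.1, mem_Wnew.2 fun i => by
    rw [SS i j y hy.1, mem_Wnew.1 hy.2 i, map_zero]⟩
  hτ := fun y hy => ⟨hb1.hτ y hy.1, mem_Wnew.2 fun i => by
    rw [τbP i y hy.1, mem_Wnew.1 hy.2 i, map_zero]⟩
  Vdiv := ha0.new_div
  Vtors := fun v hv => hb1.Vtors v hv.1
  Vfin := hb1.Vfin.subset fun _ hv => ⟨hv.1.1, hv.2⟩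
  Wdiv := ha1.new_div
  Wtors := fun v hv => hb1.Wtors v hv.1
  Wfin := hb1.Wfin.subset fun _ hv => ⟨hv.1.1, hv.2⟩
  diag := fun i v hv => hb1.diag i v hv.1
  adj01 := fun v hv => hb1.adj01 v hv.1
  adj10 := fun v hv => hb1.adj10 v hv.1
  adj12 := fun v hv => hb1.adj12 v hv.1
  adj21 := fun v hv => hb1.adj21 v hv.1
  far02 := fun v hv => hb1.far02 v hv.1
  far20 := fun v hv => hb1.far20 v hv.1
  inj := fun v hv => hb1.inj v fun i => (hv i).1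
  fix := fun x hx hfix hnew => by
    obtain ⟨v, hv, e⟩ := hb1.fix x hx.1 hfix hnew
    exact ⟨v, reflect ha0 hb0 SP v hv (e ▸ hx.2), e⟩
  fixp := fun x hx hpx hfix => by
    obtain ⟨v, hv, e⟩ := hb1.fixp x hx.1 hpx hfix
    exact ⟨v, reflect ha0 hb0 SP v hv (e ▸ hx.2), e⟩
  fix_io := fun i v hv => hb1.fix_io i v hv.1
  Pi_tau := fun i x hx => hb1.Pi_tau i x hx.1
  weil := fun v hv hpv => by
    obtain ⟨y, hy, h1, h2⟩ := Weil.next_onto (XWab ⊓ tors JWab p) (XWa ⊓ tors JWa p) τa1 τa0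
      (fun c hc => ⟨ha1.hτ c hc.1, by
        have : p • c = 0 := hc.2
        show p • τa1 c = 0
        rw [← map_nsmul, this, map_zero]⟩) Pia1 Pib1
      (fun i c hc => ha1.Pi_tau i c hc.1) (fun j c hc => τaP j c hc.1)
      (fun b hb => by
        obtain ⟨c, hc, hpc, e⟩ := hb1.weil b (fun j => (hb j).1) (fun j => (hb j).2)
        exact ⟨c, ⟨hc, hpc⟩, e⟩) v
      (fun j => by
        obtain ⟨c, hc, hpc, e⟩ := ha0.gen_im (v j) (hv j).1 (hpv j) (mem_Wnew.1 (hv j).2)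
        exact ⟨c, ⟨hc, hpc⟩, e⟩)
    exact ⟨y, ⟨hy.1, mem_Wnew.2 h1⟩, hy.2, h2⟩
  ord := fun x hx => hb1.ord x hx.1
  unit := fun v hv => hb1.unit v hv.1

end FHyp

end Fermat.Agent.ML.TWFree
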