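import Fermat.Agent.ML.TWFree.Cube
import Fermat.Agent.ML.TWFree.Square
import Fermat.Agent.ML.TWFree.Card

/-!
# ML / TWFREE / Ind : the induction over the Taylor–Wiles primes (abstract)

For a `Cube`:
* `Cube.fam` **[NEXT\*]** : for every `R`, the family `Q ↦ newPart Θ Pi R Q` carries the one-step datum on every edge in a
  direction `l ∉ R`;
* `Cube.step` : the step `X R ⟶ X (insert l R)`, `X R = newPart Θ Pi R R`;
* `Cube.new_div`, `Cube.norm_zero`, `Cube.size`, `Cube.cogen` : the outputs (O1)–(O4).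
-/

set_option autoImplicit false

namespace Fermat.Agent.ML.TWFree

open Fermat.Agent.RIB.Grow Fermat.Agent.RIB.Grow.Hyp

universe u

variable {ι : Type} [DecidableEq ι] {J : Finset ι → Type u} [∀ Q, AddCommGroup (J Q)]
  {Θ : ∀ Q, AddSubgroup (J Q)} {Pi : ∀ Q Q' : Finset ι, ι → Fin 3 → J Q' →+ J Q}

theorem newPart_le (R Q : Finset ι) : newPart Θ Pi R Q ≤ Θ Q := inf_le_left

theorem newPart_empty (Q : Finset ι) : newPart Θ Pi ∅ Q = Θ Q := by
  ext x
  simp [mem_newPart]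

theorem newPart_insert_of_not_mem {a : ι} (R : Finset ι) {Q : Finset ι} (ha : a ∉ Q) :
    newPart Θ Pi (insert a R) Q = newPart Θ Pi R Q := by
  ext x
  rw [mem_newPart, mem_newPart]
  refine and_congr_right fun _ => ⟨fun h l hl => h l (Finset.mem_insert_of_mem hl), ?_⟩
  intro h l hl hlQ
  rcases Finset.mem_insert.1 hl with rfl | hl
  · exact absurd hlQ ha
  · exact h l hl hlQ

theorem newPart_insert_of_mem {a : ι} (R : Finset ι) {Q : Finset ι} (ha : a ∈ Q) :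
    newPart Θ Pi (insert a R) Q = newPart Θ Pi R Q ⊓ Wnew (Pi (Q.erase a) Q a) := by
  ext x
  rw [AddSubgroup.mem_inf, mem_newPart, mem_newPart, mem_Wnew]
  constructor
  · intro h
    exact ⟨⟨h.1, fun l hl => h.2 l (Finset.mem_insert_of_mem hl)⟩,
      h.2 a (Finset.mem_insert_self a R) ha⟩
  · rintro ⟨⟨h1, h2⟩, h3⟩
    refine ⟨h1, fun l hl hlQ => ?_⟩
    rcases Finset.mem_insert.1 hl with rfl | hl
    · exact h3
    · exact h2 l hl hlQ

variable {p : ℕ} {Q₀ : Finset ι} {ℓ ν : ι → ℕ} {T : ∀ Q, ι → J Q →+ J Q}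
  {io : ∀ Q Q' : Finset ι, ι → Fin 3 → J Q →+ J Q'} {τ : ∀ Q, ι → J Q →+ J Q}

namespace Cube

/-- **[NEXT\*]** -/
theorem fam (hC : Cube p Q₀ ℓ ν J Θ T io Pi τ) (R : Finset ι) :
    ∀ (Q Q' : Finset ι) (l : ι), Q' ⊆ Q₀ → l ∉ Q → l ∉ R → Q' = insert l Q →
      FHyp p (ℓ l) (ν l) (newPart Θ Pi R Q) (newPart Θ Pi R Q') (T Q l) (io Q Q' l) (Pi Q Q' l)
        (τ Q' l) := by
  induction R using Finset.induction_on with
  | empty =>
    intro Q Q' l hQ' hl _ e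
    rw [newPart_empty, newPart_empty]
    exact hC.edge Q Q' l hQ' hl e
  | insert a R₀ haR ih =>
    intro Q Q' l hQ' hl hlR e
    have hla : l ≠ a := fun h => hlR (h ▸ Finset.mem_insert_self _ _)
    have hlR₀ : l ∉ R₀ := fun h => hlR (Finset.mem_insert_of_mem h)
    by_cases haQ : a ∈ Q
    · have haQ' : a ∈ Q' := e ▸ Finset.mem_insert_of_mem haQ
      rw [newPart_insert_of_mem R₀ haQ, newPart_insert_of_mem R₀ haQ']
      have hQQ' : Q ⊆ Q' := e ▸ Finset.subset_insert l Q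
      have e1 : Q = insert a (Q.erase a) := (Finset.insert_erase haQ).symm
      have e2 : Q' = insert a (Q'.erase a) := (Finset.insert_erase haQ').symm
      have e3 : Q'.erase a = insert l (Q.erase a) := by
        rw [e, Finset.erase_insert_of_ne hla]
      have n1 : a ∉ Q.erase a := Finset.notMem_erase a Q
      have n2 : a ∉ Q'.erase a := Finset.notMem_erase a Q'
      have n3 : l ∉ Q.erase a := fun h => hl (Finset.mem_of_mem_erase h)
      have s3 : Q'.erase a ⊆ Q₀ := (Finset.erase_subset a Q').trans hQ'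
      have ha0 := ih (Q.erase a) Q a (hQQ'.trans hQ') n1 haR e1
      have ha1 := ih (Q'.erase a) Q' a hQ' n2 haR e2
      have hb0 := ih (Q.erase a) (Q'.erase a) l s3 n3 hlR₀ e3
      have hb1 := ih Q Q' l hQ' hl hlR₀ e
      have haQ₀ : a ∈ Q₀ := hQ' haQ'
      have hlQ₀ : l ∈ Q₀ := hQ' (e ▸ Finset.mem_insert_self l Q)
      exact FHyp.next ha0 ha1 hb0 hb1
        (fun i j y hy => hC.SS (Q.erase a) Q (Q'.erase a) Q' a l hQ' hla.symm n1 n3 e1 e3 e i j y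
          (newPart_le _ _ hy))
        (fun i j x hx => hC.SP (Q.erase a) Q (Q'.erase a) Q' a l hQ' hla.symm n1 n3 e1 e3 e i j x
          (newPart_le _ _ hx))
        (fun i x hx => hC.TP (Q.erase a) Q a l (hQQ'.trans hQ') hlQ₀ n1 hl e1 i x
          (newPart_le _ _ hx))
        (fun i y hy => hC.τP (Q'.erase a) Q' a l hQ' hlQ₀ n2 e2 i y (newPart_le _ _ hy))
        (fun j y hy => hC.τP Q Q' l a hQ' haQ₀ hl e j y (newPart_le _ _ hy))
    · have haQ' : a ∉ Q' := by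
        rw [e, Finset.mem_insert, not_or]
        exact ⟨hla.symm, haQ⟩
      rw [newPart_insert_of_not_mem R₀ haQ, newPart_insert_of_not_mem R₀ haQ']
      exact ih Q Q' l hQ' hl hlR₀ e

/-- the step `X R ⟶ X R'`, `R' = insert l R`, `X R = newPart Θ Pi R R`. -/
theorem step (hC : Cube p Q₀ ℓ ν J Θ T io Pi τ) (R R' : Finset ι) (l : ι) (hR' : R' ⊆ Q₀)
    (hl : l ∉ R) (e : R' = insert l R) :
    FHyp p (ℓ l) (ν l) (newPart Θ Pi R R) (newPart Θ Pi R R') (T R l) (io R R' l) (Pi R R' l)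
      (τ R' l) ∧ newPart Θ Pi R R' ⊓ Wnew (Pi R R' l) = newPart Θ Pi R' R' := by
  refine ⟨hC.fam R R R' l hR' hl hl e, ?_⟩
  have hl' : l ∈ R' := e ▸ Finset.mem_insert_self l R
  have e1 : R'.erase l = R := by rw [e, Finset.erase_insert hl]
  have := newPart_insert_of_mem (Θ := Θ) (Pi := Pi) R hl'
  rw [e1, ← e] at this
  exact this.symm

/-- the step in the direction of any `l ∈ R`. -/
theorem step' (hC : Cube p Q₀ ℓ ν J Θ T io Pi τ) (R : Finset ι) (l : ι) (hR : R ⊆ Q₀)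
    (hl : l ∈ R) :
    FHyp p (ℓ l) (ν l) (newPart Θ Pi (R.erase l) (R.erase l)) (newPart Θ Pi (R.erase l) R)
      (T (R.erase l) l) (io (R.erase l) R l) (Pi (R.erase l) R l) (τ R l) ∧
      newPart Θ Pi (R.erase l) R ⊓ Wnew (Pi (R.erase l) R l) = newPart Θ Pi R R :=
  hC.step (R.erase l) R l hR (Finset.notMem_erase l R) (Finset.insert_erase hl).symm

/-- **(O1)** the multi-new part is `p`-divisible. -/
theorem new_div (hC : Cube p Q₀ ℓ ν J Θ T io Pi τ) (R : Finset ι) (hR : R ⊆ Q₀)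
    (hne : R.Nonempty) (x : J R) (hx : x ∈ newPart Θ Pi R R) :
    ∃ y ∈ newPart Θ Pi R R, p • y = x := by
  obtain ⟨l, hl⟩ := hne
  obtain ⟨h, e⟩ := hC.step' R l hR hl
  rw [← e] at hx ⊢
  exact h.new_div x hx

/-- **(O2)** the norm of every `τ_l`, `l ∈ R`, vanishes on the multi-new part. -/
theorem norm_zero (hC : Cube p Q₀ ℓ ν J Θ T io Pi τ) (R : Finset ι) (hR : R ⊆ Q₀) (l : ι)
    (hl : l ∈ R) (x : J R) (hx : x ∈ newPart Θ Pi R R) :
    ∑ j ∈ Finset.range (p ^ ν l), (τ R l)^[j] x = 0 := by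
  obtain ⟨h, e⟩ := hC.step' R l hR hl
  rw [← e] at hx
  exact h.norm_zero x hx

/-- the multi-new part is stable under `τ_l`, `l ∈ R`. -/
theorem tau_mem (hC : Cube p Q₀ ℓ ν J Θ T io Pi τ) (R : Finset ι) (hR : R ⊆ Q₀) (l : ι)
    (hl : l ∈ R) (x : J R) (hx : x ∈ newPart Θ Pi R R) : τ R l x ∈ newPart Θ Pi R R := by
  obtain ⟨h, e⟩ := hC.step' R l hR hl
  rw [← e] at hx ⊢
  exact ⟨h.hτ x hx.1, mem_Wnew.2 fun i => by rw [h.Pi_tau i x hx.1]; exact mem_Wnew.1 hx.2 i⟩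

/-- `τ_l^(p^ν) = 1` on the multi-new part. -/
theorem tau_ord (hC : Cube p Q₀ ℓ ν J Θ T io Pi τ) (R : Finset ι) (hR : R ⊆ Q₀) (l : ι)
    (hl : l ∈ R) (x : J R) (hx : x ∈ newPart Θ Pi R R) : (τ R l)^[p ^ ν l] x = x := by
  obtain ⟨h, e⟩ := hC.step' R l hR hl
  rw [← e] at hx
  exact h.ord x hx.1

/-- **(O3) SIZE** -/
theorem size (hC : Cube p Q₀ ℓ ν J Θ T io Pi τ) (R : Finset ι) (hR : R ⊆ Q₀) :
    Nat.card ↥(Θ ∅ ⊓ tors (J ∅) p) ^ (∏ l ∈ R, (p ^ ν l - 1)) ≤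
      Nat.card ↥(newPart Θ Pi R R ⊓ tors (J R) p) := by
  induction R using Finset.induction_on with
  | empty => rw [Finset.prod_empty, pow_one, newPart_empty]
  | insert l R hl ih =>
    obtain ⟨h, e⟩ := hC.step R (insert l R) l hR hl rfl
    have h1 := h.grow_all
    rw [e] at h1
    rw [Finset.prod_insert hl, mul_comm, pow_mul]
    exact (Nat.pow_le_pow_left (ih ((Finset.subset_insert l R).trans hR)) _).trans h1

/-- **(O4) COGEN / BASE** : for a family of conditions `C Q ≤ J Q`. -/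
theorem cogen (hC : Cube p Q₀ ℓ ν J Θ T io Pi τ) (C : ∀ Q, AddSubgroup (J Q))
    (hτC : ∀ (R : Finset ι) (l : ι), R ⊆ Q₀ → l ∈ R → ∀ x ∈ Θ R ⊓ C R, τ R l x ∈ C R)
    (hz : ∀ (R : Finset ι) (l : ι), R ⊆ Q₀ → l ∈ R → ∀ x ∈ Θ R ⊓ C R,
      τ R l (τ R l x) + x = 2 • τ R l x)
    (hrefl : ∀ (R R' : Finset ι) (l : ι), R' ⊆ Q₀ → l ∉ R → R' = insert l R → ∀ v ∈ Θ R,
      xv (T R l) (io R R' l) v ∈ C R' → v ∈ C R)
    (hfin : Finite ↥(Θ ∅ ⊓ C ∅)) (R : Finset ι) (hR : R ⊆ Q₀) :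
    Finite ↥(newPart Θ Pi R R ⊓ C R) ∧
      Nat.card ↥(newPart Θ Pi R R ⊓ C R) ≤ Nat.card ↥(Θ ∅ ⊓ C ∅) ^ (2 ^ R.card) := by
  induction R using Finset.induction_on with
  | empty =>
    rw [newPart_empty, Finset.card_empty, pow_zero, pow_one]
    exact ⟨hfin, le_rfl⟩
  | insert l R hl ih =>
    obtain ⟨ih1, ih2⟩ := ih ((Finset.subset_insert l R).trans hR)
    obtain ⟨h, e⟩ := hC.step R (insert l R) l hR hl rfl
    have hl' : l ∈ insert l R := Finset.mem_insert_self l R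
    have h1 := h.card_le_sq (C R) (C (insert l R))
      (fun x hx => hτC _ l hR hl' x ⟨newPart_le _ _ hx.1.1, hx.2⟩)
      (fun x hx => hz _ l hR hl' x ⟨newPart_le _ _ hx.1.1, hx.2⟩)
      (fun v hv => hrefl R _ l hR hl rfl v (newPart_le _ _ hv)) ih1
    rw [e] at h1
    refine ⟨h1.1, h1.2.trans ?_⟩
    rw [Finset.card_insert_of_notMem hl, pow_succ 2 R.card, pow_mul]
    exact Nat.pow_le_pow_left ih2 2

end Cube

end Fermat.Agent.ML.TWFree
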