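import Fermat.Agent.ML.TWFree.Cube
import Fermat.Agent.ML.Deg.Comm
import Fermat.Agent.ML.Main.Ctx

/-!
# ML / TWFREE / Lev : the geometric data of the cube of levels

`lev L₀ qv Q = L₀ ∏_{i ∈ Q} l_i²`, `ioE`, `PiE` : `RIB.iot`, `RIB.Pii` with a FREE upper level `N' = N * l * l`,
`ioQ`, `PiQ`, `TQ`, `tauQ` : the data of `TWFree.Cube` (junk `0` outside the edges).
-/

set_option autoImplicit false

noncomputable section

open AlgebraicCurve ModularCurve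

namespace Fermat.Agent.ML.TWFree

open Fermat.Agent.RIB Fermat.Agent.GAL Fermat.Agent.GAL.PC

local notation "GQ" => (AlgebraicClosure ℚ ≃ₐ[ℚ] AlgebraicClosure ℚ)

/-- `L₀ ∏_{i ∈ Q} l_i²` -/
def lev (L₀ : ℕ) {t : ℕ} (qv : Fin t → Nat.Primes) (Q : Finset (Fin t)) : ℕ :=
  L₀ * ∏ i ∈ Q, (((qv i : Nat.Primes) : ℕ) * ((qv i : Nat.Primes) : ℕ))

instance instNeZeroLev (L₀ : ℕ) [NeZero L₀] {t : ℕ} (qv : Fin t → Nat.Primes)
    (Q : Finset (Fin t)) : NeZero (lev L₀ qv Q) :=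
  ⟨mul_ne_zero (NeZero.ne L₀) (Finset.prod_ne_zero_iff.2 fun i _ =>
    mul_ne_zero (qv i).2.ne_zero (qv i).2.ne_zero)⟩

instance instNeZeroPrimesCoe (q : Nat.Primes) : NeZero ((q : Nat.Primes) : ℕ) := ⟨q.2.ne_zero⟩

theorem lev_empty (L₀ : ℕ) {t : ℕ} (qv : Fin t → Nat.Primes) : lev L₀ qv ∅ = L₀ := by
  simp [lev]

theorem lev_insert (L₀ : ℕ) {t : ℕ} (qv : Fin t → Nat.Primes) {Q : Finset (Fin t)} {i : Fin t}
    (h : i ∉ Q) : lev L₀ qv (insert i Q) =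
      lev L₀ qv Q * ((qv i : Nat.Primes) : ℕ) * ((qv i : Nat.Primes) : ℕ) := by
  rw [lev, Finset.prod_insert h, lev]; ring

section E

variable {N N' l : ℕ} [NeZero N] [NeZero N'] [NeZero l]

/-- `RIB.iot` with a free upper level -/
def ioE (h : N' = N * l * l) (i : Fin 3) : JZero N →+ JZero N' :=
  (castJ h.symm).toAddMonoidHom.comp (iot N l i)

/-- `RIB.Pii` with a free upper level -/
def PiE (h : N' = N * l * l) (i : Fin 3) : JZero N' →+ JZero N :=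
  (Pii N l i).comp (castJ h).toAddMonoidHom

theorem ioE_apply (h : N' = N * l * l) (i : Fin 3) (x : JZero N) :
    ioE h i x = castJ h.symm (iot N l i x) := rfl

theorem PiE_apply (h : N' = N * l * l) (i : Fin 3) (y : JZero N') :
    PiE h i y = Pii N l i (castJ h y) := rfl

theorem ioE_rfl (i : Fin 3) (x : JZero N) : ioE (rfl : N * l * l = N * l * l) i x = iot N l i x :=
  rfl

theorem PiE_rfl (i : Fin 3) (y : JZero (N * l * l)) :
    PiE (rfl : N * l * l = N * l * l) i y = Pii N l i y := rfl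

end E

section Q

variable (L₀ : ℕ) [NeZero L₀] {t : ℕ} (qv : Fin t → Nat.Primes)

/-- the pull-backs of the cube -/
def ioQ (Q Q' : Finset (Fin t)) (l : Fin t) (i : Fin 3) :
    JZero (lev L₀ qv Q) →+ JZero (lev L₀ qv Q') :=
  if h : lev L₀ qv Q' = lev L₀ qv Q * ((qv l : Nat.Primes) : ℕ) * ((qv l : Nat.Primes) : ℕ) then
    ioE h i else 0

/-- the push-forwards of the cube -/
def PiQ (Q Q' : Finset (Fin t)) (l : Fin t) (i : Fin 3) :
    JZero (lev L₀ qv Q') →+ JZero (lev L₀ qv Q) :=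
  if h : lev L₀ qv Q' = lev L₀ qv Q * ((qv l : Nat.Primes) : ℕ) * ((qv l : Nat.Primes) : ℕ) then
    PiE h i else 0

/-- `T_l` at the level `lev Q` -/
def TQ (Q : Finset (Fin t)) (l : Fin t) : JZero (lev L₀ qv Q) →+ JZero (lev L₀ qv Q) :=
  (heckeOperatorBar (lev L₀ qv Q) (qv l)).toAddMonoidHom

/-- the Galois element `τ l` at the level `lev Q` -/
def tauQ (τ : Fin t → GQ) (Q : Finset (Fin t)) (l : Fin t) :
    JZero (lev L₀ qv Q) →+ JZero (lev L₀ qv Q) :=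
  DistribSMul.toAddMonoidHom (JZero (lev L₀ qv Q)) (τ l)

variable {L₀ qv}

theorem ioQ_of_eq {Q Q' : Finset (Fin t)} {l : Fin t}
    (h : lev L₀ qv Q' = lev L₀ qv Q * ((qv l : Nat.Primes) : ℕ) * ((qv l : Nat.Primes) : ℕ)) :
    ioQ L₀ qv Q Q' l = ioE h := by
  funext i; rw [ioQ, dif_pos h]

theorem PiQ_of_eq {Q Q' : Finset (Fin t)} {l : Fin t}
    (h : lev L₀ qv Q' = lev L₀ qv Q * ((qv l : Nat.Primes) : ℕ) * ((qv l : Nat.Primes) : ℕ)) :
    PiQ L₀ qv Q Q' l = PiE h := by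
  funext i; rw [PiQ, dif_pos h]

theorem TQ_apply (Q : Finset (Fin t)) (l : Fin t) (x : JZero (lev L₀ qv Q)) :
    TQ L₀ qv Q l x = heckeOperatorBar (lev L₀ qv Q) (qv l) x := rfl

theorem tauQ_apply (τ : Fin t → GQ) (Q : Finset (Fin t)) (l : Fin t) (x : JZero (lev L₀ qv Q)) :
    tauQ L₀ qv τ Q l x = τ l • x := rfl

end Q

/-- **the geometric contract**: the `θ`-parts of the levels `lev L₀ qv Q` form a cube. -/
def IsCube (p : ℕ) (S : Set ℕ) (θ : ℕ → ℤ) (L₀ : ℕ) [NeZero L₀] {t : ℕ} (qv : Fin t → Nat.Primes)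
    (τ : Fin t → GQ) : Prop :=
  Cube p (Finset.univ : Finset (Fin t)) (fun i => ((qv i : Nat.Primes) : ℕ)) (nuP p qv)
    (fun Q => JZero (lev L₀ qv Q)) (fun Q => thetaPart (lev L₀ qv Q) p S θ)
    (TQ L₀ qv) (ioQ L₀ qv) (PiQ L₀ qv) (tauQ L₀ qv τ)

end Fermat.Agent.ML.TWFree
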