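import Fermat.Agent.ML.TWFree.Ind
import Fermat.Agent.ML.TWFree.Lev
import Fermat.Agent.RIB.TWLoc.Abs

/-!
# ML / TWFREE / Main : the outputs (B1)–(B3) of TWFREE, geometric form

From `hC : IsCube p S θ L₀ qv τ` (the geometric contract of `Lev.lean`), for `R : Finset (Fin t)` and
`Xnew p S θ L₀ qv R ≤ thetaPart (lev L₀ qv R)` the part which is new at all the primes of `R`:

* `Xnew_le`, `smul_mem_Xnew`, `IsCube.div`, `IsCube.norm_zero`, `IsCube.tau_pow`   (B1);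
* `IsCube.size` : `#W(L₀)^(∏_{i ∈ R} (p^ν_i - 1)) ≤ #Xnew R [p]`;
* `IsCube.base` : `#(Xnew R)[CC] ≤ #(thetaPart L₀)[CC]^(2^#R)` for every set `CC` of NATURAL operators (`IsNat`: families
  `a N : J₀(N) → J₀(N)` commuting with all `G_ℚ`-equivariant maps, e.g. elements of `ℤ[G_ℚ]`) such that `[CC]` is stable under
  the `τ_i` and killed by the `z_i = τ_i + τ_i⁻¹ - 2`   (B3).
-/

set_option autoImplicit false

noncomputable section

open AlgebraicCurve ModularCurve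

namespace Fermat.Agent.ML.TWFree

open Fermat.Agent.RIB Fermat.Agent.GAL Fermat.Agent.GAL.PC
open Fermat.Agent.RIB.Grow Fermat.Agent.RIB.Grow.Hyp

local notation "GQ" => (AlgebraicClosure ℚ ≃ₐ[ℚ] AlgebraicClosure ℚ)

theorem gal_zero (N : ℕ) [NeZero N] (σ : GQ) : σ • (0 : JZero N) = 0 :=
  map_zero (DistribSMul.toAddMonoidHom (JZero N) σ)

/-! ### natural operators -/

/-- a family of endomorphisms of all the `J₀(N)` -/
abbrev OpFam : Type := ∀ (N : ℕ) [NeZero N], JZero N →+ JZero N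

/-- the family commutes with every `G_ℚ`-equivariant homomorphism. -/
def IsNat (a : OpFam) : Prop :=
  ∀ (N N' : ℕ) [NeZero N] [NeZero N'] (u : JZero N →+ JZero N'),
    (∀ (σ : GQ) x, u (σ • x) = σ • u x) → ∀ x, u (a N x) = a N' (u x)

/-- the action of `g ∈ G_ℚ` -/
def opG (g : GQ) : OpFam := fun N _ => DistribSMul.toAddMonoidHom (JZero N) g

theorem opG_apply (g : GQ) (N : ℕ) [NeZero N] (x : JZero N) : opG g N x = g • x := rfl

theorem isNat_opG (g : GQ) : IsNat (opG g) := fun _ _ _ _ _ hu x => hu g x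

theorem IsNat.add {a b : OpFam} (ha : IsNat a) (hb : IsNat b) :
    IsNat (fun N _ => a N + b N) := fun N N' _ _ u hu x => by
  show u (a N x + b N x) = a N' (u x) + b N' (u x)
  rw [map_add, ha N N' u hu, hb N N' u hu]

theorem IsNat.sub {a b : OpFam} (ha : IsNat a) (hb : IsNat b) :
    IsNat (fun N _ => a N - b N) := fun N N' _ _ u hu x => by
  show u (a N x - b N x) = a N' (u x) - b N' (u x)
  rw [map_sub, ha N N' u hu, hb N N' u hu]

theorem IsNat.comp {a b : OpFam} (ha : IsNat a) (hb : IsNat b) :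
    IsNat (fun N _ => (a N).comp (b N)) := fun N N' _ _ u hu x => by
  show u (a N (b N x)) = a N' (b N' (u x))
  rw [ha N N' u hu, hb N N' u hu]

theorem IsNat.zsmul {a : OpFam} (ha : IsNat a) (c : ℤ) :
    IsNat (fun N _ => c • a N) := fun N N' _ _ u hu x => by
  show u (c • a N x) = c • a N' (u x)
  rw [map_zsmul, ha N N' u hu]

/-- multiplication by `m` -/
def opN (m : ℕ) : OpFam := fun N _ => nsmulAddMonoidHom m

theorem opN_apply (m : ℕ) (N : ℕ) [NeZero N] (x : JZero N) : opN m N x = m • x := rfl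

theorem isNat_opN (m : ℕ) : IsNat (opN m) := fun _ _ _ _ u _ x => map_nsmul u m x

/-- `z_g = g + g⁻¹ - 2` -/
def opZ (g : GQ) : OpFam := fun N _ => TWLoc.zop (J := JZero N) g

theorem opZ_apply (g : GQ) (N : ℕ) [NeZero N] (x : JZero N) :
    opZ g N x = g • x + g⁻¹ • x - 2 • x := rfl

theorem isNat_opZ (g : GQ) : IsNat (opZ g) := fun N N' _ _ u hu x => by
  rw [opZ_apply, opZ_apply, map_sub, map_add, hu, hu, map_nsmul]

/-- the powers of an operator -/
def opPow (a : OpFam) : ℕ → OpFam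
  | 0 => fun N _ => AddMonoidHom.id (JZero N)
  | k + 1 => fun N _ => (a N).comp (opPow a k N)

theorem opPow_apply (a : OpFam) (k : ℕ) (N : ℕ) [NeZero N] (x : JZero N) :
    opPow a k N x = (a N)^[k] x := by
  induction k with
  | zero => rfl
  | succ k ih =>
    rw [Function.iterate_succ_apply', ← ih]
    rfl

theorem IsNat.pow {a : OpFam} (ha : IsNat a) (k : ℕ) : IsNat (opPow a k) := by
  induction k with
  | zero => exact fun _ _ _ _ _ _ _ => rfl
  | succ k ih => exact ha.comp ih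

/-- a natural operator respects the `θ`-parts. -/
theorem IsNat.mem_thetaPart {a : OpFam} (ha : IsNat a) {N : ℕ} [NeZero N] {p : ℕ} {S : Set ℕ}
    {θ : ℕ → ℤ} {x : JZero N} (hx : x ∈ thetaPart N p S θ) : a N x ∈ thetaPart N p S θ :=
  map_mem_thetaPart (a N) (fun r _ y _ =>
    (ha N N (heckeOperatorBar N r).toAddMonoidHom (fun σ z => (galHecke N r σ z).symm) y).symm) hx

/-- the common kernel of a set of operators -/
def kill (CC : Set OpFam) (N : ℕ) [NeZero N] : AddSubgroup (JZero N) := ⨅ a ∈ CC, (a N).ker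

theorem mem_kill {CC : Set OpFam} {N : ℕ} [NeZero N] {x : JZero N} :
    x ∈ kill CC N ↔ ∀ a ∈ CC, a N x = 0 := by
  simp only [kill, AddSubgroup.mem_iInf, AddMonoidHom.mem_ker]

/-- transport of cardinalities along an equality of levels -/
theorem card_cast (F : ∀ (N : ℕ) [NeZero N], AddSubgroup (JZero N)) {N N' : ℕ} [NeZero N]
    [NeZero N'] (h : N = N') : Nat.card ↥(F N) = Nat.card ↥(F N') := by
  subst h; rfl

theorem finite_cast (F : ∀ (N : ℕ) [NeZero N], AddSubgroup (JZero N)) {N N' : ℕ} [NeZero N]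
    [NeZero N'] (h : N = N') (hf : Finite ↥(F N)) : Finite ↥(F N') := by
  subst h; exact hf

/-! ### equivariance of the data of the cube -/

section Equi

variable {L₀ : ℕ} [NeZero L₀] {t : ℕ} {qv : Fin t → Nat.Primes}

theorem PiQ_smul (Q Q' : Finset (Fin t)) (l : Fin t) (i : Fin 3) (σ : GQ)
    (y : JZero (lev L₀ qv Q')) : PiQ L₀ qv Q Q' l i (σ • y) = σ • PiQ L₀ qv Q Q' l i y := by
  unfold PiQ
  split_ifs with h
  · rw [PiE_apply, PiE_apply, castJ_smul, Pii_smul]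
  · exact (smul_zero σ).symm

theorem ioQ_smul (Q Q' : Finset (Fin t)) (l : Fin t) (i : Fin 3) (σ : GQ)
    (x : JZero (lev L₀ qv Q)) : ioQ L₀ qv Q Q' l i (σ • x) = σ • ioQ L₀ qv Q Q' l i x := by
  unfold ioQ
  split_ifs with h
  · rw [ioE_apply, ioE_apply, iot_smul, castJ_smul]
  · exact (smul_zero σ).symm

theorem TQ_smul (Q : Finset (Fin t)) (l : Fin t) (σ : GQ) (x : JZero (lev L₀ qv Q)) :
    TQ L₀ qv Q l (σ • x) = σ • TQ L₀ qv Q l x :=
  (galHecke (lev L₀ qv Q) (qv l) σ x).symm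

theorem xvQ_smul (Q Q' : Finset (Fin t)) (l : Fin t) (σ : GQ) (x : JZero (lev L₀ qv Q)) :
    xv (TQ L₀ qv Q l) (ioQ L₀ qv Q Q' l) (σ • x) =
      σ • xv (TQ L₀ qv Q l) (ioQ L₀ qv Q Q' l) x := by
  rw [xv_apply, xv_apply, TQ_smul, ioQ_smul, ioQ_smul, ioQ_smul, smul_add, smul_sub]

theorem tauQ_iterate (τ : Fin t → GQ) (Q : Finset (Fin t)) (l : Fin t) (k : ℕ)
    (x : JZero (lev L₀ qv Q)) : (tauQ L₀ qv τ Q l)^[k] x = τ l ^ k • x := by
  induction k generalizing x with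
  | zero => rw [pow_zero, one_smul]; rfl
  | succ k ih => rw [Function.iterate_succ_apply, ih, tauQ_apply, pow_succ, mul_smul]

end Equi

/-! ### the multi-new part -/

/-- the part of `thetaPart (lev L₀ qv R)` which is new at all the primes of `R`. -/
def Xnew (p : ℕ) (S : Set ℕ) (θ : ℕ → ℤ) (L₀ : ℕ) [NeZero L₀] {t : ℕ} (qv : Fin t → Nat.Primes)
    (R : Finset (Fin t)) : AddSubgroup (JZero (lev L₀ qv R)) :=
  newPart (fun Q => thetaPart (lev L₀ qv Q) p S θ) (PiQ L₀ qv) R R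

variable {p : ℕ} {S : Set ℕ} {θ : ℕ → ℤ} {L₀ : ℕ} [NeZero L₀] {t : ℕ} {qv : Fin t → Nat.Primes}
  {τ : Fin t → GQ}

theorem mem_Xnew {R : Finset (Fin t)} {x : JZero (lev L₀ qv R)} :
    x ∈ Xnew p S θ L₀ qv R ↔ x ∈ thetaPart (lev L₀ qv R) p S θ ∧
      ∀ l ∈ R, ∀ i, PiQ L₀ qv (R.erase l) R l i x = 0 := by
  rw [Xnew, mem_newPart]
  exact and_congr_right fun _ => ⟨fun h l hl => h l hl hl, fun h l hl _ => h l hl⟩

theorem Xnew_le (R : Finset (Fin t)) : Xnew p S θ L₀ qv R ≤ thetaPart (lev L₀ qv R) p S θ :=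
  newPart_le R R

theorem smul_mem_Xnew {R : Finset (Fin t)} (σ : GQ) {x : JZero (lev L₀ qv R)}
    (hx : x ∈ Xnew p S θ L₀ qv R) : σ • x ∈ Xnew p S θ L₀ qv R := by
  rw [mem_Xnew] at hx ⊢
  exact ⟨smul_mem_thetaPart σ hx.1, fun l hl i => by
    rw [PiQ_smul, hx.2 l hl i]; exact gal_zero _ σ⟩

/-- a natural operator respects the multi-new part. -/
theorem IsNat.mem_Xnew {a : OpFam} (ha : IsNat a) {R : Finset (Fin t)}
    {x : JZero (lev L₀ qv R)} (hx : x ∈ Xnew p S θ L₀ qv R) :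
    a (lev L₀ qv R) x ∈ Xnew p S θ L₀ qv R := by
  rw [TWFree.mem_Xnew] at hx ⊢
  exact ⟨ha.mem_thetaPart hx.1, fun l hl i => by
    rw [ha _ _ (PiQ L₀ qv (R.erase l) R l i) (PiQ_smul _ _ l i), hx.2 l hl i, map_zero]⟩

namespace IsCube

/-- **(B1)** divisibility. -/
theorem div (hC : IsCube p S θ L₀ qv τ) (R : Finset (Fin t)) (hne : R.Nonempty)
    (x : JZero (lev L₀ qv R)) (hx : x ∈ Xnew p S θ L₀ qv R) :
    ∃ y ∈ Xnew p S θ L₀ qv R, p • y = x :=
  Cube.new_div hC R (Finset.subset_univ R) hne x hx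

/-- **(B1)/(T4)** the norm of every `τ_i`, `i ∈ R`, vanishes. -/
theorem norm_zero (hC : IsCube p S θ L₀ qv τ) (R : Finset (Fin t)) (i : Fin t) (hi : i ∈ R)
    (x : JZero (lev L₀ qv R)) (hx : x ∈ Xnew p S θ L₀ qv R) :
    ∑ j ∈ Finset.range (p ^ nuP p qv i), τ i ^ j • x = 0 := by
  have := Cube.norm_zero hC R (Finset.subset_univ R) i hi x hx
  simpa only [tauQ_iterate] using this

theorem tau_pow (hC : IsCube p S θ L₀ qv τ) (R : Finset (Fin t)) (i : Fin t) (hi : i ∈ R)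
    (x : JZero (lev L₀ qv R)) (hx : x ∈ Xnew p S θ L₀ qv R) : τ i ^ (p ^ nuP p qv i) • x = x := by
  have := Cube.tau_ord hC R (Finset.subset_univ R) i hi x hx
  rwa [tauQ_iterate] at this

/-- **SIZE** -/
theorem size (hC : IsCube p S θ L₀ qv τ) (R : Finset (Fin t)) :
    Nat.card ↥(WS L₀ p S θ) ^ (∏ i ∈ R, (p ^ nuP p qv i - 1)) ≤
      Nat.card ↥(Xnew p S θ L₀ qv R ⊓ tors (JZero (lev L₀ qv R)) p) := by
  have h1 := Cube.size hC R (Finset.subset_univ R)
  have h2 : Nat.card ↥(thetaPart (lev L₀ qv ∅) p S θ ⊓ tors (JZero (lev L₀ qv ∅)) p) =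
      Nat.card ↥(WS L₀ p S θ) :=
    card_cast (fun N _ => thetaPart N p S θ ⊓ tors (JZero N) p) (lev_empty L₀ qv)
  rw [h2] at h1
  exact h1

/-- **(B3) BASE** -/
theorem base (hC : IsCube p S θ L₀ qv τ) (CC : Set OpFam) (hnat : ∀ a ∈ CC, IsNat a)
    (hst : ∀ (Q : Finset (Fin t)) (i : Fin t), i ∈ Q →
      ∀ x ∈ thetaPart (lev L₀ qv Q) p S θ ⊓ kill CC (lev L₀ qv Q), τ i • x ∈ kill CC (lev L₀ qv Q))
    (hz : ∀ (Q : Finset (Fin t)) (i : Fin t), i ∈ Q →
      ∀ x ∈ thetaPart (lev L₀ qv Q) p S θ ⊓ kill CC (lev L₀ qv Q),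
        τ i • x + (τ i)⁻¹ • x - 2 • x = 0)
    (hfin : Finite ↥(thetaPart L₀ p S θ ⊓ kill CC L₀)) (R : Finset (Fin t)) :
    Finite ↥(Xnew p S θ L₀ qv R ⊓ kill CC (lev L₀ qv R)) ∧
      Nat.card ↥(Xnew p S θ L₀ qv R ⊓ kill CC (lev L₀ qv R)) ≤
        Nat.card ↥(thetaPart L₀ p S θ ⊓ kill CC L₀) ^ (2 ^ R.card) := by
  have h1 := Cube.cogen hC (fun Q => kill CC (lev L₀ qv Q))
    (fun Q l _ hl x hx => hst Q l hl x hx)
    (fun Q l _ hl x hx => by
      have h0 := hz Q l hl x hx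
      have h2 : τ l • (τ l • x + (τ l)⁻¹ • x - 2 • x) = 0 := by rw [h0]; exact gal_zero _ _
      rw [smul_sub, smul_add, smul_inv_smul] at h2
      show τ l • τ l • x + x = 2 • τ l • x
      have h3 : τ l • (2 • x) = 2 • τ l • x := by rw [two_nsmul, two_nsmul, smul_add]
      rw [h3] at h2
      exact sub_eq_zero.1 h2)
    (fun Q Q' l hQ' hl e v hv hxv => by
      rw [mem_kill] at hxv ⊢
      intro a ha
      have hF := hC.edge Q Q' l hQ' hl e
      refine hF.xv_inj _ ((hnat a ha).mem_thetaPart hv) ?_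
      rw [(hnat a ha) _ _ (xv (TQ L₀ qv Q l) (ioQ L₀ qv Q Q' l)) (xvQ_smul Q Q' l)]
      exact hxv a ha)
    (finite_cast (fun N _ => thetaPart N p S θ ⊓ kill CC N) (lev_empty L₀ qv).symm hfin) R
    (Finset.subset_univ R)
  have h2 : Nat.card ↥(thetaPart (lev L₀ qv ∅) p S θ ⊓ kill CC (lev L₀ qv ∅)) =
      Nat.card ↥(thetaPart L₀ p S θ ⊓ kill CC L₀) :=
    card_cast (fun N _ => thetaPart N p S θ ⊓ kill CC N) (lev_empty L₀ qv)
  rw [h2] at h1
  exact h1

end IsCube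

end Fermat.Agent.ML.TWFree
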