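import Fermat.Agent.ML.TWFree.Step
import Fermat.Agent.ML.Weil.Next

/-!
# ML / TWFREE / Next : the one-step datum in AMBIENT form and the SQUARE lemma [NEXT]

* `FHyp p l n XV XW T io Pi τ` : `RIB.Grow.Hyp` for a pair of SUBGROUPS `XV ≤ JV`, `XW ≤ JW` of ambient groups and ambient
  maps, every field in ambient form, plus `fixp` (`τ`-fixed `p`-torsion classes are old), `hp2`, `hex`;
* `FHyp.toHyp`, `FHyp.of_hyp` : dictionary with `RIB.Grow.Hyp` on the subtypes;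
* `FHyp.new_div`, `FHyp.fix_new`, `FHyp.norm_zero`, `FHyp.grow_all`, `FHyp.card_le_sq` : the one-step outputs;
* `FHyp.next` **[NEXT]** : a commutative square of four data (two primes `a`, `b`) gives the datum at `b` on the `a`-new parts.
-/

set_option autoImplicit false

namespace Fermat.Agent.ML.TWFree

open Fermat.Agent.RIB.Grow Fermat.Agent.RIB.Grow.Hyp

/-- restriction of an additive map to subgroups -/
def resHom {J J' : Type*} [AddCommGroup J] [AddCommGroup J'] (X : AddSubgroup J)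
    (X' : AddSubgroup J') (f : J →+ J') (h : ∀ x ∈ X, f x ∈ X') : X →+ X' :=
  (f.comp X.subtype).codRestrict X' (fun x => h x x.2)

@[simp] theorem coe_resHom {J J' : Type*} [AddCommGroup J] [AddCommGroup J'] (X : AddSubgroup J)
    (X' : AddSubgroup J') (f : J →+ J') (h : ∀ x ∈ X, f x ∈ X') (x : X) :
    ((resHom X X' f h x : X') : J') = f x := rfl

theorem coe_resHom_iterate {J : Type*} [AddCommGroup J] (X : AddSubgroup J)
    (f : J →+ J) (h : ∀ x ∈ X, f x ∈ X) (k : ℕ) (x : X) :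
    (((resHom X X f h)^[k] x : X) : J) = f^[k] x := by
  induction k generalizing x with
  | zero => rfl
  | succ k ih => rw [Function.iterate_succ_apply, Function.iterate_succ_apply, ih, coe_resHom]

/-- the `m`-torsion subgroup -/
def tors (J : Type*) [AddCommGroup J] (m : ℕ) : AddSubgroup J := (nsmulAddMonoidHom m : J →+ J).ker

theorem mem_tors {J : Type*} [AddCommGroup J] {m : ℕ} {x : J} : x ∈ tors J m ↔ m • x = 0 := Iff.rfl

/-- **the one-step datum, ambient form.** -/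
structure FHyp (p l n : ℕ) {JV JW : Type*} [AddCommGroup JV] [AddCommGroup JW]
    (XV : AddSubgroup JV) (XW : AddSubgroup JW) (T : JV →+ JV)
    (io : Fin 3 → JV →+ JW) (Pi : Fin 3 → JW →+ JV) (τ : JW →+ JW) : Prop where
  hp : p.Prime
  hp2 : p ≠ 2
  hl : 1 < l
  hn : 1 ≤ n
  hdvd : p ^ n ∣ l - 1
  hex : ¬ p ^ (n + 1) ∣ l - 1
  hT : ∀ v ∈ XV, T v ∈ XV
  hio : ∀ i, ∀ v ∈ XV, io i v ∈ XW
  hPi : ∀ i, ∀ x ∈ XW, Pi i x ∈ XV
  hτ : ∀ x ∈ XW, τ x ∈ XW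
  Vdiv : ∀ v ∈ XV, ∃ w ∈ XV, p • w = v
  Vtors : ∀ v ∈ XV, ∃ k, p ^ k • v = 0
  Vfin : {v : JV | v ∈ XV ∧ p • v = 0}.Finite
  Wdiv : ∀ x ∈ XW, ∃ y ∈ XW, p • y = x
  Wtors : ∀ x ∈ XW, ∃ k, p ^ k • x = 0
  Wfin : {x : JW | x ∈ XW ∧ p • x = 0}.Finite
  diag : ∀ i, ∀ v ∈ XV, Pi i (io i v) = (l * (l + 1)) • v
  adj01 : ∀ v ∈ XV, Pi 0 (io 1 v) = l • T v
  adj10 : ∀ v ∈ XV, Pi 1 (io 0 v) = l • T v
  adj12 : ∀ v ∈ XV, Pi 1 (io 2 v) = l • T v
  adj21 : ∀ v ∈ XV, Pi 2 (io 1 v) = l • T v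
  far02 : ∀ v ∈ XV, Pi 0 (io 2 v) = T (T v) - (l + 1) • v
  far20 : ∀ v ∈ XV, Pi 2 (io 0 v) = T (T v) - (l + 1) • v
  inj : ∀ v : Fin 3 → JV, (∀ i, v i ∈ XV) → (∀ i, p • v i = 0) →
    io 0 (v 0) + io 1 (v 1) + io 2 (v 2) = 0 → ∀ i, v i = 0
  fix : ∀ x ∈ XW, τ x = x → (∀ i, Pi i x = 0) →
    ∃ v : Fin 3 → JV, (∀ i, v i ∈ XV) ∧ x = io 0 (v 0) + io 1 (v 1) + io 2 (v 2)
  /-- (CTRL) on the `p`-torsion: `τ`-fixed classes are old. -/
  fixp : ∀ x ∈ XW, p • x = 0 → τ x = x →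
    ∃ v : Fin 3 → JV, (∀ i, v i ∈ XV) ∧ x = io 0 (v 0) + io 1 (v 1) + io 2 (v 2)
  fix_io : ∀ i, ∀ v ∈ XV, τ (io i v) = io i v
  Pi_tau : ∀ i, ∀ x ∈ XW, Pi i (τ x) = Pi i x
  weil : ∀ v : Fin 3 → JV, (∀ i, v i ∈ XV) → (∀ i, p • v i = 0) →
    ∃ x ∈ XW, p • x = 0 ∧ ∀ i, Pi i x = v i
  ord : ∀ x ∈ XW, τ^[p ^ n] x = x
  unit : ∀ v ∈ XV, p • v = 0 → ((l + 1) ^ 2) • v - T (T v) = 0 → v = 0

namespace FHyp

variable {p l n : ℕ} {JV JW : Type*} [AddCommGroup JV] [AddCommGroup JW]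
  {XV : AddSubgroup JV} {XW : AddSubgroup JW} {T : JV →+ JV}
  {io : Fin 3 → JV →+ JW} {Pi : Fin 3 → JW →+ JV} {τ : JW →+ JW}

/-- the datum on the subtypes. -/
theorem toHyp (h : FHyp p l n XV XW T io Pi τ) :
    Hyp p l n (resHom XV XV T h.hT) (fun i => resHom XV XW (io i) (h.hio i))
      (fun i => resHom XW XV (Pi i) (h.hPi i)) (resHom XW XW τ h.hτ) where
  hp := h.hp
  hl := h.hl
  hn := h.hn
  hdvd := h.hdvd
  Vdiv := fun v => by
    obtain ⟨w, hw, e⟩ := h.Vdiv v v.2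
    exact ⟨⟨w, hw⟩, Subtype.ext e⟩
  Vtors := fun v => by
    obtain ⟨k, e⟩ := h.Vtors v v.2
    exact ⟨k, Subtype.ext e⟩
  Vfin := by
    refine Set.Finite.of_finite_image (f := Subtype.val) (h.Vfin.subset ?_)
      Subtype.val_injective.injOn
    rintro _ ⟨v, hv, rfl⟩
    exact ⟨v.2, congrArg Subtype.val hv⟩
  Wdiv := fun v => by
    obtain ⟨w, hw, e⟩ := h.Wdiv v v.2
    exact ⟨⟨w, hw⟩, Subtype.ext e⟩
  Wtors := fun v => by
    obtain ⟨k, e⟩ := h.Wtors v v.2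
    exact ⟨k, Subtype.ext e⟩
  Wfin := by
    refine Set.Finite.of_finite_image (f := Subtype.val) (h.Wfin.subset ?_)
      Subtype.val_injective.injOn
    rintro _ ⟨v, hv, rfl⟩
    exact ⟨v.2, congrArg Subtype.val hv⟩
  diag := fun i v => Subtype.ext (h.diag i v v.2)
  adj01 := fun v => Subtype.ext (h.adj01 v v.2)
  adj10 := fun v => Subtype.ext (h.adj10 v v.2)
  adj12 := fun v => Subtype.ext (h.adj12 v v.2)
  adj21 := fun v => Subtype.ext (h.adj21 v v.2)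
  far02 := fun v => Subtype.ext (h.far02 v v.2)
  far20 := fun v => Subtype.ext (h.far20 v v.2)
  inj := fun v hv h0 i => Subtype.ext (h.inj (fun i => (v i : JV)) (fun i => (v i).2)
    (fun i => congrArg Subtype.val (hv i)) (congrArg Subtype.val h0) i)
  fix := fun x hx hnew => by
    obtain ⟨v, hv, e⟩ := h.fix x x.2 (congrArg Subtype.val hx)
      (fun i => congrArg Subtype.val (hnew i))
    exact ⟨fun i => ⟨v i, hv i⟩, Subtype.ext e⟩
  fix_io := fun i v => Subtype.ext (h.fix_io i v v.2)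
  Pi_tau := fun i x => Subtype.ext (h.Pi_tau i x x.2)
  weil := fun v hv => by
    obtain ⟨x, hx, hpx, e⟩ := h.weil (fun i => (v i : JV)) (fun i => (v i).2)
      (fun i => congrArg Subtype.val (hv i))
    exact ⟨⟨x, hx⟩, Subtype.ext hpx, fun i => Subtype.ext (e i)⟩
  ord := fun x => Subtype.ext (by rw [coe_resHom_iterate]; exact h.ord x x.2)
  unit := fun v hv h0 => Subtype.ext (h.unit v v.2 (congrArg Subtype.val hv)
    (congrArg Subtype.val h0))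

/-- from a datum on the subtypes. -/
theorem of_hyp (hp2 : p ≠ 2) (hex : ¬ p ^ (n + 1) ∣ l - 1)
    (hT : ∀ v ∈ XV, T v ∈ XV) (hio : ∀ i, ∀ v ∈ XV, io i v ∈ XW)
    (hPi : ∀ i, ∀ x ∈ XW, Pi i x ∈ XV) (hτ : ∀ x ∈ XW, τ x ∈ XW)
    (h : Hyp p l n (resHom XV XV T hT) (fun i => resHom XV XW (io i) (hio i))
      (fun i => resHom XW XV (Pi i) (hPi i)) (resHom XW XW τ hτ))
    (fixp : ∀ x ∈ XW, p • x = 0 → τ x = x →
      ∃ v : Fin 3 → JV, (∀ i, v i ∈ XV) ∧ x = io 0 (v 0) + io 1 (v 1) + io 2 (v 2)) :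
    FHyp p l n XV XW T io Pi τ where
  hp := h.hp
  hp2 := hp2
  hl := h.hl
  hn := h.hn
  hdvd := h.hdvd
  hex := hex
  hT := hT
  hio := hio
  hPi := hPi
  hτ := hτ
  Vdiv := fun v hv => by
    obtain ⟨w, e⟩ := h.Vdiv ⟨v, hv⟩
    exact ⟨w, w.2, congrArg Subtype.val e⟩
  Vtors := fun v hv => by
    obtain ⟨k, e⟩ := h.Vtors ⟨v, hv⟩
    exact ⟨k, congrArg Subtype.val e⟩
  Vfin := by
    refine (h.Vfin.image Subtype.val).subset ?_
    rintro v ⟨hv, e⟩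
    exact ⟨⟨v, hv⟩, Subtype.ext e, rfl⟩
  Wdiv := fun v hv => by
    obtain ⟨w, e⟩ := h.Wdiv ⟨v, hv⟩
    exact ⟨w, w.2, congrArg Subtype.val e⟩
  Wtors := fun v hv => by
    obtain ⟨k, e⟩ := h.Wtors ⟨v, hv⟩
    exact ⟨k, congrArg Subtype.val e⟩
  Wfin := by
    refine (h.Wfin.image Subtype.val).subset ?_
    rintro v ⟨hv, e⟩
    exact ⟨⟨v, hv⟩, Subtype.ext e, rfl⟩
  diag := fun i v hv => congrArg Subtype.val (h.diag i ⟨v, hv⟩)
  adj01 := fun v hv => congrArg Subtype.val (h.adj01 ⟨v, hv⟩)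
  adj10 := fun v hv => congrArg Subtype.val (h.adj10 ⟨v, hv⟩)
  adj12 := fun v hv => congrArg Subtype.val (h.adj12 ⟨v, hv⟩)
  adj21 := fun v hv => congrArg Subtype.val (h.adj21 ⟨v, hv⟩)
  far02 := fun v hv => congrArg Subtype.val (h.far02 ⟨v, hv⟩)
  far20 := fun v hv => congrArg Subtype.val (h.far20 ⟨v, hv⟩)
  inj := fun v hv hpv h0 i => congrArg Subtype.val (h.inj (fun i => ⟨v i, hv i⟩)
    (fun i => Subtype.ext (hpv i)) (Subtype.ext h0) i)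
  fix := fun x hx hfix hnew => by
    obtain ⟨v, e⟩ := h.fix ⟨x, hx⟩ (Subtype.ext hfix) (fun i => Subtype.ext (hnew i))
    exact ⟨fun i => v i, fun i => (v i).2, congrArg Subtype.val e⟩
  fixp := fixp
  fix_io := fun i v hv => congrArg Subtype.val (h.fix_io i ⟨v, hv⟩)
  Pi_tau := fun i x hx => congrArg Subtype.val (h.Pi_tau i ⟨x, hx⟩)
  weil := fun v hv hpv => by
    obtain ⟨x, hpx, e⟩ := h.weil (fun i => ⟨v i, hv i⟩) (fun i => Subtype.ext (hpv i))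
    exact ⟨x, x.2, congrArg Subtype.val hpx, fun i => congrArg Subtype.val (e i)⟩
  ord := fun x hx => by
    have := congrArg Subtype.val (h.ord ⟨x, hx⟩)
    rwa [coe_resHom_iterate] at this
  unit := fun v hv hpv h0 => congrArg Subtype.val (h.unit ⟨v, hv⟩ (Subtype.ext hpv)
    (Subtype.ext h0))

/-- `ι` is injective on `XV³`. -/
theorem inj' (h : FHyp p l n XV XW T io Pi τ) (v : Fin 3 → JV) (hv : ∀ i, v i ∈ XV)
    (h0 : io 0 (v 0) + io 1 (v 1) + io 2 (v 2) = 0) : ∀ i, v i = 0 := fun i =>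
  congrArg Subtype.val (h.toHyp.inj' (fun i => ⟨v i, hv i⟩) (Subtype.ext h0) i)

/-- the new part is `p`-divisible. -/
theorem new_div (h : FHyp p l n XV XW T io Pi τ) (x : JW) (hx : x ∈ XW ⊓ Wnew Pi) :
    ∃ y ∈ XW ⊓ Wnew Pi, p • y = x := by
  obtain ⟨y0, hy0, e0⟩ := h.Wdiv x hx.1
  obtain ⟨z, hz, hpz, e⟩ := h.weil (fun i => Pi i y0) (fun i => h.hPi i y0 hy0) (fun i => by
    show p • Pi i y0 = 0
    rw [← map_nsmul, e0]; exact mem_Wnew.1 hx.2 i)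
  refine ⟨y0 - z, ⟨XW.sub_mem hy0 hz, mem_Wnew.2 fun i => by rw [map_sub, e i, sub_self]⟩, ?_⟩
  rw [smul_sub, hpz, e0, sub_zero]

/-- **(S2)** the `τ`-fixed new classes. -/
theorem fix_new (h : FHyp p l n XV XW T io Pi τ) (x : JW) (hx : x ∈ XW ⊓ Wnew Pi)
    (hfix : τ x = x) : ∃ v ∈ XV, p ^ n • v = 0 ∧ xv T io v = x := by
  obtain ⟨v, hv, e⟩ := TWFree.fix_new h.toHyp h.hp2 h.hex ⟨x, hx.1⟩ (Subtype.ext hfix)
    (fun i => Subtype.ext (mem_Wnew.1 hx.2 i))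
  exact ⟨v, v.2, congrArg Subtype.val hv, congrArg Subtype.val e⟩

theorem xv_mem (h : FHyp p l n XV XW T io Pi τ) (v : JV) (hv : v ∈ XV) (hpv : p ^ n • v = 0) :
    xv T io v ∈ XW ⊓ Wnew Pi ∧ τ (xv T io v) = xv T io v := by
  obtain ⟨h1, h2⟩ := TWFree.xv_new h.toHyp ⟨v, hv⟩ (Subtype.ext hpv)
  refine ⟨⟨?_, mem_Wnew.2 fun i => congrArg Subtype.val (mem_Wnew.1 h1 i)⟩,
    congrArg Subtype.val h2⟩
  rw [xv_apply]
  exact XW.add_mem (XW.sub_mem (h.hio 0 v hv) (h.hio 1 _ (h.hT v hv))) (h.hio 2 v hv)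

theorem xv_inj (h : FHyp p l n XV XW T io Pi τ) (v : JV) (hv : v ∈ XV) (h0 : xv T io v = 0) :
    v = 0 :=
  congrArg Subtype.val (h.toHyp.xv_inj ⟨v, hv⟩ (Subtype.ext h0))

/-- **(S3)** the norm of `τ` vanishes on the new part. -/
theorem norm_zero (h : FHyp p l n XV XW T io Pi τ) (x : JW) (hx : x ∈ XW ⊓ Wnew Pi) :
    ∑ j ∈ Finset.range (p ^ n), τ^[j] x = 0 := by
  have := congrArg Subtype.val (Hyp_norm_zero h.toHyp ⟨x, hx.1⟩
    (mem_Wnew.2 fun i => Subtype.ext (mem_Wnew.1 hx.2 i)))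
  rw [AddSubgroup.val_finsetSum] at this
  simpa only [coe_resHom_iterate, AddSubgroup.coe_zero] using this

end FHyp

end Fermat.Agent.ML.TWFree
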