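import Fermat.Agent.ML.TWFree.Main
import Fermat.Agent.ML.TWFree.Inst.Step
import Fermat.Agent.ML.Low.TWLoc.Out

/-!
# ML / TWFREE / Out : COGEN and SIZE in the numerical form of `ML.box_of_tau` / `ML.count_main`

`e₀ = dim W(L₀)`, `d = 2^t e₀`, `X = Xnew .. univ` (level `lev L₀ qv univ`):
* `IsCube.cogen`  : `#X[p, z_1, …, z_t] ≤ #W(L₀)^(2^#R)`;
* `IsCube.size_pow` : `#W(L₀)^(a ∏ (p^ν_i - 1)) ≤ #X[p^a]`;
* `IsCube.hcogen`, `IsCube.hsize` : the same with `p^d`.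
-/

set_option autoImplicit false

noncomputable section

open AlgebraicCurve ModularCurve

namespace Fermat.Agent.ML.TWFree

open Fermat.Agent.RIB Fermat.Agent.GAL Fermat.Agent.GAL.PC

local notation "Qbar" => AlgebraicClosure ℚ
local notation "GQ" => (AlgebraicClosure ℚ ≃ₐ[ℚ] AlgebraicClosure ℚ)
local notation "M₂" => Matrix (Fin 2) (Fin 2)

/-- `#X[p^a] = #X[p]^a` for a `p`-divisible subgroup. -/
theorem card_tors_pow {J : Type*} [AddCommGroup J] (X : AddSubgroup J) (p : ℕ)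
    (hdiv : ∀ x ∈ X, ∃ y ∈ X, p • y = x) (a : ℕ) :
    Nat.card ↥(X ⊓ tors J (p ^ a)) = Nat.card ↥(X ⊓ tors J p) ^ a := by
  have key := RIB.card_ker_pow (A := ↥X) (fun j => nsmulAddMonoidHom (p ^ j))
    (fun x => by simp) (fun j x => by simp [pow_succ, mul_smul])
    (fun x => by
      obtain ⟨y, hy, e⟩ := hdiv x x.2
      exact ⟨⟨y, hy⟩, Subtype.ext (by simpa using e)⟩) a
  have e : ∀ m : ℕ, Nat.card ↥(nsmulAddMonoidHom m : ↥X →+ ↥X).ker = Nat.card ↥(X ⊓ tors J m) :=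
    fun m => Nat.card_congr
      { toFun := fun x => ⟨x.1.1, x.1.2, congrArg Subtype.val x.2⟩
        invFun := fun x => ⟨⟨x.1, x.2.1⟩, Subtype.ext x.2.2⟩
        left_inv := fun _ => rfl
        right_inv := fun _ => rfl }
  rw [e, e, pow_one] at key
  exact key

variable {p : ℕ} [Fact p.Prime] {T : Finset ℕ} {θ : ℕ → ℤ} {rbar0 : GQ →* M₂ (ZMod p)}
  {L₀ t n : ℕ} [NeZero L₀] {qv : Fin t → Nat.Primes} {τ : Fin t → GQ}

/-- the conditions `p x = 0`, `z_i x = 0`. -/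
def ccZ (p : ℕ) {t : ℕ} (τ : Fin t → GQ) : Set OpFam :=
  {opN p} ∪ Set.range fun i => opZ (τ i)

theorem mem_kill_ccZ {N : ℕ} [NeZero N] {x : JZero N} :
    x ∈ kill (ccZ p τ) N ↔ p • x = 0 ∧ ∀ i, τ i • x + (τ i)⁻¹ • x - 2 • x = 0 := by
  rw [mem_kill]
  constructor
  · intro h
    exact ⟨h _ (Or.inl rfl), fun i => h _ (Or.inr ⟨i, rfl⟩)⟩
  · rintro ⟨h1, h2⟩ a (rfl | ⟨i, rfl⟩)
    · exact h1
    · exact h2 i

theorem isNat_ccZ : ∀ a ∈ ccZ p τ, IsNat a := by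
  rintro a (rfl | ⟨i, rfl⟩)
  · exact isNat_opN p
  · exact isNat_opZ _

namespace IsCube

/-- **COGEN** -/
theorem cogen (hC : IsCube p (↑(cutS T qv) : Set ℕ) θ L₀ qv τ) (EC : MCtx p T θ rbar0)
    (TC : MTW p T θ L₀ t n qv) (hτ : ∀ i, rbar0 (τ i) = 1) (R : Finset (Fin t)) :
    Nat.card ↥(Xnew p (↑(cutS T qv) : Set ℕ) θ L₀ qv R ⊓ kill (ccZ p τ) (lev L₀ qv R)) ≤
      Nat.card ↥(WS L₀ p (↑(cutS T qv) : Set ℕ) θ) ^ (2 ^ R.card) := by
  have hle : thetaPart L₀ p (↑(cutS T qv) : Set ℕ) θ ⊓ kill (ccZ p τ) L₀ ≤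
      WS L₀ p (↑(cutS T qv) : Set ℕ) θ := fun x hx => ⟨hx.1, (mem_kill_ccZ.1 hx.2).1⟩
  have hfin : Finite ↥(thetaPart L₀ p (↑(cutS T qv) : Set ℕ) θ ⊓ kill (ccZ p τ) L₀) :=
    Finite.of_injective (AddSubgroup.inclusion hle) (AddSubgroup.inclusion_injective hle)
  have h1 := (hC.base (ccZ p τ) isNat_ccZ
    (fun Q i _ x hx => by
      obtain ⟨h1, h2⟩ := mem_kill_ccZ.1 hx.2
      refine mem_kill_ccZ.2 ⟨?_, fun j => ?_⟩
      · have h3 := map_nsmul (DistribSMul.toAddMonoidHom (JZero (lev L₀ qv Q)) (τ i)) p x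
        rw [h1, map_zero] at h3
        exact h3.symm
      · have := Low.zop_central EC (cutS T qv) (subset_cutS T qv) (lev L₀ qv Q)
          (fun r hr hd => TC.mem_cutS_lev Q hr hd) (hτ j) (τ i) x ⟨hx.1, h1⟩
        rw [TWLoc.zop_apply, TWLoc.zop_apply, h2 j] at this
        rw [this]
        exact gal_zero _ _)
    (fun Q i _ x hx => (mem_kill_ccZ.1 hx.2).2 i) hfin R).2
  exact h1.trans (Nat.pow_le_pow_left (Nat.card_le_card_of_injective _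
    (AddSubgroup.inclusion_injective hle)) _)

/-- **SIZE** at `p^a`. -/
theorem size_pow (hC : IsCube p (↑(cutS T qv) : Set ℕ) θ L₀ qv τ) (R : Finset (Fin t))
    (hne : R.Nonempty) (a : ℕ) :
    Nat.card ↥(WS L₀ p (↑(cutS T qv) : Set ℕ) θ) ^ (a * ∏ i ∈ R, (p ^ nuP p qv i - 1)) ≤
      Nat.card ↥(Xnew p (↑(cutS T qv) : Set ℕ) θ L₀ qv R ⊓
        tors (JZero (lev L₀ qv R)) (p ^ a)) := by
  rw [card_tors_pow _ p (hC.div R hne) a, mul_comm, pow_mul]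
  exact Nat.pow_le_pow_left (hC.size R) a

theorem card_WS : Nat.card ↥(WS L₀ p (↑(cutS T qv) : Set ℕ) θ) =
    p ^ Module.finrank (ZMod p) ↥(WS L₀ p (↑(cutS T qv) : Set ℕ) θ) := by
  rw [Module.natCard_eq_pow_finrank (K := ZMod p), Nat.card_zmod]

/-- **COGEN**, numerical form (`hcogen` of `ML.box_of_tau`). -/
theorem hcogen (hC : IsCube p (↑(cutS T qv) : Set ℕ) θ L₀ qv τ) (EC : MCtx p T θ rbar0)
    (TC : MTW p T θ L₀ t n qv) (hτ : ∀ i, rbar0 (τ i) = 1) :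
    Nat.card ↥(Xnew p (↑(cutS T qv) : Set ℕ) θ L₀ qv Finset.univ ⊓
      kill (ccZ p τ) (lev L₀ qv Finset.univ)) ≤
      p ^ (2 ^ t * Module.finrank (ZMod p) ↥(WS L₀ p (↑(cutS T qv) : Set ℕ) θ)) := by
  have h := hC.cogen EC TC hτ Finset.univ
  rw [card_WS, ← pow_mul, Finset.card_univ, Fintype.card_fin, mul_comm] at h
  exact h

/-- **SIZE**, numerical form (`hsize` of `ML.box_of_tau`). -/
theorem hsize (hC : IsCube p (↑(cutS T qv) : Set ℕ) θ L₀ qv τ) (hp2 : p ≠ 2) (ht : 0 < t)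
    (a : ℕ) :
    p ^ (2 ^ t * Module.finrank (ZMod p) ↥(WS L₀ p (↑(cutS T qv) : Set ℕ) θ) *
      (a * ∏ i, (p ^ nuP p qv i - 1) / 2)) ≤
      Nat.card ↥(Xnew p (↑(cutS T qv) : Set ℕ) θ L₀ qv Finset.univ ⊓
        tors (JZero (lev L₀ qv Finset.univ)) (p ^ a)) := by
  have hne : (Finset.univ : Finset (Fin t)).Nonempty := ⟨⟨0, ht⟩, Finset.mem_univ _⟩
  have h := hC.size_pow Finset.univ hne a
  rw [card_WS, ← pow_mul] at h
  have hodd : ∀ i : Fin t, 2 * ((p ^ nuP p qv i - 1) / 2) = p ^ nuP p qv i - 1 := by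
    intro i
    have h1 : Odd p := (Fact.out : p.Prime).odd_of_ne_two hp2
    have h2 : Odd (p ^ nuP p qv i) := h1.pow
    obtain ⟨k, hk⟩ := h2
    rw [hk]
    omega
  have e : ∏ i : Fin t, (p ^ nuP p qv i - 1) = 2 ^ t * ∏ i : Fin t, (p ^ nuP p qv i - 1) / 2 := by
    rw [← Finset.prod_congr rfl (fun i _ => hodd i), Finset.prod_mul_distrib, Finset.prod_const,
      Finset.card_univ, Fintype.card_fin]
  rw [e] at h
  refine le_trans (le_of_eq ?_) h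
  congr 1
  ring

end IsCube

end Fermat.Agent.ML.TWFree
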