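import Fermat.Agent.RIB.Grow.Abs
import Fermat.Agent.ML.Count.GrowAll

/-!
# ML / TWFREE / Step : complements on the abstract one-step datum `RIB.Grow.Hyp`

For `h : RIB.Grow.Hyp p l n T io Pi τ`, `p ≠ 2`, `p^(n+1) ∤ l - 1`:

* `ker_A_exact` **(S1)** : `Π ι v = 0 ⟹ v = (v₀, -T v₀, v₀)`, `(l-1) v₀ = 0`;
* `fix_new` **(S2)** : the `τ`-fixed new classes are exactly the `x_v`, `p^n v = 0`.
-/

set_option autoImplicit false

namespace Fermat.Agent.ML.TWFree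

open Fermat.Agent.RIB.Grow Fermat.Agent.RIB.Grow.Hyp

/-- a `p`-primary element killed by an integer prime to `p` vanishes. -/
theorem eq_zero_of_coprime_nsmul {X : Type*} [AddCommGroup X] {p N : ℕ} (hc : Nat.Coprime N p)
    {x : X} (hx : ∃ k, p ^ k • x = 0) (h : N • x = 0) : x = 0 := by
  obtain ⟨k, hk⟩ := hx
  have h1 : addOrderOf x ∣ p ^ k := addOrderOf_dvd_of_nsmul_eq_zero hk
  have h2 : addOrderOf x ∣ N := addOrderOf_dvd_of_nsmul_eq_zero h
  have h3 : addOrderOf x ∣ 1 := by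
    have : Nat.Coprime N (p ^ k) := Nat.Coprime.pow_right k hc
    rw [← this]
    exact Nat.dvd_gcd h2 h1
  exact AddMonoid.addOrderOf_eq_one_iff.1 (Nat.dvd_one.1 h3)

/-- a `p`-primary element killed by `c` with `p^(n+1) ∤ c` is killed by `p^n`. -/
theorem pow_nsmul_eq_zero_of_not_dvd {X : Type*} [AddCommGroup X] {p : ℕ} (hp : p.Prime)
    {n c : ℕ} (hc : ¬ p ^ (n + 1) ∣ c) {v : X} (h1 : ∃ k, p ^ k • v = 0) (h2 : c • v = 0) :
    p ^ n • v = 0 := by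
  obtain ⟨k, hk⟩ := h1
  obtain ⟨i, -, hi⟩ := (Nat.dvd_prime_pow hp).1 (addOrderOf_dvd_of_nsmul_eq_zero hk)
  have h3 : p ^ i ∣ c := hi ▸ addOrderOf_dvd_of_nsmul_eq_zero h2
  have h4 : i ≤ n := by
    by_contra hcon
    exact hc ((pow_dvd_pow p (by omega)).trans h3)
  exact addOrderOf_dvd_iff_nsmul_eq_zero.1 (hi ▸ pow_dvd_pow p h4)

variable {V W : Type*} [AddCommGroup V] [AddCommGroup W]
  {p l n : ℕ} {T : V →+ V} {io : Fin 3 → V →+ W} {Pi : Fin 3 → W →+ V} {τ : W →+ W}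

theorem Hyp_p_dvd (h : Hyp p l n T io Pi τ) : p ∣ l - 1 :=
  (dvd_pow_self p (by have := h.hn; omega)).trans h.hdvd

theorem Hyp_coprime_l (h : Hyp p l n T io Pi τ) : Nat.Coprime l p := by
  rw [Nat.coprime_comm, Nat.Prime.coprime_iff_not_dvd h.hp]
  intro h1
  have h2 : p ∣ l - (l - 1) := Nat.dvd_sub h1 (Hyp_p_dvd h)
  rw [show l - (l - 1) = 1 by have := h.hl; omega] at h2
  exact h.hp.one_lt.ne' (Nat.dvd_one.1 h2)

theorem Hyp_coprime_l1 (h : Hyp p l n T io Pi τ) (hp2 : p ≠ 2) : Nat.Coprime (l + 1) p := by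
  rw [Nat.coprime_comm, Nat.Prime.coprime_iff_not_dvd h.hp]
  intro h1
  have h2 : p ∣ l + 1 - (l - 1) := Nat.dvd_sub h1 (Hyp_p_dvd h)
  rw [show l + 1 - (l - 1) = 2 by have := h.hl; omega] at h2
  exact hp2 ((Nat.prime_dvd_prime_iff_eq h.hp Nat.prime_two).1 h2)

/-- **(S1)** the exact kernel of `A = Π ι`. -/
theorem ker_A_exact (h : Hyp p l n T io Pi τ) (hp2 : p ≠ 2) (v : Fin 3 → V)
    (hv : ∀ i, Pi i (io 0 (v 0) + io 1 (v 1) + io 2 (v 2)) = 0) :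
    v 2 = v 0 ∧ (l - 1) • v 0 = 0 ∧ v 1 = - T (v 0) := by
  have hcl := Hyp_coprime_l h
  have hcl1 := Hyp_coprime_l1 h hp2
  obtain ⟨m, rfl⟩ : ∃ m, l = m + 1 := ⟨l - 1, by have := h.hl; omega⟩
  have E0 := hv 0
  have E1 := hv 1
  have E2 := hv 2
  rw [map_add, map_add, h.diag, h.adj01, h.far02] at E0
  rw [map_add, map_add, h.diag, h.adj10, h.adj12] at E1
  rw [map_add, map_add, h.diag, h.adj21, h.far20] at E2
  have h02 : v 0 - v 2 = 0 := by
    refine h.unit' _ ?_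
    rw [map_sub, map_sub]
    have : ((m + 1 + 1) ^ 2) • (v 0 - v 2) - (T (T (v 0)) - T (T (v 2)))
        = (((m + 1) * (m + 1 + 1)) • v 0 + (m + 1) • T (v 1) + (T (T (v 2)) - (m + 1 + 1) • v 2))
          - (T (T (v 0)) - (m + 1 + 1) • v 0 + (m + 1) • T (v 1)
            + ((m + 1) * (m + 1 + 1)) • v 2) := by module
    rw [this, E0, E2, sub_zero]
  have h2 : v 2 = v 0 := (sub_eq_zero.1 h02).symm
  rw [h2] at E0 E1
  have TE1 := congrArg T E1
  rw [map_add, map_add, map_nsmul, map_nsmul, map_zero] at TE1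
  have h0 : m • v 0 = 0 := by
    refine h.unit' _ ?_
    rw [map_nsmul, map_nsmul]
    have : ((m + 1 + 1) ^ 2) • (m • v 0) - m • T (T (v 0))
        = (m + 2) • (((m + 1) * (m + 1 + 1)) • v 0 + (m + 1) • T (v 1)
            + (T (T (v 0)) - (m + 1 + 1) • v 0))
          - ((m + 1) • T (T (v 0)) + ((m + 1) * (m + 1 + 1)) • T (v 1)
            + (m + 1) • T (T (v 0))) := by module
    rw [this, E0, TE1]; simp
  have hT0 : m • T (v 0) = 0 := by rw [← map_nsmul, h0, map_zero]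
  have h3 : (m + 1) • ((m + 1 + 1) • (v 1 + T (v 0))) = 0 := by
    have : (m + 1) • ((m + 1 + 1) • (v 1 + T (v 0)))
        = ((m + 1) • T (v 0) + ((m + 1) * (m + 1 + 1)) • v 1 + (m + 1) • T (v 0))
          + (m + 1) • (m • T (v 0)) := by module
    rw [this, E1, hT0]; simp
  have htors : ∀ x : V, ∃ k, p ^ k • x = 0 := h.Vtors
  have h4 := eq_zero_of_coprime_nsmul hcl (htors _) h3
  have h5 := eq_zero_of_coprime_nsmul hcl1 (htors _) h4
  refine ⟨h2, by simpa using h0, eq_neg_of_add_eq_zero_left h5⟩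

/-- **(S2)** the `τ`-fixed new classes are the `x_v`, `p^n v = 0`. -/
theorem fix_new (h : Hyp p l n T io Pi τ) (hp2 : p ≠ 2) (hex : ¬ p ^ (n + 1) ∣ l - 1) (x : W)
    (hx : τ x = x) (hnew : ∀ i, Pi i x = 0) : ∃ v : V, p ^ n • v = 0 ∧ xv T io v = x := by
  obtain ⟨v, rfl⟩ := h.fix x hx hnew
  obtain ⟨h2, h0, h1⟩ := ker_A_exact h hp2 v hnew
  refine ⟨v 0, pow_nsmul_eq_zero_of_not_dvd h.hp hex (h.Vtors _) h0, ?_⟩
  rw [xv_apply, h2, h1, map_neg, sub_eq_add_neg]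

/-- converse of `fix_new`. -/
theorem xv_new (h : Hyp p l n T io Pi τ) (v : V) (hv : p ^ n • v = 0) :
    xv T io v ∈ Wnew Pi ∧ τ (xv T io v) = xv T io v := by
  refine ⟨h.xv_mem v ?_, h.tau_xv v⟩
  obtain ⟨c, hc⟩ := h.hdvd
  rw [hc, mul_comm, mul_smul, hv, smul_zero]

end Fermat.Agent.ML.TWFree
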