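import Fermat.Agent.ML.TWFree.Top
import Fermat.Agent.ML.TWFree.Inst.NR

/-!
# ML / TWFREE / Top0 : COGEN / BOX at a base level which need NOT be rigid (`MTW0`)

The same statements as `IsCube.cogen`, `IsCube.hcogen`, `twfree_of`, with `TC : MTW0 ..` (levels `M`, `M * 2`) : only
`mem_cutS_lev`, `le_nuP`, `notT` of `TC` are used.
-/

set_option autoImplicit false

noncomputable section

open AlgebraicCurve ModularCurve

namespace Fermat.Agent.ML.TWFree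

open Fermat.Agent.RIB Fermat.Agent.GAL Fermat.Agent.GAL.PC

local notation "Qbar" => AlgebraicClosure ℚ
local notation "GQ" => (AlgebraicClosure ℚ ≃ₐ[ℚ] AlgebraicClosure ℚ)
local notation "M₂" => Matrix (Fin 2) (Fin 2)

variable {p : ℕ} [Fact p.Prime] {T : Finset ℕ} {θ : ℕ → ℤ} {rbar0 : GQ →* M₂ (ZMod p)}
  {L₀ t n : ℕ} [NeZero L₀] {qv : Fin t → Nat.Primes} {τ : Fin t → GQ}

namespace IsCube

/-- **COGEN**, base level not necessarily rigid. -/
theorem cogen0 (hC : IsCube p (↑(cutS T qv) : Set ℕ) θ L₀ qv τ) (EC : MCtx p T θ rbar0)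
    (TC : MTW0 p T θ L₀ t n qv) (hτ : ∀ i, rbar0 (τ i) = 1) (R : Finset (Fin t)) :
    Nat.card ↥(Xnew p (↑(cutS T qv) : Set ℕ) θ L₀ qv R ⊓ kill (ccZ p τ) (lev L₀ qv R)) ≤
      Nat.card ↥(WS L₀ p (↑(cutS T qv) : Set ℕ) θ) ^ (2 ^ R.card) := by
  have hle : thetaPart L₀ p (↑(cutS T qv) : Set ℕ) θ ⊓ kill (ccZ p τ) L₀ ≤
      WS L₀ p (↑(cutS T qv) : Set ℕ) θ := fun x hx => ⟨hx.1, (mem_kill_ccZ.1 hx.2).1⟩
  have hfin : Finite ↥(thetaPart L₀ p (↑(cutS T qv) : Set ℕ) θ ⊓ kill (ccZ p τ) L₀) :=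
    Finite.of_injective (AddSubgroup.inclusion hle) (AddSubgroup.inclusion_injective hle)
  have h1 := (hC.base (ccZ p τ) isNat_ccZ
    (fun Q i _ x hx => by
      obtain ⟨h1, h2⟩ := mem_kill_ccZ.1 hx.2
      refine mem_kill_ccZ.2 ⟨?_, fun j => ?_⟩
      · have h3 := map_nsmul (DistribSMul.toAddMonoidHom (JZero (lev L₀ qv Q)) (τ i)) p x
        rw [h1, map_zero] at h3
        exact h3.symm
      · have := Low.zop_central EC (cutS T qv) (subset_cutS T qv) (lev L₀ qv Q)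
          (fun r hr hd => TC.mem_cutS_lev Q hr hd) (hτ j) (τ i) x ⟨hx.1, h1⟩
        rw [TWLoc.zop_apply, TWLoc.zop_apply, h2 j] at this
        rw [this]
        exact gal_zero _ _)
    (fun Q i _ x hx => (mem_kill_ccZ.1 hx.2).2 i) hfin R).2
  exact h1.trans (Nat.pow_le_pow_left (Nat.card_le_card_of_injective _
    (AddSubgroup.inclusion_injective hle)) _)

/-- **COGEN**, numerical form, base level not necessarily rigid. -/
theorem hcogen0 (hC : IsCube p (↑(cutS T qv) : Set ℕ) θ L₀ qv τ) (EC : MCtx p T θ rbar0)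
    (TC : MTW0 p T θ L₀ t n qv) (hτ : ∀ i, rbar0 (τ i) = 1) :
    Nat.card ↥(Xnew p (↑(cutS T qv) : Set ℕ) θ L₀ qv Finset.univ ⊓
      kill (ccZ p τ) (lev L₀ qv Finset.univ)) ≤
      p ^ (2 ^ t * Module.finrank (ZMod p) ↥(WS L₀ p (↑(cutS T qv) : Set ℕ) θ)) := by
  have h := hC.cogen0 EC TC hτ Finset.univ
  rw [card_WS, ← pow_mul, Finset.card_univ, Fintype.card_fin, mul_comm] at h
  exact h

end IsCube

/-- **the TWFREE contract, Galois form, for a given `(A, τ)`**; `t = 0` allowed; the base level need not be rigid. -/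
theorem twfree_of0 (EC : MCtx p T θ rbar0) (TC : MTW0 p T θ L₀ t n qv)
    {A : Fin t → ValuationSubring Qbar} (hA : ∀ i, (A i).LiesOverPrime ((qv i : Nat.Primes) : ℕ))
    (hτ : ∀ i, τ i ∈ (A i).inertiaSubgroupIn ℚ)
    (hC : IsCube p (↑(cutS T qv) : Set ℕ) θ L₀ qv τ) :
      -- COGEN
      Nat.card {x : JZero (lev L₀ qv Finset.univ) //
        x ∈ Xnew p (↑(cutS T qv) : Set ℕ) θ L₀ qv Finset.univ ∧ p • x = 0 ∧
          ∀ i, TWLoc.zop (τ i) x = 0} ≤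
        p ^ (2 ^ t * Module.finrank (ZMod p) ↥(WS L₀ p (↑(cutS T qv) : Set ℕ) θ)) ∧
      -- BOX
      ∀ a : ℕ, 1 ≤ a → 2 * a ≤ n + 1 →
        p ^ (2 ^ t * Module.finrank (ZMod p) ↥(WS L₀ p (↑(cutS T qv) : Set ℕ) θ) * a ^ (t + 1)) ≤
          Nat.card {x : JZero (lev L₀ qv Finset.univ) //
            x ∈ Xnew p (↑(cutS T qv) : Set ℕ) θ L₀ qv Finset.univ ∧ p ^ a • x = 0 ∧
              ∀ i, (TWLoc.zop (τ i))^[a] x = 0} := by
  have hlp : ∀ i, ((qv i : Nat.Primes) : ℕ) ≠ p := fun i h => TC.notT i (h ▸ EC.p_mem)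
  have hrb : ∀ i, rbar0 (τ i) = 1 := fun i =>
    EC.unramT _ (qv i).2 (TC.notT i) (A i) (hA i) (τ i) (hτ i)
  have hcog : Nat.card {x : JZero (lev L₀ qv Finset.univ) //
      x ∈ Xnew p (↑(cutS T qv) : Set ℕ) θ L₀ qv Finset.univ ∧ p • x = 0 ∧
        ∀ i, TWLoc.zop (τ i) x = 0} ≤
      p ^ (2 ^ t * Module.finrank (ZMod p) ↥(WS L₀ p (↑(cutS T qv) : Set ℕ) θ)) := by
    refine le_trans (le_of_eq (Nat.card_congr (Equiv.subtypeEquivRight fun x => ?_)))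
      (hC.hcogen0 EC TC hrb)
    rw [AddSubgroup.mem_inf, mem_kill_ccZ]
    rfl
  refine ⟨hcog, fun a ha h2a => ?_⟩
  refine box_of_sub EC (cutS T qv) (subset_cutS T qv) (lev L₀ qv Finset.univ)
    (fun r hr hd => TC.mem_cutS_lev Finset.univ hr hd) τ
    (fun i j ζ hζ => inertia_fix_roots (qv i).2 (hlp i) (hA i) (hτ i) j ζ hζ)
    (Xnew p (↑(cutS T qv) : Set ℕ) θ L₀ qv Finset.univ) (fun σ x hx => smul_mem_Xnew σ hx) ha
    (nuP p qv) (fun i => h2a.trans (TC.le_nuP i))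
    (fun i x hx => hC.norm_zero Finset.univ i (Finset.mem_univ i) x hx) hcog ?_
  refine le_trans (hC.hsize' EC.hp2 a)
    (le_of_eq (Nat.card_congr (Equiv.subtypeEquivRight fun x => ?_)))
  rw [AddSubgroup.mem_inf]
  rfl

end Fermat.Agent.ML.TWFree
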